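import Fermat.Agent.S52.Defs
import Fermat.Prelude.Def_FLTPrelim_Modularity

/-!
# S52 block (E): point count of a general Weierstrass model = point count of its short model
-/

set_option autoImplicit false

namespace Fermat.Agent.S52

open Fermat.Agent.Lib.Hasse

section general

variable {K : Type*} [Field K]

theorem Count_nonsingular_of_Δ_ne_zero {W : WeierstrassCurve.Affine K} {x y : K}
    (h : W.Equation x y) (hΔ : WeierstrassCurve.Δ W ≠ 0) : W.Nonsingular x y :=
  (WeierstrassCurve.Affine.equation_iff_nonsingular_of_Δ_ne_zero hΔ).mp h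

theorem Count_eqn_transfer (W : WeierstrassCurve K) (x y : K) :
    (108 * (2 * y + W.a₁ * x + W.a₃)) ^ 2
      - ((36 * x + 3 * W.b₂) ^ 3 + (-27 * W.c₄) * (36 * x + 3 * W.b₂) + (-54 * W.c₆))
    = 46656 * (y ^ 2 + W.a₁ * x * y + W.a₃ * y - (x ^ 3 + W.a₂ * x ^ 2 + W.a₄ * x + W.a₆)) := by
  simp only [WeierstrassCurve.c₄, WeierstrassCurve.c₆, WeierstrassCurve.b₂, WeierstrassCurve.b₄,
    WeierstrassCurve.b₆]
  ring

theorem Count_sw_equation (A B X Y : K) :
    (sw A B).Equation X Y ↔ Y ^ 2 = X ^ 3 + A * X + B := by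
  rw [WeierstrassCurve.Affine.equation_iff]
  simp [sw]

theorem Count_sw_Δ (W : WeierstrassCurve K) :
    WeierstrassCurve.Δ (sw (-27 * W.c₄) (-54 * W.c₆)) = 2 ^ 12 * 3 ^ 12 * W.Δ := by
  have h := W.c_relation
  have h1 : WeierstrassCurve.Δ (sw (-27 * W.c₄) (-54 * W.c₆))
      = 16 * 78732 * (W.c₄ ^ 3 - W.c₆ ^ 2) := by
    simp only [sw, WeierstrassCurve.Δ, WeierstrassCurve.b₂, WeierstrassCurve.b₄,
      WeierstrassCurve.b₆, WeierstrassCurve.b₈]
    ring
  rw [h1, ← h]
  ring

theorem Count_equation_iff (h2 : (2 : K) ≠ 0) (h3 : (3 : K) ≠ 0) (W : WeierstrassCurve K)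
    (x y : K) :
    (sw (-27 * W.c₄) (-54 * W.c₆)).Equation (36 * x + 3 * W.b₂)
      (108 * (2 * y + W.a₁ * x + W.a₃)) ↔ W.toAffine.Equation x y := by
  rw [Count_sw_equation, WeierstrassCurve.Affine.equation_iff]
  have h := Count_eqn_transfer W x y
  have hc : (46656 : K) ≠ 0 := by
    have : (46656 : K) = 2 ^ 6 * 3 ^ 6 := by norm_num
    rw [this]
    exact mul_ne_zero (pow_ne_zero _ h2) (pow_ne_zero _ h3)
  constructor
  · intro he
    rw [he, sub_self] at h
    have := (mul_eq_zero.mp h.symm).resolve_left hc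
    exact sub_eq_zero.mp this
  · intro he
    rw [he, sub_self, mul_zero] at h
    exact sub_eq_zero.mp h

/-- the bijection between the points of a Weierstrass curve and those of its short model. -/
noncomputable def Count_equiv (h2 : (2 : K) ≠ 0) (h3 : (3 : K) ≠ 0) (W : WeierstrassCurve K)
    (hΔ : W.Δ ≠ 0) : W.toAffine.Point ≃ Pt (-27 * W.c₄) (-54 * W.c₆) where
  toFun P := match P with
    | .zero => .zero
    | .some x y h => .some (36 * x + 3 * W.b₂) (108 * (2 * y + W.a₁ * x + W.a₃))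
        (Count_nonsingular_of_Δ_ne_zero
          ((Count_equation_iff h2 h3 W x y).mpr h.1)
          (by
            rw [Count_sw_Δ]
            exact mul_ne_zero (mul_ne_zero (pow_ne_zero _ h2) (pow_ne_zero _ h3)) hΔ))
  invFun P := match P with
    | .zero => .zero
    | .some X Y h => .some ((X - 3 * W.b₂) / 36)
        ((Y / 108 - W.a₁ * ((X - 3 * W.b₂) / 36) - W.a₃) / 2)
        (Count_nonsingular_of_Δ_ne_zero
          ((Count_equation_iff h2 h3 W _ _).mp (by
            have h36 : (36 : K) ≠ 0 := by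
              have : (36 : K) = 2 ^ 2 * 3 ^ 2 := by norm_num
              rw [this]
              exact mul_ne_zero (pow_ne_zero _ h2) (pow_ne_zero _ h3)
            have h108 : (108 : K) ≠ 0 := by
              have : (108 : K) = 2 ^ 2 * 3 ^ 3 := by norm_num
              rw [this]
              exact mul_ne_zero (pow_ne_zero _ h2) (pow_ne_zero _ h3)
            have e1 : 36 * ((X - 3 * W.b₂) / 36) + 3 * W.b₂ = X := by
              field_simp
              ring
            have e2 : 108 * (2 * ((Y / 108 - W.a₁ * ((X - 3 * W.b₂) / 36) - W.a₃) / 2)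
                + W.a₁ * ((X - 3 * W.b₂) / 36) + W.a₃) = Y := by
              field_simp
              ring
            rw [e1, e2]
            exact h.1)) hΔ)
  left_inv P := by
    have h36 : (36 : K) ≠ 0 := by
      have : (36 : K) = 2 ^ 2 * 3 ^ 2 := by norm_num
      rw [this]
      exact mul_ne_zero (pow_ne_zero _ h2) (pow_ne_zero _ h3)
    have h108 : (108 : K) ≠ 0 := by
      have : (108 : K) = 2 ^ 2 * 3 ^ 3 := by norm_num
      rw [this]
      exact mul_ne_zero (pow_ne_zero _ h2) (pow_ne_zero _ h3)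
    rcases P with _ | ⟨x, y, h⟩
    · rfl
    · simp only [WeierstrassCurve.Affine.Point.some.injEq]
      constructor
      · field_simp
        ring
      · field_simp
        ring
  right_inv P := by
    have h36 : (36 : K) ≠ 0 := by
      have : (36 : K) = 2 ^ 2 * 3 ^ 2 := by norm_num
      rw [this]
      exact mul_ne_zero (pow_ne_zero _ h2) (pow_ne_zero _ h3)
    have h108 : (108 : K) ≠ 0 := by
      have : (108 : K) = 2 ^ 2 * 3 ^ 3 := by norm_num
      rw [this]
      exact mul_ne_zero (pow_ne_zero _ h2) (pow_ne_zero _ h3)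
    rcases P with _ | ⟨X, Y, h⟩
    · rfl
    · simp only [WeierstrassCurve.Affine.Point.some.injEq]
      constructor
      · field_simp
        ring
      · field_simp
        ring

end general

theorem Count_two_ne_zero (ℓ : ℕ) [Fact ℓ.Prime] (hℓ : 5 ≤ ℓ) : (2 : ZMod ℓ) ≠ 0 := by
  intro h
  have h' : ((2 : ℕ) : ZMod ℓ) = 0 := by exact_mod_cast h
  rw [ZMod.natCast_eq_zero_iff] at h'
  have := Nat.le_of_dvd (by norm_num) h'
  omega

theorem Count_three_ne_zero (ℓ : ℕ) [Fact ℓ.Prime] (hℓ : 5 ≤ ℓ) : (3 : ZMod ℓ) ≠ 0 := by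
  intro h
  have h' : ((3 : ℕ) : ZMod ℓ) = 0 := by exact_mod_cast h
  rw [ZMod.natCast_eq_zero_iff] at h'
  have := Nat.le_of_dvd (by norm_num) h'
  omega

/-- `(x,y) ↦ (36 x + 3 b₂, 108 (2 y + a₁ x + a₃))`. -/
theorem card_short (ℓ : ℕ) [Fact ℓ.Prime] (hℓ : 5 ≤ ℓ) (W : WeierstrassCurve (ZMod ℓ))
    (hΔ : W.Δ ≠ 0) :
    Nat.card W.toAffine.Point = Nat.card (Pt (-27 * W.c₄) (-54 * W.c₆)) :=
  Nat.card_congr (Count_equiv (Count_two_ne_zero ℓ hℓ) (Count_three_ne_zero ℓ hℓ) W hΔ)

theorem apOfModel_eq (W : WeierstrassCurve ℤ) (ℓ : ℕ) [Fact ℓ.Prime] (hℓ : 5 ≤ ℓ)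
    (hg : W.IsGoodPrimeFor ℓ) :
    W.apOfModel ℓ = (ℓ : ℤ) + 1
      - (Nat.card (Pt (-27 * (W.c₄ : ZMod ℓ)) (-54 * (W.c₆ : ZMod ℓ))) : ℤ) := by
  have hΔ : (W.reductionMod ℓ).Δ ≠ 0 := by
    unfold WeierstrassCurve.reductionMod
    rw [WeierstrassCurve.map_Δ]
    intro h
    apply hg
    exact (ZMod.intCast_zmod_eq_zero_iff_dvd _ _).mp h
  have h := card_short ℓ hℓ (W.reductionMod ℓ) hΔ
  have hc4 : (W.reductionMod ℓ).c₄ = (W.c₄ : ZMod ℓ) := by
    unfold WeierstrassCurve.reductionMod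
    rw [WeierstrassCurve.map_c₄]
    rfl
  have hc6 : (W.reductionMod ℓ).c₆ = (W.c₆ : ZMod ℓ) := by
    unfold WeierstrassCurve.reductionMod
    rw [WeierstrassCurve.map_c₆]
    rfl
  rw [hc4, hc6] at h
  unfold WeierstrassCurve.apOfModel WeierstrassCurve.traceOfFrobenius WeierstrassCurve.card
  rw [h, Nat.card_zmod]

end Fermat.Agent.S52
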