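import Fermat.Agent.S52.Defs

/-!
# S52 block (D2a,b): elementary number theory for the auxiliary prime
-/

set_option autoImplicit false

namespace Fermat.Agent.S52

namespace AuxPrimeA

/-- A natural number `≡ 2 mod 3` has a prime factor `≡ 2 mod 3`. -/
theorem exists_prime_two_mod_three (n : ℕ) (hn : n % 3 = 2) :
    ∃ q : ℕ, q.Prime ∧ q % 3 = 2 ∧ q ∣ n := by
  induction n using Nat.strong_induction_on with
  | _ n ih =>
    have hn1 : n ≠ 1 := by omega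
    have hp := Nat.minFac_prime hn1
    have hd := Nat.minFac_dvd n
    obtain ⟨m, hm⟩ := hd
    set p := n.minFac with hpdef
    by_cases h2 : p % 3 = 2
    · exact ⟨p, hp, h2, ⟨m, hm⟩⟩
    · have h0 : p % 3 ≠ 0 := by
        intro h0
        have : n % 3 = 0 := by
          rw [hm, Nat.mul_mod, h0]; simp
        omega
      have h1 : p % 3 = 1 := by omega
      have hm3 : m % 3 = 2 := by
        have : n % 3 = (p % 3) * (m % 3) % 3 := by rw [hm, Nat.mul_mod]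
        rw [h1, hn] at this
        omega
      have hlt : m < n := by
        have hp2 := hp.two_le
        have hm0 : 0 < m := by omega
        rw [hm]
        nlinarith
      obtain ⟨q, hq, hq3, hqm⟩ := ih m hlt hm3
      exact ⟨q, hq, hq3, hm ▸ Dvd.dvd.mul_left hqm p⟩

theorem exists_prime_of_sq_add_sq (A B : ℤ) (h2 : ¬ (2 : ℤ) ∣ A ^ 2 + B ^ 2)
    (h3 : (A ^ 2 + B ^ 2) % 3 = 2) :
    ∃ q : ℕ, q.Prime ∧ q % 12 = 5 ∧ (q : ℤ) ∣ A ^ 2 + B ^ 2 := by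
  have hAB : ¬ (A = 0 ∧ B = 0) := by
    rintro ⟨rfl, rfl⟩
    simp at h3
  have hg : 0 < Int.gcd A B := by
    rw [Int.gcd_pos_iff]
    by_contra h
    exact hAB ⟨by tauto, by tauto⟩
  obtain ⟨A', B', hcop, hA, hB⟩ := Int.exists_gcd_one hg
  set g : ℤ := (Int.gcd A B : ℤ) with hgdef
  have hN : A ^ 2 + B ^ 2 = g ^ 2 * (A' ^ 2 + B' ^ 2) := by
    conv_lhs => rw [hA, hB]
    ring
  set N' : ℤ := A' ^ 2 + B' ^ 2 with hN'
  have hN'3 : N' % 3 = 2 := by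
    have h := h3
    rw [hN, Int.mul_emod, pow_two, Int.mul_emod g g] at h
    have hg3 : g % 3 = 0 ∨ g % 3 = 1 ∨ g % 3 = 2 := by omega
    have hn3 : N' % 3 = 0 ∨ N' % 3 = 1 ∨ N' % 3 = 2 := by omega
    rcases hg3 with e | e | e <;> rcases hn3 with e' | e' | e' <;> rw [e, e'] at h <;>
      simp at h <;> exact e'
  have hN'nn : 0 ≤ N' := by positivity
  have hnat : (N'.natAbs : ℤ) = N' := Int.natAbs_of_nonneg hN'nn
  have hnat3 : N'.natAbs % 3 = 2 := by omega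
  obtain ⟨q, hq, hq3, hqd⟩ := exists_prime_two_mod_three _ hnat3
  have hsq : IsSquare (-1 : ZMod N'.natAbs) :=
    ZMod.isSquare_neg_one_of_eq_sq_add_sq_of_isCoprime hN' (Int.isCoprime_iff_gcd_eq_one.mpr hcop)
  have hne : N'.natAbs ≠ 0 := by omega
  have hq4 : q % 4 ≠ 3 :=
    Nat.mod_four_ne_three_of_mem_primeFactors_of_isSquare_neg_one
      (Nat.mem_primeFactors.mpr ⟨hq, hqd, hne⟩) hsq
  have hqN : (q : ℤ) ∣ A ^ 2 + B ^ 2 := by
    rw [hN]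
    apply Dvd.dvd.mul_left
    rw [← hnat]
    exact_mod_cast hqd
  have hq2 : q % 2 = 1 := by
    rcases Nat.mod_two_eq_zero_or_one q with h | h
    · exfalso
      have : q = 2 := (Nat.prime_dvd_prime_iff_eq Nat.prime_two hq).mp
        (Nat.dvd_of_mod_eq_zero h) |>.symm
      apply h2
      rw [this] at hqN
      exact_mod_cast hqN
    · exact h
  exact ⟨q, hq, by omega, hqN⟩

/-! ### The Gaussian norm trick -/

section Poly

variable {R : Type*} [CommRing R]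

def X4 (W : R) : R := W ^ 4 - 494 * W ^ 2 + 1
def Y4 (W : R) : R := 228 * (W ^ 3 + W)
def Xh (W : R) : R := -W ^ 2 - 1
def Yh (W : R) : R := 11 * W

/-- real part of `Δ i4((jw)⁵,1)³ + c³ iD((jw)⁵,1)`. -/
def gA (Δ c w : R) : R :=
  Δ * (X4 (w ^ 5) ^ 3 - 3 * X4 (w ^ 5) * Y4 (w ^ 5) ^ 2)
    - c ^ 3 * w ^ 5 * (5 * Xh (w ^ 5) ^ 4 * Yh (w ^ 5) - 10 * Xh (w ^ 5) ^ 2 * Yh (w ^ 5) ^ 3
      + Yh (w ^ 5) ^ 5)

/-- imaginary part. -/
def gB (Δ c w : R) : R :=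
  Δ * (3 * X4 (w ^ 5) ^ 2 * Y4 (w ^ 5) - Y4 (w ^ 5) ^ 3)
    + c ^ 3 * w ^ 5 * (Xh (w ^ 5) ^ 5 - 10 * Xh (w ^ 5) ^ 3 * Yh (w ^ 5) ^ 2
      + 5 * Xh (w ^ 5) * Yh (w ^ 5) ^ 4)

def gN (Δ c w : R) : R := gA Δ c w ^ 2 + gB Δ c w ^ 2

theorem map_gN {S : Type*} [CommRing S] (f : R →+* S) (Δ c w : R) :
    f (gN Δ c w) = gN (f Δ) (f c) (f w) := by
  simp [gN, gA, gB, X4, Y4, Xh, Yh, map_ofNat]

theorem map_gA {S : Type*} [CommRing S] (f : R →+* S) (Δ c w : R) :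
    f (gA Δ c w) = gA (f Δ) (f c) (f w) := by
  simp [gA, X4, Y4, Xh, Yh, map_ofNat]

theorem map_gB {S : Type*} [CommRing S] (f : R →+* S) (Δ c w : R) :
    f (gB Δ c w) = gB (f Δ) (f c) (f w) := by
  simp [gB, X4, Y4, Xh, Yh, map_ofNat]

theorem gauss_identity (Δ c w j : R) (hj : j ^ 2 = -1) :
    Δ * i4 ((j * w) ^ 5) 1 ^ 3 + c ^ 3 * iD ((j * w) ^ 5) 1 = gA Δ c w + j * gB Δ c w := by
  set W := w ^ 5 with hW
  have h5 : (j * w) ^ 5 = j * W := by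
    rw [hW]
    linear_combination (j ^ 3 * w ^ 5 - j * w ^ 5) * hj
  have h4 : i4 (j * W) 1 = X4 W + j * Y4 W := by
    unfold i4 X4 Y4
    linear_combination ((j ^ 2 - 1) * W ^ 4 - 228 * W ^ 3 * j + 494 * W ^ 2) * hj
  have hF : iF (j * W) 1 = Xh W + j * Yh W := by
    unfold iF Xh Yh
    linear_combination (W ^ 2) * hj
  have c3 : ∀ X Y : R, (X + j * Y) ^ 3 = (X ^ 3 - 3 * X * Y ^ 2) + j * (3 * X ^ 2 * Y - Y ^ 3) := by
    intro X Y
    linear_combination (3 * X * Y ^ 2 + j * Y ^ 3) * hj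
  have c5 : ∀ X Y : R, (X + j * Y) ^ 5 = (X ^ 5 - 10 * X ^ 3 * Y ^ 2 + 5 * X * Y ^ 4)
      + j * (5 * X ^ 4 * Y - 10 * X ^ 2 * Y ^ 3 + Y ^ 5) := by
    intro X Y
    linear_combination (10 * X ^ 3 * Y ^ 2 + 10 * X ^ 2 * Y ^ 3 * j
      + (5 * X * Y ^ 4 + j * Y ^ 5) * (j ^ 2 - 1)) * hj
  rw [h5]
  unfold iD
  rw [h4, hF, c3, c5]
  unfold gA gB
  rw [← hW]
  linear_combination (c ^ 3 * W * (5 * Xh W ^ 4 * Yh W - 10 * Xh W ^ 2 * Yh W ^ 3 + Yh W ^ 5)) * hj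

theorem gN_zero_one (c : R) : gN 0 c 1 = c ^ 6 * 125 ^ 5 := by
  simp only [gN, gA, gB, X4, Y4, Xh, Yh]
  ring

theorem gN_w_zero (Δ c : R) : gN Δ c 0 = Δ ^ 2 := by
  simp only [gN, gA, gB, X4, Y4, Xh, Yh]
  ring

end Poly

theorem gN_three : ∀ Δ c : ZMod 3, c ≠ 0 → gN Δ c 1 = 2 := by
  simp only [gN, gA, gB, X4, Y4, Xh, Yh]
  decide

theorem gN_five : ∀ c : ZMod 5, c ≠ 0 → gN 0 c 2 ≠ 0 := by
  simp only [gN, gA, gB, X4, Y4, Xh, Yh]
  decide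

theorem two_ne_zero_zmod_three : (2 : ZMod 3) ≠ 0 := by decide

theorem cast_gN (p : ℕ) (Δ c : ℤ) (w : ℕ) :
    ((gN Δ c (w : ℤ) : ℤ) : ZMod p) = gN (Δ : ZMod p) (c : ZMod p) (w : ZMod p) := by
  have := map_gN (Int.castRingHom (ZMod p)) Δ c (w : ℤ)
  simpa using this

theorem cast_gA (p : ℕ) (Δ c : ℤ) (w : ℕ) :
    ((gA Δ c (w : ℤ) : ℤ) : ZMod p) = gA (Δ : ZMod p) (c : ZMod p) (w : ZMod p) := by
  have := map_gA (Int.castRingHom (ZMod p)) Δ c (w : ℤ)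
  simpa using this

theorem cast_gB (p : ℕ) (Δ c : ℤ) (w : ℕ) :
    ((gB Δ c (w : ℤ) : ℤ) : ZMod p) = gB (Δ : ZMod p) (c : ZMod p) (w : ZMod p) := by
  have := map_gB (Int.castRingHom (ZMod p)) Δ c (w : ℤ)
  simpa using this

theorem exists_prime_root (c4 Δ : ℤ) (hΔ : Δ ≠ 0) (h3 : ¬ (3 : ℤ) ∣ c4)
    (hss : ∀ p : ℕ, p.Prime → (p : ℤ) ∣ Δ → ¬ (p : ℤ) ∣ c4) :
    ∃ q : ℕ, q.Prime ∧ q % 12 = 5 ∧ ¬ (q : ℤ) ∣ 30 * Δ * c4 ∧
      ∃ τ : ZMod q, (Δ : ZMod q) * i4 (τ ^ 5) 1 ^ 3 + (c4 : ZMod q) ^ 3 * iD (τ ^ 5) 1 = 0 := by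
  classical
  have hc4 : c4 ≠ 0 := by
    rintro rfl
    exact h3 (dvd_zero _)
  set M : ℕ := (30 * Δ * c4).natAbs with hM
  have hM0 : M ≠ 0 := by
    rw [hM, Int.natAbs_ne_zero]
    exact mul_ne_zero (mul_ne_zero (by norm_num) hΔ) hc4
  let r : ℕ → ℕ := fun p =>
    if p = 3 then 1 else if (p : ℤ) ∣ Δ then (if p = 5 then 2 else 1) else 0
  obtain ⟨w, hw⟩ := Nat.chineseRemainderOfFinset r id M.primeFactors
    (fun p hp => (Nat.prime_of_mem_primeFactors hp).ne_zero)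
    (fun p hp q hq hpq => (Nat.coprime_primes (Nat.prime_of_mem_primeFactors hp)
      (Nat.prime_of_mem_primeFactors hq)).mpr hpq)
  have hwp : ∀ p : ℕ, p.Prime → (p : ℤ) ∣ 30 * Δ * c4 → (w : ZMod p) = (r p : ZMod p) := by
    intro p hp hd
    have hmem : p ∈ M.primeFactors := by
      rw [Nat.mem_primeFactors]
      exact ⟨hp, by rw [hM]; exact Int.natCast_dvd.mp hd, hM0⟩
    exact (ZMod.natCast_eq_natCast_iff _ _ _).mpr (hw p hmem)
  have h3val : ((gN Δ c4 (w : ℤ) : ℤ) : ZMod 3) = 2 := by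
    have hw3 := hwp 3 Nat.prime_three (Dvd.dvd.mul_right (Dvd.dvd.mul_right (by norm_num) _) _)
    have hr3 : r 3 = 1 := by simp [r]
    rw [hr3, Nat.cast_one] at hw3
    rw [cast_gN, hw3]
    apply gN_three
    intro h
    exact h3 ((ZMod.intCast_zmod_eq_zero_iff_dvd c4 3).mp h)
  have key : ∀ p : ℕ, p.Prime → (p : ℤ) ∣ 30 * Δ * c4 → ¬ (p : ℤ) ∣ gN Δ c4 (w : ℤ) := by
    intro p hp hd hdiv
    have := Fact.mk hp
    have h0 : ((gN Δ c4 (w : ℤ) : ℤ) : ZMod p) = 0 :=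
      (ZMod.intCast_zmod_eq_zero_iff_dvd _ p).mpr hdiv
    have hw' := hwp p hp hd
    by_cases hp3 : p = 3
    · subst hp3
      rw [h3val] at h0
      exact two_ne_zero_zmod_three h0
    by_cases hpΔ : (p : ℤ) ∣ Δ
    · have hΔ0 : (Δ : ZMod p) = 0 := (ZMod.intCast_zmod_eq_zero_iff_dvd _ p).mpr hpΔ
      have hc0 : (c4 : ZMod p) ≠ 0 := fun h =>
        hss p hp hpΔ ((ZMod.intCast_zmod_eq_zero_iff_dvd _ p).mp h)
      by_cases hp5 : p = 5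
      · subst hp5
        have hpΔ' : (5 : ℤ) ∣ Δ := by exact_mod_cast hpΔ
        have hr : r 5 = 2 := by simp [r, hpΔ']
        rw [hr] at hw'
        rw [cast_gN, hw', hΔ0] at h0
        exact gN_five _ hc0 (by simpa using h0)
      · have hr : r p = 1 := by simp [r, hp3, hpΔ, hp5]
        rw [hr, Nat.cast_one] at hw'
        rw [cast_gN, hw', hΔ0, gN_zero_one] at h0
        have h5 : (5 : ZMod p) ≠ 0 := by
          intro h
          have : ((5 : ℕ) : ZMod p) = 0 := by exact_mod_cast h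
          rw [ZMod.natCast_eq_zero_iff] at this
          exact hp5 ((Nat.prime_dvd_prime_iff_eq hp (by norm_num)).mp this)
        have h125 : (125 : ZMod p) = 5 ^ 3 := by norm_num
        rw [h125] at h0
        exact absurd h0 (mul_ne_zero (pow_ne_zero _ hc0) (pow_ne_zero _ (pow_ne_zero _ h5)))
    · have hr : r p = 0 := by simp [r, hp3, hpΔ]
      rw [hr, Nat.cast_zero] at hw'
      rw [cast_gN, hw', gN_w_zero] at h0
      have hΔ0 : (Δ : ZMod p) ≠ 0 := fun h =>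
        hpΔ ((ZMod.intCast_zmod_eq_zero_iff_dvd _ p).mp h)
      exact absurd h0 (pow_ne_zero _ hΔ0)
  have hodd : ¬ (2 : ℤ) ∣ gA Δ c4 (w : ℤ) ^ 2 + gB Δ c4 (w : ℤ) ^ 2 := by
    have := key 2 Nat.prime_two (Dvd.dvd.mul_right (Dvd.dvd.mul_right (by norm_num) _) _)
    exact_mod_cast this
  have hmod3 : (gA Δ c4 (w : ℤ) ^ 2 + gB Δ c4 (w : ℤ) ^ 2) % 3 = 2 := by
    have h := (ZMod.intCast_eq_intCast_iff' (gN Δ c4 (w : ℤ)) 2 3).mp (by rw [h3val]; rfl)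
    simpa [gN] using h
  obtain ⟨q, hq, hq12, hqd⟩ := exists_prime_of_sq_add_sq _ _ hodd hmod3
  refine ⟨q, hq, hq12, fun hd => key q hq hd hqd, ?_⟩
  have := Fact.mk hq
  obtain ⟨j, hj⟩ := (ZMod.exists_sq_eq_neg_one_iff (p := q)).mpr (by omega)
  have hj2 : j ^ 2 = -1 := by rw [pow_two, ← hj]
  have h0 : ((gN Δ c4 (w : ℤ) : ℤ) : ZMod q) = 0 :=
    (ZMod.intCast_zmod_eq_zero_iff_dvd _ q).mpr hqd
  rw [cast_gN] at h0
  set a := gA (Δ : ZMod q) (c4 : ZMod q) (w : ZMod q) with ha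
  set b := gB (Δ : ZMod q) (c4 : ZMod q) (w : ZMod q) with hb
  have hprod : (a + j * b) * (a + (-j) * b) = 0 := by
    have : a ^ 2 + b ^ 2 = 0 := h0
    linear_combination this - b ^ 2 * hj2
  rcases mul_eq_zero.mp hprod with h | h
  · exact ⟨j * w, by rw [gauss_identity _ _ _ j hj2]; exact h⟩
  · exact ⟨(-j) * w, by rw [gauss_identity _ _ _ (-j) (by rw [neg_sq, hj2])]; exact h⟩

end AuxPrimeA

end Fermat.Agent.S52
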