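import Fermat.Agent.S52.Param
import Fermat.Agent.S52.AuxPrimeA

/-!
# S52 block (D2): an auxiliary prime `q ≡ 5 mod 12` and a fibre with `q ∣ c₆(E_t)`, `q ∤ c₄(E_t)`
-/

set_option autoImplicit false

namespace Fermat.Agent.S52

/-- (D2a) elementary number theory. -/
theorem exists_prime_of_sq_add_sq (A B : ℤ) (h2 : ¬ (2 : ℤ) ∣ A ^ 2 + B ^ 2)
    (h3 : (A ^ 2 + B ^ 2) % 3 = 2) :
    ∃ q : ℕ, q.Prime ∧ q % 12 = 5 ∧ (q : ℤ) ∣ A ^ 2 + B ^ 2 :=
  AuxPrimeA.exists_prime_of_sq_add_sq A B h2 h3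

/-- (D2b) there is a prime `q ≡ 5 mod 12`, `q ∤ 30 Δ c₄`, such that the `j`-invariant `c₄³/Δ` is
the `j`-invariant of the icosahedral curve at some `𝔽_q`-rational `τ = u/v`. -/
theorem exists_prime_root (c4 Δ : ℤ) (hΔ : Δ ≠ 0) (h3 : ¬ (3 : ℤ) ∣ c4)
    (hss : ∀ p : ℕ, p.Prime → (p : ℤ) ∣ Δ → ¬ (p : ℤ) ∣ c4) :
    ∃ q : ℕ, q.Prime ∧ q % 12 = 5 ∧ ¬ (q : ℤ) ∣ 30 * Δ * c4 ∧
      ∃ τ : ZMod q, (Δ : ZMod q) * i4 (τ ^ 5) 1 ^ 3 + (c4 : ZMod q) ^ 3 * iD (τ ^ 5) 1 = 0 :=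
  AuxPrimeA.exists_prime_root c4 Δ hΔ h3 hss

/-- `i6` vanishes at `(j r, r)` when `j² = -1`. -/
theorem AuxPrime_i6_j {R : Type*} [CommRing R] (j r : R) (hj : j ^ 2 = -1) : i6 (j * r) r = 0 := by
  have h : i6 (j * r) r = -(r ^ 6 * (j ^ 2 + 1) * (j ^ 4 + 522 * j ^ 3 - 10006 * j ^ 2 - 522 * j + 1)) := by
    simp only [i6]; ring
  rw [h, hj]; ring

/-- `i4` at `(j r, r)` when `j² = -1`. -/
theorem AuxPrime_i4_j {R : Type*} [CommRing R] (j r : R) (hj : j ^ 2 = -1) :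
    i4 (j * r) r = 12 * (-41 + 38 * j) * r ^ 4 := by
  have h : i4 (j * r) r = 12 * (-41 + 38 * j) * r ^ 4
      + (j ^ 2 + 1) * (j ^ 2 - 228 * j + 493) * r ^ 4 := by
    simp only [i4]; ring
  rw [h, hj]; ring

/-- (D2c) from a rational `τ` to a fibre with `j = 1728`. -/
theorem exists_t_of_root {F : Type*} [Field F] (h30 : (30 : F) ≠ 0) (a b τ j : F) (ha : a ≠ 0)
    (hb : b ≠ 0) (hΔ : a ^ 3 - b ^ 2 ≠ 0) (hj : j ^ 2 = -1)
    (hτ : (a ^ 3 - b ^ 2) * i4 (τ ^ 5) 1 ^ 3 + 1728 * a ^ 3 * iD (τ ^ 5) 1 = 0) :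
    ∃ t : F, C6 t a b = 0 ∧ C4 t a b ≠ 0 := by
  have h2 : (2 : F) ≠ 0 := by
    intro h; apply h30
    have : (30 : F) = 2 * 15 := by norm_num
    rw [this, h, zero_mul]
  have h3 : (3 : F) ≠ 0 := by
    intro h; apply h30
    have : (30 : F) = 3 * 10 := by norm_num
    rw [this, h, zero_mul]
  have h5 : (5 : F) ≠ 0 := by
    intro h; apply h30
    have : (30 : F) = 5 * 6 := by norm_num
    rw [this, h, zero_mul]
  have h12 : (12 : F) ≠ 0 := by
    have : (12 : F) = 2 * 2 * 3 := by norm_num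
    rw [this]
    exact mul_ne_zero (mul_ne_zero h2 h2) h3
  set σ := τ ^ 5 with hσ
  set g4 := i4 σ 1 with hg4
  set g6 := i6 σ 1 with hg6
  set gD := iD σ 1 with hgD
  have hrel : g4 ^ 3 - g6 ^ 2 = -1728 * gD := i_rel σ 1
  have hkey : a ^ 3 * g6 ^ 2 = b ^ 2 * g4 ^ 3 := by linear_combination hτ - a ^ 3 * hrel
  have hg4' : g4 ≠ 0 := by
    intro h
    have h6 : g6 = 0 := by
      rw [h] at hkey
      have : a ^ 3 * g6 ^ 2 = 0 := by rw [hkey]; ring
      rcases mul_eq_zero.1 this with h' | h'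
      · exact absurd (pow_eq_zero_iff (by norm_num) |>.1 h') ha
      · exact pow_eq_zero_iff (by norm_num) |>.1 h'
    exact one_ne_zero (eq_zero_of_i4_i6 h30 h h6).2
  have hg6' : g6 ≠ 0 := by
    intro h
    apply hg4'
    rw [h] at hkey
    have : b ^ 2 * g4 ^ 3 = 0 := by rw [← hkey]; ring
    rcases mul_eq_zero.1 this with h' | h'
    · exact absurd (pow_eq_zero_iff (by norm_num) |>.1 h') hb
    · exact pow_eq_zero_iff (by norm_num) |>.1 h'
  have hgD' : gD ≠ 0 := by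
    intro h
    rw [h, mul_zero, add_zero] at hτ
    exact (mul_ne_zero hΔ (pow_ne_zero 3 hg4')) hτ
  have hσ0 : σ ≠ 0 := by
    intro h
    apply hgD'
    rw [hgD, h]; simp [iD]
  have hτ0 : τ ≠ 0 := by
    intro h
    apply hσ0
    rw [hσ, h]; simp
  have hF0 : iF σ 1 ≠ 0 := by
    intro h
    apply hgD'
    rw [hgD]; simp [iD, h]
  set α := al σ 1 with hα
  set β := be σ 1 with hβ
  have hαβ : α + β = 12 * iF σ 1 := al_add_be σ 1
  have hαβ0 : α + β ≠ 0 := by rw [hαβ]; exact mul_ne_zero h12 hF0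
  have hj0 : j ≠ 0 := by
    intro h
    rw [h] at hj
    have : (1 : F) = 0 := by linear_combination hj
    exact one_ne_zero this
  -- choice of the sign
  obtain ⟨i, hi, hden⟩ : ∃ i : F, i ^ 2 = -1 ∧ τ * α + i * β ≠ 0 := by
    by_cases h : τ * α + j * β = 0
    · refine ⟨-j, by rw [neg_sq, hj], fun h' => ?_⟩
      have e1 : 2 * τ * α = 0 := by linear_combination h + h'
      have e2 : 2 * j * β = 0 := by linear_combination h - h'
      have hα0 : α = 0 := by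
        rcases mul_eq_zero.1 e1 with h'' | h''
        · exact absurd h'' (mul_ne_zero h2 hτ0)
        · exact h''
      have hβ0 : β = 0 := by
        rcases mul_eq_zero.1 e2 with h'' | h''
        · exact absurd h'' (mul_ne_zero h2 hj0)
        · exact h''
      apply hαβ0
      rw [hα0, hβ0, add_zero]
    · exact ⟨j, hj, h⟩
  set s := (i - τ) / (τ * α + i * β) with hs
  have hs' : s * (τ * α + i * β) = i - τ := div_mul_cancel₀ _ hden
  have hline : τ * (1 + s * α) = i * (1 - s * β) := by linear_combination hs'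
  set Rr := (1 - s * β) ^ 5 with hRr
  have hi5 : i ^ 5 = i := by
    have : i ^ 5 = (i ^ 2) ^ 2 * i := by ring
    rw [this, hi]; ring
  have hP : σ * (1 + s * α) ^ 5 = i * Rr := by
    rw [hσ, ← mul_pow, hline, mul_pow, hi5]
  have hR0 : Rr ≠ 0 := by
    intro h
    have h1 : 1 - s * β = 0 := pow_eq_zero_iff (by norm_num) |>.1 h
    have h2' : 1 + s * α = 0 := by
      rw [h1, mul_zero] at hline
      rcases mul_eq_zero.1 hline with h'' | h''
      · exact absurd h'' hτ0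
      · exact h''
    have h3' : s * (α + β) = 0 := by linear_combination h2' - h1
    have hs0 : s = 0 := by
      rcases mul_eq_zero.1 h3' with h'' | h''
      · exact h''
      · exact absurd h'' hαβ0
    rw [hs0] at h1
    simp at h1
  set μ := b * g4 / (a * g6) with hμ
  have hμ0 : μ ≠ 0 := div_ne_zero (mul_ne_zero hb hg4') (mul_ne_zero ha hg6')
  have hμa : μ ^ 2 * g4 = a := by
    rw [hμ]
    field_simp
    linear_combination -hkey
  have hμb : μ ^ 3 * g6 = b := by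
    rw [hμ]
    field_simp
    linear_combination -hkey
  have hst : μ * (s / μ) = s := mul_div_cancel₀ _ hμ0
  refine ⟨s / μ, ?_, ?_⟩
  · have h1 : C6 (s / μ) a b = μ ^ 3 * C6 s g4 g6 := by
      conv_lhs => rw [← hμa, ← hμb]
      rw [C6_homog, hst]
    have h2' : C6 s g4 g6 = i6 (σ * (1 + s * α) ^ 5) (1 * (1 - s * β) ^ 5) := (i6_flow σ 1 s).symm
    rw [h1, h2', hP, one_mul, AuxPrime_i6_j i Rr hi, mul_zero]
  · have h1 : C4 (s / μ) a b = μ ^ 2 * C4 s g4 g6 := by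
      conv_lhs => rw [← hμa, ← hμb]
      rw [C4_homog, hst]
    have h2' : C4 s g4 g6 = i4 (σ * (1 + s * α) ^ 5) (1 * (1 - s * β) ^ 5) := (i4_flow σ 1 s).symm
    rw [h1, h2', hP, one_mul, AuxPrime_i4_j i Rr hi]
    have h41 : (-41 + 38 * i) ≠ 0 := by
      intro h
      have : (5 : F) ^ 5 = 0 := by
        have e : (5 : F) ^ 5 = (-41 + 38 * i) * (-41 - 38 * i) + 1444 * (i ^ 2 + 1) := by ring
        rw [e, h, hi]; ring
      exact h5 (pow_eq_zero_iff (by norm_num) |>.1 this)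
    exact mul_ne_zero (pow_ne_zero 2 hμ0)
      (mul_ne_zero (mul_ne_zero h12 h41) (pow_ne_zero 4 hR0))

/-- (D2) the auxiliary prime. -/
theorem exists_aux (c4 c6 Δ : ℤ) (hrel : c4 ^ 3 - c6 ^ 2 = 1728 * Δ) (hΔ : Δ ≠ 0)
    (h3 : ¬ (3 : ℤ) ∣ c4) (hss : ∀ p : ℕ, p.Prime → (p : ℤ) ∣ Δ → ¬ (p : ℤ) ∣ c4)
    (m : ℤ) (hm : ∀ p : ℕ, p.Prime → (p : ℤ) ∣ m → (p : ℤ) ∣ 30 * Δ * c4 * c6) :
    ∃ q : ℕ, q.Prime ∧ q % 12 = 5 ∧ ∃ t : ℤ, m ∣ t ∧ (q : ℤ) ∣ C6 t c4 c6 ∧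
      ¬ (q : ℤ) ∣ C4 t c4 c6 := by
  obtain ⟨q, hq, hq12, hqn, τ, hτ⟩ := exists_prime_root c4 Δ hΔ h3 hss
  refine ⟨q, hq, hq12, ?_⟩
  have hqZ : Prime (q : ℤ) := Nat.prime_iff_prime_int.1 hq
  have hq30 : ¬ (q : ℤ) ∣ 30 := fun h => hqn ((h.mul_right Δ).mul_right c4)
  have hqΔ : ¬ (q : ℤ) ∣ Δ := fun h => hqn ((h.mul_left 30).mul_right c4)
  have hqc4 : ¬ (q : ℤ) ∣ c4 := fun h => hqn (h.mul_left (30 * Δ))
  by_cases hc6 : (q : ℤ) ∣ c6
  · refine ⟨0, dvd_zero m, ?_, ?_⟩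
    · have : C6 (0 : ℤ) c4 c6 = c6 := by simp [C6]
      rwa [this]
    · have : C4 (0 : ℤ) c4 c6 = c4 := by simp [C4]
      rwa [this]
  · have : Fact q.Prime := ⟨hq⟩
    have hcast : ∀ z : ℤ, ¬ (q : ℤ) ∣ z → (z : ZMod q) ≠ 0 := fun z hz h =>
      hz ((ZMod.intCast_zmod_eq_zero_iff_dvd z q).1 h)
    have hqm : ¬ (q : ℤ) ∣ m := by
      intro h
      have h1 := hm q hq h
      rcases hqZ.dvd_or_dvd h1 with h2 | h2
      · exact hqn h2
      · exact hc6 h2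
    have h30F : (30 : ZMod q) ≠ 0 := by
      have := hcast 30 hq30
      simpa using this
    have h2F : (2 : ZMod q) ≠ 0 := by
      intro h; apply h30F
      have : (30 : ZMod q) = 2 * 15 := by norm_num
      rw [this, h, zero_mul]
    have h3F : (3 : ZMod q) ≠ 0 := by
      intro h; apply h30F
      have : (30 : ZMod q) = 3 * 10 := by norm_num
      rw [this, h, zero_mul]
    have h1728 : (1728 : ZMod q) ≠ 0 := by
      have : (1728 : ZMod q) = 2 ^ 6 * 3 ^ 3 := by norm_num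
      rw [this]
      exact mul_ne_zero (pow_ne_zero _ h2F) (pow_ne_zero _ h3F)
    have hrelF : (c4 : ZMod q) ^ 3 - (c6 : ZMod q) ^ 2 = 1728 * (Δ : ZMod q) := by
      have := congrArg (Int.cast : ℤ → ZMod q) hrel
      push_cast at this
      exact this
    obtain ⟨j, hj⟩ : ∃ j : ZMod q, j ^ 2 = -1 := by
      have : IsSquare (-1 : ZMod q) := ZMod.exists_sq_eq_neg_one_iff.2 (by omega)
      obtain ⟨j, hj⟩ := this
      exact ⟨j, by rw [hj, sq]⟩
    obtain ⟨t1, ht6, ht4⟩ := exists_t_of_root h30F (c4 : ZMod q) (c6 : ZMod q) τ j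
      (hcast c4 hqc4) (hcast c6 hc6)
      (by rw [hrelF]; exact mul_ne_zero h1728 (hcast Δ hqΔ)) hj
      (by rw [hrelF]; linear_combination 1728 * hτ)
    obtain ⟨k, hk⟩ := ZMod.intCast_surjective (t1 / (m : ZMod q))
    have htk : ((m * k : ℤ) : ZMod q) = t1 := by
      push_cast
      rw [hk]
      exact mul_div_cancel₀ _ (hcast m hqm)
    refine ⟨m * k, dvd_mul_right m k, ?_, ?_⟩
    · rw [← ZMod.intCast_zmod_eq_zero_iff_dvd]
      have := map_C6 (Int.castRingHom (ZMod q)) (m * k) c4 c6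
      simp only [eq_intCast] at this
      rw [this, htk, ht6]
    · rw [← ZMod.intCast_zmod_eq_zero_iff_dvd]
      have := map_C4 (Int.castRingHom (ZMod q)) (m * k) c4 c6
      simp only [eq_intCast] at this
      rw [this, htk]
      exact ht4

end Fermat.Agent.S52
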