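import Fermat.Agent.S51.Galois
import Fermat.Prelude.Def_FLTPrelim_Modularity

/-!
# S52 block (D3): criteria for the irreducibility of `E[3]`
-/

set_option autoImplicit false

namespace Fermat.Agent.S52

/-- a reducible `E[3]` gives an integer root of `ξ⁴ - 6 c₄ ξ² - 8 c₆ ξ - 3 c₄²`
(`ξ = 12 r + b₂`, `r` a rational root of `ψ₃`, from `Fermat.Agent.S51.red3`). -/
theorem exists_xi (W : WeierstrassCurve ℤ) (hΔ : W.Δ ≠ 0) (h : ¬ W.ModRepIsIrreducible 3) :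
    ∃ ξ : ℤ, ξ ^ 4 - 6 * W.c₄ * ξ ^ 2 - 8 * W.c₆ * ξ - 3 * W.c₄ ^ 2 = 0 := by
  obtain ⟨r, hr⟩ := Fermat.Agent.S51.red3 W hΔ h
  have hb8 : (4 : ℚ) * (W.b₈ : ℚ) = (W.b₂ : ℚ) * W.b₆ - (W.b₄ : ℚ) ^ 2 := by
    have := W.b_relation
    exact_mod_cast this
  have hc4 : (W.c₄ : ℚ) = (W.b₂ : ℚ) ^ 2 - 24 * W.b₄ := by
    simp only [WeierstrassCurve.c₄]; push_cast; ring
  have hc6 : (W.c₆ : ℚ) = -(W.b₂ : ℚ) ^ 3 + 36 * W.b₂ * W.b₄ - 216 * W.b₆ := by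
    simp only [WeierstrassCurve.c₆]; push_cast; ring
  set x : ℚ := 12 * r + W.b₂ with hx
  have hroot : x ^ 4 - 6 * (W.c₄ : ℚ) * x ^ 2 - 8 * (W.c₆ : ℚ) * x - 3 * (W.c₄ : ℚ) ^ 2 = 0 := by
    rw [hc4, hc6, hx]
    linear_combination 6912 * hr - 1728 * hb8
  have hint : IsIntegral ℤ x := by
    refine ⟨Polynomial.X ^ 4 - Polynomial.C (6 * W.c₄) * Polynomial.X ^ 2
      - Polynomial.C (8 * W.c₆) * Polynomial.X - Polynomial.C (3 * W.c₄ ^ 2), ?_, ?_⟩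
    · monicity!
    · simp only [Polynomial.eval₂_sub, Polynomial.eval₂_mul, Polynomial.eval₂_pow,
        Polynomial.eval₂_X, Polynomial.eval₂_C]
      simp only [eq_intCast]
      push_cast
      linear_combination hroot
  obtain ⟨ξ, hξ⟩ := IsIntegrallyClosed.isIntegral_iff.mp hint
  refine ⟨ξ, ?_⟩
  rw [eq_intCast] at hξ
  rw [← hξ] at hroot
  exact_mod_cast hroot

theorem not_isSquare_two_zmod_three : ¬ IsSquare (2 : ZMod 3) := by decide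

/-- if `q ≡ 5 mod 12` divides `c₆` but not `c₄`, then `E[3]` is irreducible. -/
theorem irr3_of_aux (W : WeierstrassCurve ℤ) (hΔ : W.Δ ≠ 0) (q : ℕ) (hq : q.Prime)
    (hq12 : q % 12 = 5) (h6 : (q : ℤ) ∣ W.c₆) (h4 : ¬ (q : ℤ) ∣ W.c₄) :
    W.ModRepIsIrreducible 3 := by
  by_contra h
  obtain ⟨ξ, hξ⟩ := exists_xi W hΔ h
  have : Fact q.Prime := ⟨hq⟩
  have : Fact (Nat.Prime 3) := ⟨by norm_num⟩
  have h6' : ((W.c₆ : ℤ) : ZMod q) = 0 := (ZMod.intCast_zmod_eq_zero_iff_dvd _ _).mpr h6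
  have h4' : ((W.c₄ : ℤ) : ZMod q) ≠ 0 := fun h0 =>
    h4 ((ZMod.intCast_zmod_eq_zero_iff_dvd _ _).mp h0)
  have hξ' := congrArg (Int.cast : ℤ → ZMod q) hξ
  push_cast at hξ'
  rw [h6'] at hξ'
  set c : ZMod q := ((W.c₄ : ℤ) : ZMod q) with hc
  set z : ZMod q := (ξ : ZMod q) with hz
  have h2 : (2 : ZMod q) ≠ 0 := by
    intro h0
    have : ((2 : ℕ) : ZMod q) = 0 := by exact_mod_cast h0
    rw [ZMod.natCast_eq_zero_iff] at this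
    have := Nat.le_of_dvd (by norm_num) this
    interval_cases q <;> simp_all
  have hsq : IsSquare ((3 : ℕ) : ZMod q) := by
    refine ⟨(z ^ 2 - 3 * c) / (2 * c), ?_⟩
    have h2c : 2 * c ≠ 0 := mul_ne_zero h2 h4'
    field_simp
    push_cast
    linear_combination (-1 : ZMod q) * hξ'
  have hq4 : q % 4 = 1 := by omega
  rw [ZMod.exists_sq_eq_prime_iff_of_mod_four_eq_one hq4 (by norm_num)] at hsq
  have hq3 : (q : ZMod 3) = 2 := by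
    have : q % 3 = 2 := by omega
    have h' : ((q % 3 : ℕ) : ZMod 3) = (q : ZMod 3) := ZMod.natCast_mod q 3
    rw [← h', this]; rfl
  rw [hq3] at hsq
  exact not_isSquare_two_zmod_three hsq

/-- a semistable curve with reducible `E[3]` has `3 ∤ c₄`. -/
theorem three_not_dvd_c4 (W : WeierstrassCurve ℤ) (hΔ : W.Δ ≠ 0) (hW : W.IsSemistableModel)
    (h : ¬ W.ModRepIsIrreducible 3) : ¬ (3 : ℤ) ∣ W.c₄ := by
  intro h3
  obtain ⟨ξ, hξ⟩ := exists_xi W hΔ h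
  have p3 : Prime (3 : ℤ) := Int.prime_three
  have hc4 : W.c₄ = W.b₂ ^ 2 - 24 * W.b₄ := rfl
  have hc6 : W.c₆ = -W.b₂ ^ 3 + 36 * W.b₂ * W.b₄ - 216 * W.b₆ := rfl
  have hb2 : (3 : ℤ) ∣ W.b₂ := by
    have : (3 : ℤ) ∣ W.b₂ ^ 2 := by
      have h24 : (3 : ℤ) ∣ 24 * W.b₄ := Dvd.dvd.mul_right (by norm_num) _
      have := dvd_add h3 h24
      rwa [hc4, sub_add_cancel] at this
    exact p3.dvd_of_dvd_pow this
  obtain ⟨β, hβ⟩ := hb2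
  obtain ⟨c, hcc⟩ := h3
  have hd : W.c₆ = 27 * (-β ^ 3 + 4 * β * W.b₄ - 8 * W.b₆) := by
    rw [hc6, hβ]; ring
  set d : ℤ := -β ^ 3 + 4 * β * W.b₄ - 8 * W.b₆ with hdd
  have hrel : 1728 * W.Δ = W.c₄ ^ 3 - W.c₆ ^ 2 := W.c_relation
  have hrel' : 64 * W.Δ = c ^ 3 - 27 * d ^ 2 := by
    rw [hcc, hd] at hrel
    linarith
  have hnc : ¬ (3 : ℤ) ∣ c := by
    intro hc3
    have h3Δ : (3 : ℤ) ∣ W.Δ := by
      have h1 : (3 : ℤ) ∣ 64 * W.Δ := by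
        rw [hrel']
        exact dvd_sub (dvd_pow hc3 (by norm_num)) (Dvd.dvd.mul_right (by norm_num) _)
      rcases p3.dvd_or_dvd h1 with h' | h'
      · norm_num at h'
      · exact h'
    exact hW 3 (by norm_num) (by exact_mod_cast h3Δ) (by rw [hcc]; exact_mod_cast dvd_mul_right 3 c)
  rw [hcc, hd] at hξ
  have hx3 : (3 : ℤ) ∣ ξ := by
    have : (3 : ℤ) ∣ ξ ^ 4 := ⟨6 * c * ξ ^ 2 + 72 * d * ξ + 9 * c ^ 2, by linarith⟩
    exact p3.dvd_of_dvd_pow this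
  obtain ⟨η, hη⟩ := hx3
  rw [hη] at hξ
  apply hnc
  have : (3 : ℤ) ∣ c ^ 2 := ⟨η ^ 4 - 2 * c * η ^ 2 - 8 * d * η, by linarith⟩
  exact p3.dvd_of_dvd_pow this

end Fermat.Agent.S52
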