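import Fermat.Agent.S52.Rigid
import Fermat.Agent.S52.Count
import Fermat.Agent.S52.Irr3
import Fermat.Agent.S52.AuxPrime

/-!
# S52: the integral model of `E_t` and the final assembly
-/

set_option autoImplicit false

namespace Fermat.Agent.S52

open WeierstrassCurve Fermat.Agent.Lib.Hasse

/-- the integral Weierstrass model with `c₄ = C4 (1728 m)`, `c₆ = C6 (1728 m)`, congruent to `W`
modulo `m`. -/
def mkW (W : WeierstrassCurve ℤ) (m : ℤ) : WeierstrassCurve ℤ :=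
  ⟨W.a₁, W.a₂, W.a₃, W.a₄ - 36 * m * D4 (1728 * m) W.c₄ W.c₆,
    W.a₆ - 3 * m * W.b₂ * D4 (1728 * m) W.c₄ W.c₆ - 2 * m * D6 (1728 * m) W.c₄ W.c₆⟩

theorem mkW_c₄ (W : WeierstrassCurve ℤ) (m : ℤ) :
    (mkW W m).c₄ = C4 (1728 * m) W.c₄ W.c₆ := by
  unfold C4 mkW
  generalize D4 (1728 * m) W.c₄ W.c₆ = d4
  generalize D6 (1728 * m) W.c₄ W.c₆ = d6
  simp only [WeierstrassCurve.c₄, WeierstrassCurve.b₂, WeierstrassCurve.b₄]
  ring

theorem mkW_c₆ (W : WeierstrassCurve ℤ) (m : ℤ) :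
    (mkW W m).c₆ = C6 (1728 * m) W.c₄ W.c₆ := by
  unfold C6 mkW
  generalize D4 (1728 * m) W.c₄ W.c₆ = d4
  generalize D6 (1728 * m) W.c₄ W.c₆ = d6
  simp only [WeierstrassCurve.c₆, WeierstrassCurve.b₂, WeierstrassCurve.b₄, WeierstrassCurve.b₆]
  ring

theorem mkW_map_eq (W : WeierstrassCurve ℤ) (m : ℤ) (n : ℕ) (h : (n : ℤ) ∣ m) :
    (mkW W m).map (Int.castRingHom (ZMod n)) = W.map (Int.castRingHom (ZMod n)) := by
  have hm : ((m : ℤ) : ZMod n) = 0 := (ZMod.intCast_zmod_eq_zero_iff_dvd m n).mpr h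
  ext <;> simp [mkW, hm]

theorem model_dvd_iff_Δ (W : WeierstrassCurve ℤ) (m : ℤ) (n : ℕ) (h : (n : ℤ) ∣ m) :
    (n : ℤ) ∣ (mkW W m).Δ - W.Δ := by
  have := congrArg WeierstrassCurve.Δ (mkW_map_eq W m n h)
  rw [map_Δ, map_Δ] at this
  rw [← ZMod.intCast_zmod_eq_zero_iff_dvd]
  push_cast
  simpa [sub_eq_zero] using this

theorem model_dvd_iff_c₄ (W : WeierstrassCurve ℤ) (m : ℤ) (n : ℕ) (h : (n : ℤ) ∣ m) :
    (n : ℤ) ∣ (mkW W m).c₄ - W.c₄ := by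
  have := congrArg WeierstrassCurve.c₄ (mkW_map_eq W m n h)
  rw [map_c₄, map_c₄] at this
  rw [← ZMod.intCast_zmod_eq_zero_iff_dvd]
  push_cast
  simpa [sub_eq_zero] using this

/-- facts in `ZMod p` for a prime `p ∤ 30 Δ c₄ c₆`. -/
theorem model_facts (W : WeierstrassCurve ℤ) (p : ℕ) [Fact p.Prime]
    (hp : ¬ (p : ℤ) ∣ 30 * W.Δ * W.c₄ * W.c₆) :
    (30 : ZMod p) ≠ 0 ∧ (W.c₄ : ZMod p) ≠ 0 ∧ (W.c₆ : ZMod p) ≠ 0 ∧
      (W.c₄ : ZMod p) ^ 3 - (W.c₆ : ZMod p) ^ 2 ≠ 0 ∧ 7 ≤ p := by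
  rw [← ZMod.intCast_zmod_eq_zero_iff_dvd] at hp
  push_cast at hp
  have h1 := left_ne_zero_of_mul hp
  have h6 := right_ne_zero_of_mul hp
  have h2 := left_ne_zero_of_mul h1
  have h4 := right_ne_zero_of_mul h1
  have h30 := left_ne_zero_of_mul h2
  have hΔ := right_ne_zero_of_mul h2
  have h1728 : (1728 : ZMod p) ≠ 0 := by
    intro h
    apply h30
    have h' : (30 : ZMod p) ^ 6 = 1728 * 421875 := by norm_num
    rw [h, zero_mul] at h'
    exact pow_eq_zero_iff (by norm_num) |>.mp h'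
  refine ⟨h30, h4, h6, ?_, ?_⟩
  · have := congrArg (Int.cast : ℤ → ZMod p) W.c_relation
    push_cast at this
    rw [← this]
    exact mul_ne_zero h1728 hΔ
  · by_contra hlt
    have hpp := (Fact.out : p.Prime)
    have : p ∣ 30 := by
      have : p < 7 := by omega
      interval_cases p <;> first | (exfalso; revert hpp; norm_num; done) | norm_num
    apply h30
    have := (ZMod.natCast_eq_zero_iff 30 p).mpr this
    simpa using this

end Fermat.Agent.S52
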