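import Fermat.Agent.S52.Defs
import Fermat.Agent.S51.Gal.Card

/-!
# S52 block (B4): at most 25 points of order dividing 5 (any characteristic `≠ 2, 5`)
-/

set_option autoImplicit false

namespace Fermat.Agent.S52

open Fermat.Agent.Lib.Hasse Fermat.Agent.S51.Gal Polynomial

section aux

variable {K : Type*} [Field K]

theorem psi2Sq_sw (A B x : K) : psi2Sq (sw A B) x = sD A B x := by
  simp only [psi2Sq, sD, sw, WeierstrassCurve.b₂, WeierstrassCurve.b₄, WeierstrassCurve.b₆]
  ring

theorem phi2_sw (A B x : K) : phi2 (sw A B) x = sN A B x := by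
  simp only [phi2, sN, sw, WeierstrassCurve.b₄, WeierstrassCurve.b₆, WeierstrassCurve.b₈]
  ring

theorem natDegree_p5_le (A B : K) : (p5 A B).natDegree ≤ 12 := by
  unfold p5
  compute_degree

theorem coeff_p5 (A B : K) : (p5 A B).coeff 12 = 5 := by
  unfold p5
  simp only [coeff_add, coeff_C_mul, coeff_X_pow, coeff_X, coeff_C]
  norm_num

theorem p5_ne_zero' (h5 : (5 : K) ≠ 0) (A B : K) : p5 A B ≠ 0 := by
  intro h
  have := coeff_p5 A B
  rw [h, coeff_zero] at this
  exact h5 this.symm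

/-- the `x`-coordinate of a nonzero `5`-torsion point of `y² = x³ + A x + B` is a root of `ψ₅`. -/
theorem sPsi5_eq_zero_of_five_nsmul_sw [DecidableEq K] {A B : K} {P : Pt A B} {x₁ : K}
    (hP : HasX P x₁) (h : 5 • P = 0) : sPsi5 A B x₁ = 0 := by
  obtain ⟨x₂, -, hne, h1, h2, e1, e2⟩ := five_torsion_data hP h
  rw [psi2Sq_sw, phi2_sw] at e1 e2
  rw [psi2Sq_sw] at h1 h2
  have key := sN_of_dup e1
  rw [e2, sub_self, zero_mul] at key
  have h3 : sPsi3 A B x₁ ≠ 0 := by
    rw [sPsi3_eq, e1, ← sub_mul]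
    exact mul_ne_zero (sub_ne_zero.mpr hne) h1
  have := neg_eq_zero.mp key.symm
  exact (mul_eq_zero.mp this).resolve_left h3

end aux

theorem card_five_torsion_le {K : Type*} [Field K] [DecidableEq K] (h2 : (2 : K) ≠ 0)
    (h5 : (5 : K) ≠ 0) (A B : K) :
    {P : Pt A B | 5 • P = 0}.Finite ∧ {P : Pt A B | 5 • P = 0}.ncard ≤ 25 := by
  have key := finite_and_ncard_le (W := sw A B) ((p5 A B).roots.toFinset)
    {P : Pt A B | 5 • P = 0} (by
      intro P hP x hx
      have := sPsi5_eq_zero_of_five_nsmul_sw hx hP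
      rw [← eval_p5] at this
      rw [Multiset.mem_toFinset, mem_roots (p5_ne_zero' h5 _ _)]
      exact this)
  refine ⟨key.1, key.2.trans ?_⟩
  have : (p5 A B).roots.toFinset.card ≤ 12 :=
    (Multiset.toFinset_card_le _).trans ((card_roots' _).trans (natDegree_p5_le A B))
  omega

end Fermat.Agent.S52
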