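import Mathlib
import Fermat.Agent.Lib.Hasse.Defs

/-!
# S52 (3-5 switch): common definitions

* `i4 i6 iD` : the icosahedral invariants, written in `p = u⁵`, `r = v⁵`
  (`c₄ = -H`, `c₆ = -T`, `Δ = -f⁵`, `f = u v (u¹⁰ + 11 u⁵ v⁵ - v¹⁰)`).
* `al be` : the covariant `w(u,v) = (u α, - v β)`; the line `z + t w(z)`.
* `C4 C6` : `c₄, c₆` of the curve `E_t` with `E_t[5] ≅ E[5]`, polynomials in `t, c₄(E), c₆(E)`.
* `xQ yQ xR yR xS yS` : coordinates of `5`-torsion points of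
  `y² = x³ - 27 c₄ x - 54 c₆` in terms of `(u,v)`.
-/

set_option autoImplicit false

namespace Fermat.Agent.S52

variable {R : Type*} [CommRing R]

def i4 (p r : R) : R := p ^ 4 - 228 * p ^ 3 * r + 494 * p ^ 2 * r ^ 2 + 228 * p * r ^ 3 + r ^ 4

def i6 (p r : R) : R :=
  -(p ^ 6 + 522 * p ^ 5 * r - 10005 * p ^ 4 * r ^ 2 - 10005 * p ^ 2 * r ^ 4 - 522 * p * r ^ 5 + r ^ 6)

def iF (p r : R) : R := p ^ 2 + 11 * p * r - r ^ 2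

def iD (p r : R) : R := p * r * iF p r ^ 5

def al (p r : R) : R := p ^ 2 + 66 * p * r - 11 * r ^ 2

def be (p r : R) : R := 11 * p ^ 2 + 66 * p * r - r ^ 2

/-- `(C4 - a) / t`. -/
def D4 (t a b : R) : R :=
  (-20 * b) + (190 * a ^ 2) * t + (-1140 * a * b) * t ^ 2
    + (-855 * a ^ 3 + 5700 * b ^ 2) * t ^ 3 + (-15504 * a ^ 2 * b) * t ^ 4
    + (102600 * a ^ 4 - 63840 * a * b ^ 2) * t ^ 5
    + (-259920 * a ^ 3 * b + 182400 * b ^ 3) * t ^ 6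
    + (-1000350 * a ^ 5 + 1126320 * a ^ 2 * b ^ 2) * t ^ 7
    + (7736040 * a ^ 4 * b - 7904000 * a * b ^ 3) * t ^ 8
    + (-10003500 * a ^ 6 - 5619744 * a ^ 3 * b ^ 2 + 15808000 * b ^ 4) * t ^ 9
    + (54685800 * a ^ 5 * b - 54853760 * a ^ 2 * b ^ 3) * t ^ 10
    + (-45015750 * a ^ 7 + 7202520 * a ^ 4 * b ^ 2 + 37939200 * a * b ^ 4) * t ^ 11
    + (35089200 * a ^ 6 * b + 23201280 * a ^ 3 * b ^ 3 - 58368000 * b ^ 5) * t ^ 12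
    + (207765000 * a ^ 8 - 495188640 * a ^ 5 * b ^ 2 + 287462400 * a ^ 2 * b ^ 4) * t ^ 13
    + (-415530000 * a ^ 7 * b + 882458496 * a ^ 4 * b ^ 3 - 466944000 * a * b ^ 5) * t ^ 14
    + (-77911875 * a ^ 9 + 714711600 * a ^ 6 * b ^ 2 - 1220474880 * a ^ 3 * b ^ 4 + 583680000 * b ^ 6) * t ^ 15
    + (-353200500 * a ^ 8 * b + 715080960 * a ^ 5 * b ^ 3 - 361881600 * a ^ 2 * b ^ 5) * t ^ 16
    + (779118750 * a ^ 10 - 2182917600 * a ^ 7 * b ^ 2 + 2026391040 * a ^ 4 * b ^ 4 - 622592000 * a * b ^ 6) * t ^ 17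
    + (-694372500 * a ^ 9 * b + 2044414080 * a ^ 6 * b ^ 3 - 2005401600 * a ^ 3 * b ^ 5 + 655360000 * b ^ 7) * t ^ 18
    + (184528125 * a ^ 11 - 549301500 * a ^ 8 * b ^ 2 + 544997376 * a ^ 5 * b ^ 4 - 180224000 * a ^ 2 * b ^ 6) * t ^ 19

/-- `(C6 - b) / t`. -/
def D6 (t a b : R) : R :=
  (-30 * a ^ 2) + (435 * a * b) * t + (-1160 * a ^ 3 - 2900 * b ^ 2) * t ^ 2
    + (27405 * a ^ 2 * b) * t ^ 3 + (-95526 * a ^ 4 - 46980 * a * b ^ 2) * t ^ 4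
    + (437175 * a ^ 3 * b + 156600 * b ^ 3) * t ^ 5
    + (1879200 * a ^ 5 - 3915000 * a ^ 2 * b ^ 2) * t ^ 6
    + (-8554275 * a ^ 4 * b + 14407200 * a * b ^ 3) * t ^ 7
    + (-24312150 * a ^ 6 + 42021000 * a ^ 3 * b ^ 2 - 32016000 * b ^ 4) * t ^ 8
    + (246633255 * a ^ 5 * b - 216588240 * a ^ 2 * b ^ 3) * t ^ 9
    + (-162081000 * a ^ 7 - 1352475900 * a ^ 4 * b ^ 2 + 1459929600 * a * b ^ 4) * t ^ 10
    + (4131714825 * a ^ 6 * b - 1612005600 * a ^ 3 * b ^ 3 - 2433216000 * b ^ 5) * t ^ 11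
    + (-6928962750 * a ^ 8 - 5235216300 * a ^ 5 * b ^ 2 + 12044419200 * a ^ 2 * b ^ 4) * t ^ 12
    + (43190534475 * a ^ 7 * b - 43045111800 * a ^ 4 * b ^ 3) * t ^ 13
    + (-79575287760 * a ^ 6 * b ^ 2 + 79420170240 * a ^ 3 * b ^ 4) * t ^ 14
    + (-176688550125 * a ^ 8 * b + 474659611200 * a ^ 5 * b ^ 3 - 297825638400 * a ^ 2 * b ^ 5) * t ^ 15
    + (311803323750 * a ^ 10 - 77604382800 * a ^ 7 * b ^ 2 - 935084908800 * a ^ 4 * b ^ 4 + 700766208000 * a * b ^ 6) * t ^ 16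
    + (-1694131392375 * a ^ 9 * b + 2776512362400 * a ^ 6 * b ^ 3 - 303665356800 * a ^ 3 * b ^ 5 - 778629120000 * b ^ 7) * t ^ 17
    + (328214025000 * a ^ 11 + 3481840250100 * a ^ 8 * b ^ 2 - 8100765158400 * a ^ 5 * b ^ 4 + 4290656256000 * a ^ 2 * b ^ 6) * t ^ 18
    + (-2874607835625 * a ^ 10 * b + 2424887357760 * a ^ 7 * b ^ 3 + 3892110842880 * a ^ 4 * b ^ 5 - 3442360320000 * a * b ^ 7) * t ^ 19
    + (2215444668750 * a ^ 12 - 3077188825500 * a ^ 9 * b ^ 2 + 2709129888000 * a ^ 6 * b ^ 4 - 5125838438400 * a ^ 3 * b ^ 6 + 3278438400000 * b ^ 8) * t ^ 20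
    + (-1403114956875 * a ^ 11 * b - 1724509423800 * a ^ 8 * b ^ 3 + 7701051801600 * a ^ 5 * b ^ 5 - 4573421568000 * a ^ 2 * b ^ 7) * t ^ 21
    + (-7705894500000 * a ^ 13 + 33414470973000 * a ^ 10 * b ^ 2 - 49888700928000 * a ^ 7 * b ^ 4 + 30337884979200 * a ^ 4 * b ^ 6 - 6157762560000 * a * b ^ 8) * t ^ 22
    + (5089101159375 * a ^ 12 * b - 22687218914400 * a ^ 9 * b ^ 3 + 35246094796800 * a ^ 6 * b ^ 5 - 22779445248000 * a ^ 3 * b ^ 7 + 5131468800000 * b ^ 9) * t ^ 23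
    + (17627233668750 * a ^ 14 - 70097953635000 * a ^ 11 * b ^ 2 + 105528606261120 * a ^ 8 * b ^ 4 - 71274600677376 * a ^ 5 * b ^ 6 + 18216714240000 * a ^ 2 * b ^ 8) * t ^ 24
    + (-40985726371875 * a ^ 13 * b + 163672057566000 * a ^ 10 * b ^ 3 - 245438120632320 * a ^ 7 * b ^ 5 + 163803539865600 * a ^ 4 * b ^ 7 - 41051750400000 * a * b ^ 9) * t ^ 25
    + (9632368125000 * a ^ 15 - 8104032382500 * a ^ 12 * b ^ 2 - 63806176396800 * a ^ 9 * b ^ 4 + 143803576074240 * a ^ 6 * b ^ 6 - 111934439424000 * a ^ 3 * b ^ 8 + 30408704000000 * b ^ 10) * t ^ 26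
    + (-21432019078125 * a ^ 14 * b + 85719228804000 * a ^ 11 * b ^ 3 - 128580522647040 * a ^ 8 * b ^ 5 + 85731449241600 * a ^ 5 * b ^ 7 - 21438136320000 * a ^ 2 * b ^ 9) * t ^ 27
    + (11210083593750 * a ^ 16 - 49873523512500 * a ^ 13 * b ^ 2 + 87394892457600 * a ^ 10 * b ^ 4 - 75042714746880 * a ^ 7 * b ^ 6 + 31344427008000 * a ^ 4 * b ^ 8 - 5033164800000 * a * b ^ 10) * t ^ 28
    + (-4110363984375 * a ^ 15 * b + 19796866155000 * a ^ 12 * b ^ 3 - 38083944628224 * a ^ 9 * b ^ 5 + 36574189977600 * a ^ 6 * b ^ 7 - 17532190720000 * a ^ 3 * b ^ 9 + 3355443200000 * b ^ 11) * t ^ 29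

/-- `c₄` of the member `E_t` of the family of curves with the same mod-5 representation as the
curve with invariants `c₄ = a`, `c₆ = b`. -/
def C4 (t a b : R) : R := a + t * D4 t a b

/-- `c₆` of `E_t`. -/
def C6 (t a b : R) : R := b + t * D6 t a b

/-! ### 5-torsion points of `y² = x³ - 27 i4(u⁵,v⁵) x - 54 i6(u⁵,v⁵)` -/

/-- the point `Q`. -/
def xQ (u v : R) : R :=
  3 * v ^ 10 + 36 * u * v ^ 9 + 72 * u ^ 2 * v ^ 8 + 108 * u ^ 3 * v ^ 7 + 180 * u ^ 4 * v ^ 6 + 90 * u ^ 5 * v ^ 5 + 72 * u ^ 6 * v ^ 4 - 36 * u ^ 7 * v ^ 3 + 36 * u ^ 8 * v ^ 2 + 3 * u ^ 10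

def yQ (u v : R) : R :=
  108 * u * v ^ 14 + 432 * u ^ 2 * v ^ 13 + 972 * u ^ 3 * v ^ 12 + 1620 * u ^ 4 * v ^ 11 + 2700 * u ^ 5 * v ^ 10 + 3132 * u ^ 6 * v ^ 9 + 2268 * u ^ 7 * v ^ 8 + 648 * u ^ 8 * v ^ 7 + 540 * u ^ 9 * v ^ 6 + 432 * u ^ 11 * v ^ 4 + 108 * u ^ 12 * v ^ 3 + 108 * u ^ 13 * v ^ 2

/-- the point `2 Q`. -/
def xR (u v : R) : R :=
  3 * v ^ 10 + 36 * u ^ 2 * v ^ 8 + 36 * u ^ 3 * v ^ 7 + 72 * u ^ 4 * v ^ 6 - 90 * u ^ 5 * v ^ 5 + 180 * u ^ 6 * v ^ 4 - 108 * u ^ 7 * v ^ 3 + 72 * u ^ 8 * v ^ 2 - 36 * u ^ 9 * v + 3 * u ^ 10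

def yR (u v : R) : R :=
  108 * u ^ 2 * v ^ 13 - 108 * u ^ 3 * v ^ 12 + 432 * u ^ 4 * v ^ 11 + 540 * u ^ 6 * v ^ 9 - 648 * u ^ 7 * v ^ 8 + 2268 * u ^ 8 * v ^ 7 - 3132 * u ^ 9 * v ^ 6 + 2700 * u ^ 10 * v ^ 5 - 1620 * u ^ 11 * v ^ 4 + 972 * u ^ 12 * v ^ 3 - 432 * u ^ 13 * v ^ 2 + 108 * u ^ 14 * v

/-- slope of the tangent at `Q`. -/
def lQ (u v : R) : R := 3 * v ^ 5 + 12 * u * v ^ 4 + 6 * u ^ 2 * v ^ 3 + 18 * u ^ 3 * v ^ 2 - 6 * u ^ 4 * v + 3 * u ^ 5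

/-- slope of the tangent at `2 Q`. -/
def lR (u v : R) : R := 3 * v ^ 5 + 6 * u * v ^ 4 + 18 * u ^ 2 * v ^ 3 - 6 * u ^ 3 * v ^ 2 + 12 * u ^ 4 * v - 3 * u ^ 5

/-- the point `S_ζ = Q(ζ u, v) - Q(u, v)`; here `e = 1/5`, `ζ` is a primitive 5-th root of unity,
`p = u⁵`, `r = v⁵`. -/
def xS (e ζ p r : R) : R :=
  e * ((-57 + 36 * (ζ ^ 2 + ζ ^ 3)) * r ^ 2 - (198 + 396 * (ζ ^ 2 + ζ ^ 3)) * p * r
    - (93 + 36 * (ζ ^ 2 + ζ ^ 3)) * p ^ 2)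

def yS (e ζ p r : R) : R :=
  e * ((-216 - 432 * ζ - 324 * ζ ^ 2 - 108 * ζ ^ 3) * r ^ 3
    + (2484 + 4968 * ζ + 3456 * ζ ^ 2 + 1512 * ζ ^ 3) * p * r ^ 2
    + (-972 - 1944 * ζ + 1512 * ζ ^ 2 - 3456 * ζ ^ 3) * p ^ 2 * r
    + (-108 - 216 * ζ + 108 * ζ ^ 2 - 324 * ζ ^ 3) * p ^ 3)

/-- slope of the chord through `Q(ζ u, v)` and `-Q(u, v)`. -/
def lS (e ζ u v : R) : R :=
  e * ((-9 - 18 * ζ - 12 * ζ ^ 2 - 6 * ζ ^ 3) * v ^ 5 + 30 * (ζ - 1) * u * v ^ 4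
    + 30 * (ζ ^ 2 - 1) * u ^ 2 * v ^ 3 + 30 * (ζ ^ 3 - 1) * u ^ 3 * v ^ 2
    + (-3 - 6 * ζ + 6 * ζ ^ 2 - 12 * ζ ^ 3) * u ^ 5)

/-- `x`-coordinate of `m • S + n • Q` (`m, n < 5`, not both zero). -/
def cx (e ζ : R) (m n : ℕ) (u v : R) : R :=
  match n with
  | 0 => xS e (ζ ^ m) (u ^ 5) (v ^ 5)
  | 1 => xQ (ζ ^ m * u) v
  | 2 => xR (ζ ^ (3 * m) * u) v
  | 3 => xR (ζ ^ (2 * m) * u) v
  | _ => xQ (ζ ^ (4 * m) * u) v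

/-- `y`-coordinate of `m • S + n • Q` (`m, n < 5`, not both zero). -/
def cy (e ζ : R) (m n : ℕ) (u v : R) : R :=
  match n with
  | 0 => yS e (ζ ^ m) (u ^ 5) (v ^ 5)
  | 1 => yQ (ζ ^ m * u) v
  | 2 => yR (ζ ^ (3 * m) * u) v
  | 3 => -yR (ζ ^ (2 * m) * u) v
  | _ => -yQ (ζ ^ (4 * m) * u) v

end Fermat.Agent.S52
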