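import Fermat.Agent.S52.Defs

/-!
# S52 block (A): polynomial identities for the family `E_t`

The two big identities `i4_flow`, `i6_flow` are proved by evaluation on a grid of integer points
(kernel arithmetic) + degree bounds, after dehomogenisation; a direct `ring` needs > 16 GB.
-/

set_option autoImplicit false
set_option linter.unusedSimpArgs false
set_option maxHeartbeats 4000000
set_option maxRecDepth 100000

namespace Fermat.Agent.S52

variable {R : Type*} [CommRing R]

theorem i_rel (p r : R) : i4 p r ^ 3 - i6 p r ^ 2 = -1728 * iD p r := by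
  simp only [i4, i6, iD, iF]; ring

theorem al_add_be (p r : R) : al p r + be p r = 12 * iF p r := by
  simp only [al, be, iF]; ring

/-- `i4`, `i6` have no common zero (characteristic prime to 30). -/
theorem cert_p (p r : R) :
    (2022161 * r ^ 5 - 1055557719 * p * r ^ 4 - 20237108822 * p ^ 2 * r ^ 3
        - 103588896 * p ^ 3 * r ^ 2 - 20237705983 * p ^ 4 * r + 950431323 * p ^ 5) * i4 p r
      + (2022161 * r ^ 3 + 461063031 * p * r ^ 2 + 1001301767 * p ^ 2 * r - 455818677 * p ^ 3)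
        * i6 p r = 1406250000 * p ^ 9 := by
  simp only [i4, i6]; ring

theorem cert_r (p r : R) :
    (950431323 * r ^ 5 + 20237705983 * p * r ^ 4 - 103588896 * p ^ 2 * r ^ 3
        + 20237108822 * p ^ 3 * r ^ 2 - 1055557719 * p ^ 4 * r - 2022161 * p ^ 5) * i4 p r
      + (-455818677 * r ^ 3 - 1001301767 * p * r ^ 2 + 461063031 * p ^ 2 * r - 2022161 * p ^ 3)
        * i6 p r = 1406250000 * r ^ 9 := by
  simp only [i4, i6]; ring

/-- weighted homogeneity. -/
theorem C4_homog (m t a b : R) : C4 t (m ^ 2 * a) (m ^ 3 * b) = m ^ 2 * C4 (m * t) a b := by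
  simp only [C4, D4]; ring

theorem C6_homog (m t a b : R) : C6 t (m ^ 2 * a) (m ^ 3 * b) = m ^ 3 * C6 (m * t) a b := by
  simp only [C6, D6]; ring

/-! ### compatibility with ring homomorphisms -/

section map

variable {S : Type*} [CommRing S] (φ : R →+* S)

theorem map_i4 (p r : R) : φ (i4 p r) = i4 (φ p) (φ r) := by
  simp only [i4, map_add, map_sub, map_mul, map_pow, map_ofNat]

theorem map_i6 (p r : R) : φ (i6 p r) = i6 (φ p) (φ r) := by
  simp only [i6, map_add, map_sub, map_mul, map_pow, map_ofNat, map_neg]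

theorem map_iD (p r : R) : φ (iD p r) = iD (φ p) (φ r) := by
  simp only [iD, iF, map_add, map_sub, map_mul, map_pow, map_ofNat]

theorem map_al (p r : R) : φ (al p r) = al (φ p) (φ r) := by
  simp only [al, map_add, map_sub, map_mul, map_pow, map_ofNat]

theorem map_be (p r : R) : φ (be p r) = be (φ p) (φ r) := by
  simp only [be, map_add, map_sub, map_mul, map_pow, map_ofNat]

theorem map_C4 (t a b : R) : φ (C4 t a b) = C4 (φ t) (φ a) (φ b) := by
  simp only [C4, D4, map_add, map_sub, map_mul, map_pow, map_ofNat, map_neg]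

theorem map_C6 (t a b : R) : φ (C6 t a b) = C6 (φ t) (φ a) (φ b) := by
  simp only [C6, D6, map_add, map_sub, map_mul, map_pow, map_ofNat, map_neg]

theorem map_xQ (u v : R) : φ (xQ u v) = xQ (φ u) (φ v) := by
  simp only [xQ, map_add, map_sub, map_mul, map_pow, map_ofNat, map_neg]

theorem map_yQ (u v : R) : φ (yQ u v) = yQ (φ u) (φ v) := by
  simp only [yQ, map_add, map_sub, map_mul, map_pow, map_ofNat, map_neg]

theorem map_cx (e ζ : R) (m n : ℕ) (u v : R) :
    φ (cx e ζ m n u v) = cx (φ e) (φ ζ) m n (φ u) (φ v) := by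
  rcases n with _ | _ | _ | _ | n <;>
    simp only [cx, xS, xQ, xR, map_add, map_sub, map_mul, map_pow, map_ofNat, map_neg]

theorem map_cy (e ζ : R) (m n : ℕ) (u v : R) :
    φ (cy e ζ m n u v) = cy (φ e) (φ ζ) m n (φ u) (φ v) := by
  rcases n with _ | _ | _ | _ | n <;>
    simp only [cy, yS, yQ, yR, map_add, map_sub, map_mul, map_pow, map_ofNat, map_neg]

end map

/-! ### the grid principle -/

section grid

open Polynomial

/-- a bivariate integral polynomial of bounded degrees vanishing on a grid is zero. -/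
theorem flow_bivar_zero (g : ℤ[X][X]) (m n : ℕ) (hY : g.natDegree < n)
    (hX : ∀ τ₀ : ℤ, (g.eval (C τ₀)).natDegree < m)
    (hgrid : ∀ s ∈ List.range m, ∀ τ ∈ List.range n,
      (g.eval (C ((τ : ℕ) : ℤ))).eval ((s : ℕ) : ℤ) = 0) : g = 0 := by
  refine eq_zero_of_natDegree_lt_card_of_eval_eq_zero g
    (f := fun i : Fin n => (C ((i : ℕ) : ℤ) : ℤ[X])) ?_ ?_ (by rw [Fintype.card_fin]; exact hY)
  · intro i j hij
    have h1 : ((i : ℕ) : ℤ) = ((j : ℕ) : ℤ) := C_injective hij
    exact Fin.ext (by exact_mod_cast h1)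
  · intro i
    refine eq_zero_of_natDegree_lt_card_of_eval_eq_zero _
      (f := fun k : Fin m => ((k : ℕ) : ℤ)) ?_ ?_ (by rw [Fintype.card_fin]; exact hX _)
    · intro k l hkl
      have h1 : ((k : ℕ) : ℤ) = ((l : ℕ) : ℤ) := hkl
      exact Fin.ext (by exact_mod_cast h1)
    · intro k
      exact hgrid k (List.mem_range.2 k.2) i (List.mem_range.2 i.2)

/-- defect of the dehomogenised `c₄`-identity. -/
def flowL4 (s τ : R) : R :=
  i4 (s * (1 + τ * al s 1) ^ 5) ((1 - τ * be s 1) ^ 5) - C4 τ (i4 s 1) (i6 s 1)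

/-- defect of the dehomogenised `c₆`-identity. -/
def flowL6 (s τ : R) : R :=
  i6 (s * (1 + τ * al s 1) ^ 5) ((1 - τ * be s 1) ^ 5) - C6 τ (i4 s 1) (i6 s 1)

theorem map_flowL4 {S : Type*} [CommRing S] (φ : R →+* S) (s τ : R) :
    φ (flowL4 s τ) = flowL4 (φ s) (φ τ) := by
  simp only [flowL4, map_sub, map_i4, map_i6, map_C4, map_mul, map_pow, map_add, map_one, map_al,
    map_be]

theorem map_flowL6 {S : Type*} [CommRing S] (φ : R →+* S) (s τ : R) :
    φ (flowL6 s τ) = flowL6 (φ s) (φ τ) := by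
  simp only [flowL6, map_sub, map_i4, map_i6, map_C6, map_mul, map_pow, map_add, map_one, map_al,
    map_be]

theorem flowL4_grid : ∀ s ∈ List.range 45, ∀ τ ∈ List.range 21,
    flowL4 ((s : ℕ) : ℤ) ((τ : ℕ) : ℤ) = 0 := by
  decide +kernel

theorem flowL6_grid : ∀ s ∈ List.range 67, ∀ τ ∈ List.range 31,
    flowL6 ((s : ℕ) : ℤ) ((τ : ℕ) : ℤ) = 0 := by
  decide +kernel

theorem flowL4_univ : flowL4 (C X : ℤ[X][X]) X = 0 := by
  have hev : ∀ τ₀ : ℤ, (flowL4 (C X : ℤ[X][X]) X).eval (C τ₀) = flowL4 (X : ℤ[X]) (C τ₀) := by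
    intro τ₀
    have := map_flowL4 (evalRingHom (C τ₀ : ℤ[X])) (C X : ℤ[X][X]) X
    simpa using this
  refine flow_bivar_zero _ 45 21 ?_ ?_ ?_
  · have : (flowL4 (C X : ℤ[X][X]) X).natDegree ≤ 20 := by
      simp only [flowL4, i6, al, be, C4, D4, i4]
      compute_degree
    omega
  · intro τ₀
    rw [hev]
    have : (flowL4 (X : ℤ[X]) (C τ₀)).natDegree ≤ 44 := by
      simp only [flowL4, i6, al, be, C4, D4, i4]
      compute_degree
    omega
  · intro s hs τ hτ
    rw [hev]
    have := map_flowL4 (evalRingHom ((s : ℕ) : ℤ)) (X : ℤ[X]) (C ((τ : ℕ) : ℤ))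
    simp only [coe_evalRingHom, eval_X, eval_C] at this
    rw [this]
    exact flowL4_grid s hs τ hτ

theorem flowL6_univ : flowL6 (C X : ℤ[X][X]) X = 0 := by
  have hev : ∀ τ₀ : ℤ, (flowL6 (C X : ℤ[X][X]) X).eval (C τ₀) = flowL6 (X : ℤ[X]) (C τ₀) := by
    intro τ₀
    have := map_flowL6 (evalRingHom (C τ₀ : ℤ[X])) (C X : ℤ[X][X]) X
    simpa using this
  refine flow_bivar_zero _ 67 31 ?_ ?_ ?_
  · have : (flowL6 (C X : ℤ[X][X]) X).natDegree ≤ 30 := by
      simp only [flowL6, i6, al, be, C6, D6, i4]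
      compute_degree
    omega
  · intro τ₀
    rw [hev]
    have : (flowL6 (X : ℤ[X]) (C τ₀)).natDegree ≤ 66 := by
      simp only [flowL6, i6, al, be, C6, D6, i4]
      compute_degree
    omega
  · intro s hs τ hτ
    rw [hev]
    have := map_flowL6 (evalRingHom ((s : ℕ) : ℤ)) (X : ℤ[X]) (C ((τ : ℕ) : ℤ))
    simp only [coe_evalRingHom, eval_X, eval_C] at this
    rw [this]
    exact flowL6_grid s hs τ hτ

theorem flowL4_zero (s τ : R) : flowL4 s τ = 0 := by
  have := map_flowL4 (eval₂RingHom (eval₂RingHom (Int.castRingHom R) s) τ) (C X : ℤ[X][X]) X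
  rw [flowL4_univ, map_zero] at this
  simpa using this.symm

theorem flowL6_zero (s τ : R) : flowL6 s τ = 0 := by
  have := map_flowL6 (eval₂RingHom (eval₂RingHom (Int.castRingHom R) s) τ) (C X : ℤ[X][X]) X
  rw [flowL6_univ, map_zero] at this
  simpa using this.symm

end grid

/-! ### homogenisation -/

theorem flow_al_homog (s r : R) : al (s * r) r = r ^ 2 * al s 1 := by
  simp only [al]; ring

theorem flow_be_homog (s r : R) : be (s * r) r = r ^ 2 * be s 1 := by
  simp only [be]; ring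

theorem flow_i4_homog (r x y : R) : i4 (r * x) (r * y) = r ^ 4 * i4 x y := by
  simp only [i4]; ring

theorem flow_i6_homog (r x y : R) : i6 (r * x) (r * y) = r ^ 6 * i6 x y := by
  simp only [i6]; ring

/-- defect of the `c₄`-identity. -/
def flowD4 (p r t : R) : R :=
  i4 (p * (1 + t * al p r) ^ 5) (r * (1 - t * be p r) ^ 5) - C4 t (i4 p r) (i6 p r)

/-- defect of the `c₆`-identity. -/
def flowD6 (p r t : R) : R :=
  i6 (p * (1 + t * al p r) ^ 5) (r * (1 - t * be p r) ^ 5) - C6 t (i4 p r) (i6 p r)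

theorem map_flowD4 {S : Type*} [CommRing S] (φ : R →+* S) (p r t : R) :
    φ (flowD4 p r t) = flowD4 (φ p) (φ r) (φ t) := by
  simp only [flowD4, map_sub, map_i4, map_i6, map_C4, map_mul, map_pow, map_add, map_one, map_al,
    map_be]

theorem map_flowD6 {S : Type*} [CommRing S] (φ : R →+* S) (p r t : R) :
    φ (flowD6 p r t) = flowD6 (φ p) (φ r) (φ t) := by
  simp only [flowD6, map_sub, map_i4, map_i6, map_C6, map_mul, map_pow, map_add, map_one, map_al,
    map_be]

theorem flowD4_mul (s r t : R) : flowD4 (s * r) r t = 0 := by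
  have h := flowL4_zero s (r ^ 2 * t)
  simp only [flowL4, sub_eq_zero] at h
  have e1 : s * r * (1 + t * al (s * r) r) ^ 5 = r * (s * (1 + r ^ 2 * t * al s 1) ^ 5) := by
    rw [flow_al_homog]; ring
  have e2 : r * (1 - t * be (s * r) r) ^ 5 = r * ((1 - r ^ 2 * t * be s 1) ^ 5) := by
    rw [flow_be_homog]; ring
  have e3 : i4 (s * r) r = (r ^ 2) ^ 2 * i4 s 1 := by
    have := flow_i4_homog r s 1
    rw [mul_one, mul_comm r s] at this
    rw [this]; ring
  have e4 : i6 (s * r) r = (r ^ 2) ^ 3 * i6 s 1 := by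
    have := flow_i6_homog r s 1
    rw [mul_one, mul_comm r s] at this
    rw [this]; ring
  rw [flowD4, e1, e2, e3, e4, flow_i4_homog, C4_homog, h]
  ring

theorem flowD6_mul (s r t : R) : flowD6 (s * r) r t = 0 := by
  have h := flowL6_zero s (r ^ 2 * t)
  simp only [flowL6, sub_eq_zero] at h
  have e1 : s * r * (1 + t * al (s * r) r) ^ 5 = r * (s * (1 + r ^ 2 * t * al s 1) ^ 5) := by
    rw [flow_al_homog]; ring
  have e2 : r * (1 - t * be (s * r) r) ^ 5 = r * ((1 - r ^ 2 * t * be s 1) ^ 5) := by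
    rw [flow_be_homog]; ring
  have e3 : i4 (s * r) r = (r ^ 2) ^ 2 * i4 s 1 := by
    have := flow_i4_homog r s 1
    rw [mul_one, mul_comm r s] at this
    rw [this]; ring
  have e4 : i6 (s * r) r = (r ^ 2) ^ 3 * i6 s 1 := by
    have := flow_i6_homog r s 1
    rw [mul_one, mul_comm r s] at this
    rw [this]; ring
  rw [flowD6, e1, e2, e3, e4, flow_i6_homog, C6_homog, h]
  ring

theorem flowD4_univ :
    flowD4 (MvPolynomial.X 0 : MvPolynomial (Fin 3) ℤ) (MvPolynomial.X 1) (MvPolynomial.X 2) = 0 := by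
  apply IsFractionRing.injective (MvPolynomial (Fin 3) ℤ) (FractionRing (MvPolynomial (Fin 3) ℤ))
  rw [map_zero, map_flowD4]
  have hy : algebraMap (MvPolynomial (Fin 3) ℤ) (FractionRing (MvPolynomial (Fin 3) ℤ))
      (MvPolynomial.X 1) ≠ 0 := by
    rw [Ne, map_eq_zero_iff _ (IsFractionRing.injective _ _)]
    exact MvPolynomial.X_ne_zero 1
  generalize algebraMap (MvPolynomial (Fin 3) ℤ) (FractionRing (MvPolynomial (Fin 3) ℤ))
      (MvPolynomial.X 1) = y at *
  generalize algebraMap (MvPolynomial (Fin 3) ℤ) (FractionRing (MvPolynomial (Fin 3) ℤ))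
      (MvPolynomial.X 0) = x at *
  have hx : x = x / y * y := by field_simp
  rw [hx]
  exact flowD4_mul _ _ _

theorem flowD6_univ :
    flowD6 (MvPolynomial.X 0 : MvPolynomial (Fin 3) ℤ) (MvPolynomial.X 1) (MvPolynomial.X 2) = 0 := by
  apply IsFractionRing.injective (MvPolynomial (Fin 3) ℤ) (FractionRing (MvPolynomial (Fin 3) ℤ))
  rw [map_zero, map_flowD6]
  have hy : algebraMap (MvPolynomial (Fin 3) ℤ) (FractionRing (MvPolynomial (Fin 3) ℤ))
      (MvPolynomial.X 1) ≠ 0 := by
    rw [Ne, map_eq_zero_iff _ (IsFractionRing.injective _ _)]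
    exact MvPolynomial.X_ne_zero 1
  generalize algebraMap (MvPolynomial (Fin 3) ℤ) (FractionRing (MvPolynomial (Fin 3) ℤ))
      (MvPolynomial.X 1) = y at *
  generalize algebraMap (MvPolynomial (Fin 3) ℤ) (FractionRing (MvPolynomial (Fin 3) ℤ))
      (MvPolynomial.X 0) = x at *
  have hx : x = x / y * y := by field_simp
  rw [hx]
  exact flowD6_mul _ _ _

/-- **the `c₄` of the family.** -/
theorem i4_flow (p r t : R) :
    i4 (p * (1 + t * al p r) ^ 5) (r * (1 - t * be p r) ^ 5) = C4 t (i4 p r) (i6 p r) := by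
  have := map_flowD4 (MvPolynomial.eval₂Hom (Int.castRingHom R) ![p, r, t])
    (MvPolynomial.X 0) (MvPolynomial.X 1) (MvPolynomial.X 2)
  rw [flowD4_univ, map_zero] at this
  simp only [MvPolynomial.eval₂Hom_X', Matrix.cons_val_zero, Matrix.cons_val_one,
    Matrix.cons_val] at this
  exact sub_eq_zero.mp this.symm

/-- **the `c₆` of the family.** -/
theorem i6_flow (p r t : R) :
    i6 (p * (1 + t * al p r) ^ 5) (r * (1 - t * be p r) ^ 5) = C6 t (i4 p r) (i6 p r) := by
  have := map_flowD6 (MvPolynomial.eval₂Hom (Int.castRingHom R) ![p, r, t])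
    (MvPolynomial.X 0) (MvPolynomial.X 1) (MvPolynomial.X 2)
  rw [flowD6_univ, map_zero] at this
  simp only [MvPolynomial.eval₂Hom_X', Matrix.cons_val_zero, Matrix.cons_val_one,
    Matrix.cons_val] at this
  exact sub_eq_zero.mp this.symm

end Fermat.Agent.S52
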