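import Fermat.Agent.S52.Flow

/-!
# S52 blocks (B6), (D1): every curve is icosahedrally parametrised over an algebraically closed
field; `C4`, `C6` have no common zero.
-/

set_option autoImplicit false

namespace Fermat.Agent.S52

theorem Param_big_ne_zero {F : Type*} [Field F] (h30 : (30 : F) ≠ 0) :
    (1406250000 : F) ≠ 0 := by
  have h2 : (2 : F) ≠ 0 := by
    intro h; apply h30
    have : (30 : F) = 2 * 15 := by norm_num
    rw [this, h, zero_mul]
  have h3 : (3 : F) ≠ 0 := by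
    intro h; apply h30
    have : (30 : F) = 3 * 10 := by norm_num
    rw [this, h, zero_mul]
  have h5 : (5 : F) ≠ 0 := by
    intro h; apply h30
    have : (30 : F) = 5 * 6 := by norm_num
    rw [this, h, zero_mul]
  have : (1406250000 : F) = 2 ^ 4 * 3 ^ 2 * 5 ^ 10 := by norm_num
  rw [this]
  exact mul_ne_zero (mul_ne_zero (pow_ne_zero _ h2) (pow_ne_zero _ h3)) (pow_ne_zero _ h5)

theorem eq_zero_of_i4_i6 {F : Type*} [Field F] (h30 : (30 : F) ≠ 0) {p r : F}
    (h4 : i4 p r = 0) (h6 : i6 p r = 0) : p = 0 ∧ r = 0 := by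
  have hb := Param_big_ne_zero h30
  constructor
  · have h := cert_p p r
    rw [h4, h6, mul_zero, mul_zero, add_zero] at h
    have h' := (mul_eq_zero.mp h.symm).resolve_left hb
    exact pow_eq_zero_iff (by norm_num) |>.mp h'
  · have h := cert_r p r
    rw [h4, h6, mul_zero, mul_zero, add_zero] at h
    have h' := (mul_eq_zero.mp h.symm).resolve_left hb
    exact pow_eq_zero_iff (by norm_num) |>.mp h'

theorem Param_i4_homog {R : Type*} [CommRing R] (s r : R) : i4 (s * r) r = r ^ 4 * i4 s 1 := by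
  simp only [i4]; ring

theorem Param_i6_homog {R : Type*} [CommRing R] (s r : R) : i6 (s * r) r = r ^ 6 * i6 s 1 := by
  simp only [i6]; ring

open Polynomial in
theorem Param_exists_root {K : Type*} [Field K] [IsAlgClosed K] (a b : K)
    (hΔ : a ^ 3 - b ^ 2 ≠ 0) :
    ∃ s : K, b ^ 2 * i4 s 1 ^ 3 = a ^ 3 * i6 s 1 ^ 2 := by
  set P : K[X] := C (b ^ 2) * (i4 (X : K[X]) 1) ^ 3 - C (a ^ 3) * (i6 (X : K[X]) 1) ^ 2 with hP
  have hc : P.coeff 12 = b ^ 2 - a ^ 3 := by
    have e4 : i4 (X : K[X]) 1 = X ^ 4 - C 228 * X ^ 3 + C 494 * X ^ 2 + C 228 * X + C 1 := by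
      simp only [i4, map_ofNat, map_one]; ring
    have e6 : i6 (X : K[X]) 1 = -(X ^ 6 + C 522 * X ^ 5 - C 10005 * X ^ 4 - C 10005 * X ^ 2
        - C 522 * X + C 1) := by
      simp only [i6, map_ofNat, map_one]; ring
    rw [hP, e4, e6]
    compute_degree!
    rw [coeff_one]
    norm_num
  have hdeg : P.degree ≠ 0 := by
    intro h
    have h1 : P.natDegree = 0 := natDegree_eq_of_degree_eq_some h
    have h2 : P.coeff 12 = 0 := coeff_eq_zero_of_natDegree_lt (by omega)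
    rw [hc] at h2
    apply hΔ
    linear_combination -h2
  obtain ⟨s, hs⟩ := IsAlgClosed.exists_root P hdeg
  refine ⟨s, ?_⟩
  have h4 : (i4 (X : K[X]) 1).eval s = i4 s 1 := by
    have := map_i4 (evalRingHom s) (X : K[X]) 1
    simpa using this
  have h6 : (i6 (X : K[X]) 1).eval s = i6 s 1 := by
    have := map_i6 (evalRingHom s) (X : K[X]) 1
    simpa using this
  rw [IsRoot.def, hP, eval_sub, eval_mul, eval_mul, eval_pow, eval_pow, eval_C, eval_C, h4, h6] at hs
  linear_combination hs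

/-- over an algebraically closed field every `(a,b)` with `a b (a³-b²) ≠ 0` is `(i4, i6)(p, r)`. -/
theorem exists_pr {K : Type*} [Field K] [IsAlgClosed K] (h30 : (30 : K) ≠ 0) (a b : K)
    (ha : a ≠ 0) (hb : b ≠ 0) (hΔ : a ^ 3 - b ^ 2 ≠ 0) :
    ∃ p r : K, i4 p r = a ∧ i6 p r = b := by
  obtain ⟨s, hs⟩ := Param_exists_root a b hΔ
  set g4 := i4 s 1 with hg4
  set g6 := i6 s 1 with hg6
  have hnb : ¬ (g4 = 0 ∧ g6 = 0) := by
    rintro ⟨h4, h6⟩
    exact one_ne_zero (eq_zero_of_i4_i6 h30 h4 h6).2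
  have h4 : g4 ≠ 0 := by
    intro h4
    apply hnb
    refine ⟨h4, ?_⟩
    rw [h4] at hs
    have : a ^ 3 * g6 ^ 2 = 0 := by rw [← hs]; ring
    have := (mul_eq_zero.mp this).resolve_left (pow_ne_zero _ ha)
    exact pow_eq_zero_iff (by norm_num) |>.mp this
  have h6 : g6 ≠ 0 := by
    intro h6
    apply hnb
    refine ⟨?_, h6⟩
    rw [h6] at hs
    have : b ^ 2 * g4 ^ 3 = 0 := by rw [hs]; ring
    have := (mul_eq_zero.mp this).resolve_left (pow_ne_zero _ hb)
    exact pow_eq_zero_iff (by norm_num) |>.mp this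
  obtain ⟨r, hr⟩ := IsAlgClosed.exists_pow_nat_eq (b * g4 / (a * g6)) (n := 2) (by norm_num)
  refine ⟨s * r, r, ?_, ?_⟩
  · rw [Param_i4_homog, ← hg4]
    have : r ^ 4 = (r ^ 2) ^ 2 := by ring
    rw [this, hr]
    field_simp
    linear_combination hs
  · rw [Param_i6_homog, ← hg6]
    have : r ^ 6 = (r ^ 2) ^ 3 := by ring
    rw [this, hr]
    field_simp
    linear_combination hs

theorem exists_param {K : Type*} [Field K] [IsAlgClosed K] (h30 : (30 : K) ≠ 0) (a b : K)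
    (ha : a ≠ 0) (hb : b ≠ 0) (hΔ : a ^ 3 - b ^ 2 ≠ 0) :
    ∃ u v : K, i4 (u ^ 5) (v ^ 5) = a ∧ i6 (u ^ 5) (v ^ 5) = b := by
  obtain ⟨p, r, h4, h6⟩ := exists_pr h30 a b ha hb hΔ
  obtain ⟨u, hu⟩ := IsAlgClosed.exists_pow_nat_eq p (n := 5) (by norm_num)
  obtain ⟨v, hv⟩ := IsAlgClosed.exists_pow_nat_eq r (n := 5) (by norm_num)
  exact ⟨u, v, by rw [hu, hv, h4], by rw [hu, hv, h6]⟩

theorem Param_no_common_zero_closed {K : Type*} [Field K] [IsAlgClosed K] (h30 : (30 : K) ≠ 0)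
    (a b t : K) (ha : a ≠ 0) (hb : b ≠ 0) (hΔ : a ^ 3 - b ^ 2 ≠ 0) :
    ¬ (C4 t a b = 0 ∧ C6 t a b = 0) := by
  rintro ⟨h4, h6⟩
  obtain ⟨p, r, hp4, hp6⟩ := exists_pr h30 a b ha hb hΔ
  have hD : iD p r ≠ 0 := by
    intro h
    apply hΔ
    have := i_rel p r
    rw [hp4, hp6, h] at this
    rw [this]; ring
  have hp : p ≠ 0 := by
    intro h; apply hD; simp [iD, h]
  have hr : r ≠ 0 := by
    intro h; apply hD; simp [iD, h]
  have hF : iF p r ≠ 0 := by
    intro h; apply hD; simp [iD, h]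
  have e4 := i4_flow p r t
  have e6 := i6_flow p r t
  rw [hp4, hp6, h4] at e4
  rw [hp4, hp6, h6] at e6
  obtain ⟨z1, z2⟩ := eq_zero_of_i4_i6 h30 e4 e6
  have y1 : 1 + t * al p r = 0 :=
    pow_eq_zero_iff (by norm_num) |>.mp ((mul_eq_zero.mp z1).resolve_left hp)
  have y2 : 1 - t * be p r = 0 :=
    pow_eq_zero_iff (by norm_num) |>.mp ((mul_eq_zero.mp z2).resolve_left hr)
  have ht : t ≠ 0 := by
    intro h; rw [h] at y1; simp at y1
  have h12 : (12 : K) ≠ 0 := by
    intro h; apply h30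
    have h' : (30 : K) ^ 2 = 12 * 75 := by norm_num
    have : (30 : K) ^ 2 = 0 := by rw [h', h, zero_mul]
    exact pow_eq_zero_iff (by norm_num) |>.mp this
  have hs : t * (12 * iF p r) = 0 := by
    rw [← al_add_be]
    linear_combination y1 - y2
  exact (mul_ne_zero ht (mul_ne_zero h12 hF)) hs

/-- the family never acquires additive reduction. -/
theorem no_common_zero {F : Type*} [Field F] (h30 : (30 : F) ≠ 0) (a b t : F)
    (ha : a ≠ 0) (hb : b ≠ 0) (hΔ : a ^ 3 - b ^ 2 ≠ 0) :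
    ¬ (C4 t a b = 0 ∧ C6 t a b = 0) := by
  rintro ⟨h4, h6⟩
  let φ : F →+* AlgebraicClosure F := algebraMap F (AlgebraicClosure F)
  have hinj : Function.Injective φ := φ.injective
  have hne : ∀ x : F, x ≠ 0 → φ x ≠ 0 := fun x hx => by
    rwa [Ne, map_eq_zero_iff φ hinj]
  have h30' : (30 : AlgebraicClosure F) ≠ 0 := by
    have := hne 30 h30
    rwa [map_ofNat] at this
  have hΔ' : φ a ^ 3 - φ b ^ 2 ≠ 0 := by
    have := hne _ hΔ
    rwa [map_sub, map_pow, map_pow] at this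
  apply Param_no_common_zero_closed (K := AlgebraicClosure F) h30'
    (φ a) (φ b) (φ t) (hne a ha) (hne b hb) hΔ'
  constructor
  · rw [← map_C4, h4, map_zero]
  · rw [← map_C6, h6, map_zero]

end Fermat.Agent.S52
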