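import Fermat.Agent.S52.TorsStruct
import Fermat.Agent.S52.Param
import Fermat.Agent.Lib.Hasse.Glue

/-!
# S52 block (B): `a_ℓ(E_t) ≡ a_ℓ(E) mod 5`
-/

set_option autoImplicit false

namespace Fermat.Agent.S52

open Fermat.Agent.Lib.Hasse Polynomial

/-- rigidity: a polynomial point which at almost all parameters coincides with a member of a finite
family of polynomial points is identically equal to one of them. -/
theorem rigidity {K : Type*} [Field K] [Infinite K] {ι : Type*} [Finite ι] (x y : K[X])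
    (X Y : ι → K[X]) (bad : Set K) (hbad : bad.Finite)
    (h : ∀ s : K, s ∉ bad → ∃ k, x.eval s = (X k).eval s ∧ y.eval s = (Y k).eval s) :
    ∃ k, x = X k ∧ y = Y k := by
  have hinf : (badᶜ).Infinite := hbad.infinite_compl
  have hsub : badᶜ ⊆ ⋃ k, {s | x.eval s = (X k).eval s ∧ y.eval s = (Y k).eval s} := by
    intro s hs
    obtain ⟨k, hk⟩ := h s hs
    exact Set.mem_iUnion.2 ⟨k, hk⟩
  have hinf2 := hinf.mono hsub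
  obtain ⟨k, hk⟩ : ∃ k, {s | x.eval s = (X k).eval s ∧ y.eval s = (Y k).eval s}.Infinite := by
    by_contra hcon
    push Not at hcon
    exact hinf2 (Set.finite_iUnion hcon)
  refine ⟨k, ?_, ?_⟩
  · exact Polynomial.eq_of_infinite_eval_eq _ _ (hk.mono fun s hs => hs.1)
  · exact Polynomial.eq_of_infinite_eval_eq _ _ (hk.mono fun s hs => hs.2)

open WeierstrassCurve in
/-- auxiliary form of `exists_frob`, for a curve propositionally equal to a base change. -/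
theorem rigid_frob_aux {K : Type*} [Field K] [DecidableEq K] (ℓ : ℕ) [Fact ℓ.Prime]
    [Algebra (ZMod ℓ) K] (A₀ B₀ : ZMod ℓ) (W' : WeierstrassCurve.Affine K)
    (hW : (sw A₀ B₀)⁄K = W') :
    ∃ Fr : W'.Point →+ W'.Point, ∀ x y h, ∃ h', Fr (.some x y h) = .some (x ^ ℓ) (y ^ ℓ) h' := by
  subst hW
  refine ⟨WeierstrassCurve.Affine.Point.map (W' := sw A₀ B₀)
    (FiniteField.frobeniusAlgHom (ZMod ℓ) K), ?_⟩
  intro x y h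
  have key : ∀ (n : ℕ) (_ : n = ℓ) (H : _), ∃ h', (WeierstrassCurve.Affine.Point.some
      (W' := (sw A₀ B₀)⁄K) (x ^ n) (y ^ n) H) = .some (x ^ ℓ) (y ^ ℓ) h' := by
    intro n hn H
    subst hn
    exact ⟨H, rfl⟩
  rw [WeierstrassCurve.Affine.Point.map_some]
  exact key (Fintype.card (ZMod ℓ)) (ZMod.card ℓ) _

/-- Frobenius on the points over `K ⊇ 𝔽_ℓ` of a curve defined over `𝔽_ℓ`. -/
theorem exists_frob {K : Type*} [Field K] [DecidableEq K] (ℓ : ℕ) [Fact ℓ.Prime]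
    [Algebra (ZMod ℓ) K] (A B : K) (hA : A ^ ℓ = A) (hB : B ^ ℓ = B) :
    ∃ Fr : Pt A B →+ Pt A B, ∀ x y h, ∃ h', Fr (.some x y h) = .some (x ^ ℓ) (y ^ ℓ) h' := by
  obtain ⟨A₀, rfl⟩ := glue_mem_range ℓ hA
  obtain ⟨B₀, rfl⟩ := glue_mem_range ℓ hB
  exact rigid_frob_aux ℓ A₀ B₀ _ (glue_map_sw (algebraMap (ZMod ℓ) K) A₀ B₀)

theorem rigid_C4_zero {R : Type*} [CommRing R] (a b : R) : C4 0 a b = a := by simp [C4]
theorem rigid_C6_zero {R : Type*} [CommRing R] (a b : R) : C6 0 a b = b := by simp [C6]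

/-- invariants along the line. -/
theorem rigid_inv {R : Type*} [CommRing R] (u v s a b : R) (h4 : i4 (u ^ 5) (v ^ 5) = a)
    (h6 : i6 (u ^ 5) (v ^ 5) = b) :
    i4 ((u * (1 + s * al (u ^ 5) (v ^ 5))) ^ 5) ((v * (1 - s * be (u ^ 5) (v ^ 5))) ^ 5) = C4 s a b ∧
    i6 ((u * (1 + s * al (u ^ 5) (v ^ 5))) ^ 5) ((v * (1 - s * be (u ^ 5) (v ^ 5))) ^ 5) = C6 s a b := by
  rw [mul_pow, mul_pow, i4_flow, i6_flow, h4, h6]
  exact ⟨rfl, rfl⟩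

theorem rigid_bad_finite {K : Type*} [Field K] (a b : K) (hΔ : a ^ 3 - b ^ 2 ≠ 0) :
    {s : K | C4 s a b ^ 3 - C6 s a b ^ 2 = 0}.Finite := by
  set P : K[X] := C4 X (C a) (C b) ^ 3 - C6 X (C a) (C b) ^ 2 with hP
  have hev : ∀ s : K, P.eval s = C4 s a b ^ 3 - C6 s a b ^ 2 := by
    intro s
    have h4 := map_C4 (evalRingHom s) X (C a) (C b)
    have h6 := map_C6 (evalRingHom s) X (C a) (C b)
    simp only [coe_evalRingHom, eval_X, eval_C] at h4 h6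
    rw [hP, eval_sub, eval_pow, eval_pow, h4, h6]
  have hP0 : P ≠ 0 := by
    intro h
    have := hev 0
    rw [h, eval_zero, rigid_C4_zero, rigid_C6_zero] at this
    exact hΔ this.symm
  refine (Polynomial.finite_setOfPred_isRoot hP0).subset ?_
  intro s hs
  simp only [Set.mem_ofPred_eq, IsRoot.def] at hs ⊢
  rw [hev, hs]

/-- the key rigidity statement. -/
theorem rigid_line {K : Type*} [Field K] [IsAlgClosed K] (h30 : (30 : K) ≠ 0)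
    (e ζ : K) (he : 5 * e = 1) (hζ : 1 + ζ + ζ ^ 2 + ζ ^ 3 + ζ ^ 4 = 0)
    (a b u v u' v' : K) (hΔ : a ^ 3 - b ^ 2 ≠ 0)
    (h4 : i4 (u ^ 5) (v ^ 5) = a) (h6 : i6 (u ^ 5) (v ^ 5) = b)
    (h4' : i4 (u' ^ 5) (v' ^ 5) = a) (h6' : i6 (u' ^ 5) (v' ^ 5) = b) :
    ∃ m n : ℕ, m < 5 ∧ n < 5 ∧ (m ≠ 0 ∨ n ≠ 0) ∧ ∀ s : K,
      xQ (u' * (1 + s * al (u' ^ 5) (v' ^ 5))) (v' * (1 - s * be (u' ^ 5) (v' ^ 5)))
        = cx e ζ m n (u * (1 + s * al (u ^ 5) (v ^ 5))) (v * (1 - s * be (u ^ 5) (v ^ 5))) ∧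
      yQ (u' * (1 + s * al (u' ^ 5) (v' ^ 5))) (v' * (1 - s * be (u' ^ 5) (v' ^ 5)))
        = cy e ζ m n (u * (1 + s * al (u ^ 5) (v ^ 5))) (v * (1 - s * be (u ^ 5) (v ^ 5))) := by
  classical
  have : Infinite K := IsAlgClosed.instInfinite
  set U : K[X] := C u * (1 + X * C (al (u ^ 5) (v ^ 5))) with hU
  set V : K[X] := C v * (1 - X * C (be (u ^ 5) (v ^ 5))) with hV
  set U' : K[X] := C u' * (1 + X * C (al (u' ^ 5) (v' ^ 5))) with hU'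
  set V' : K[X] := C v' * (1 - X * C (be (u' ^ 5) (v' ^ 5))) with hV'
  have eU : ∀ s : K, U.eval s = u * (1 + s * al (u ^ 5) (v ^ 5)) := by
    intro s; simp only [hU, eval_mul, eval_add, eval_C, eval_one, eval_X]
  have eV : ∀ s : K, V.eval s = v * (1 - s * be (u ^ 5) (v ^ 5)) := by
    intro s; simp only [hV, eval_mul, eval_sub, eval_C, eval_one, eval_X]
  have eU' : ∀ s : K, U'.eval s = u' * (1 + s * al (u' ^ 5) (v' ^ 5)) := by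
    intro s; simp only [hU', eval_mul, eval_add, eval_C, eval_one, eval_X]
  have eV' : ∀ s : K, V'.eval s = v' * (1 - s * be (u' ^ 5) (v' ^ 5)) := by
    intro s; simp only [hV', eval_mul, eval_sub, eval_C, eval_one, eval_X]
  have exQ : ∀ s : K, (xQ U' V').eval s = xQ (U'.eval s) (V'.eval s) := fun s =>
    map_xQ (evalRingHom s) U' V'
  have eyQ : ∀ s : K, (yQ U' V').eval s = yQ (U'.eval s) (V'.eval s) := fun s =>
    map_yQ (evalRingHom s) U' V'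
  have ecx : ∀ (m n : ℕ) (s : K), (cx (C e) (C ζ) m n U V).eval s
      = cx e ζ m n (U.eval s) (V.eval s) := fun m n s => by
    have := map_cx (evalRingHom s) (C e) (C ζ) m n U V
    simpa only [coe_evalRingHom, eval_C] using this
  have ecy : ∀ (m n : ℕ) (s : K), (cy (C e) (C ζ) m n U V).eval s
      = cy e ζ m n (U.eval s) (V.eval s) := fun m n s => by
    have := map_cy (evalRingHom s) (C e) (C ζ) m n U V
    simpa only [coe_evalRingHom, eval_C] using this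
  obtain ⟨k, hkx, hky⟩ := rigidity (ι := {k : Fin 5 × Fin 5 // (k.1 : ℕ) ≠ 0 ∨ (k.2 : ℕ) ≠ 0})
    (xQ U' V') (yQ U' V')
    (fun k => cx (C e) (C ζ) k.1.1 k.1.2 U V) (fun k => cy (C e) (C ζ) k.1.1 k.1.2 U V)
    {s : K | C4 s a b ^ 3 - C6 s a b ^ 2 = 0} (rigid_bad_finite a b hΔ) (by
      intro s hs
      have hs' : C4 s a b ^ 3 - C6 s a b ^ 2 ≠ 0 := hs
      obtain ⟨i1, i2⟩ := rigid_inv u v s a b h4 h6
      obtain ⟨j1, j2⟩ := rigid_inv u' v' s a b h4' h6'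
      obtain ⟨S, Q, -, -, -, -, hcoord, hall⟩ := tors_struct h30 e ζ he hζ
        (-27 * C4 s a b) (-54 * C6 s a b) (C4 s a b) (C6 s a b) _ _ rfl rfl hs' i1 i2
      obtain ⟨S', Q', ⟨hq, hQ'⟩, -, h5Q', -, -, -⟩ := tors_struct h30 e ζ he hζ
        (-27 * C4 s a b) (-54 * C6 s a b) (C4 s a b) (C6 s a b) _ _ rfl rfl hs' j1 j2
      obtain ⟨m, n, hm, hn, hmn⟩ := hall Q' h5Q'
      have hne : m ≠ 0 ∨ n ≠ 0 := by
        by_contra hcon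
        push Not at hcon
        obtain ⟨rfl, rfl⟩ := hcon
        rw [hQ'] at hmn
        simp at hmn
      obtain ⟨hc, hcc⟩ := hcoord m n hm hn hne
      rw [hQ', hcc] at hmn
      simp only [WeierstrassCurve.Affine.Point.some.injEq] at hmn
      refine ⟨⟨(⟨m, hm⟩, ⟨n, hn⟩), hne⟩, ?_, ?_⟩
      · rw [exQ, ecx, eU, eV, eU', eV']; exact hmn.1
      · rw [eyQ, ecy, eU, eV, eU', eV']; exact hmn.2)
  refine ⟨k.1.1, k.1.2, k.1.1.2, k.1.2.2, k.2, fun s => ⟨?_, ?_⟩⟩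
  · have := congrArg (Polynomial.eval s) hkx
    rwa [exQ, ecx, eU, eV, eU', eV'] at this
  · have := congrArg (Polynomial.eval s) hky
    rwa [eyQ, ecy, eU, eV, eU', eV'] at this


theorem rigid_frob_line {K : Type*} [Field K] (ψ : K →+* K) (u v s : K) (hs : ψ s = s) :
    ψ (u * (1 + s * al (u ^ 5) (v ^ 5))) = ψ u * (1 + s * al ((ψ u) ^ 5) ((ψ v) ^ 5)) ∧
    ψ (v * (1 - s * be (u ^ 5) (v ^ 5))) = ψ v * (1 - s * be ((ψ u) ^ 5) ((ψ v) ^ 5)) := by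
  simp only [map_mul, map_add, map_sub, map_one, map_al, map_be, map_pow, hs, and_self]

theorem rigid_ne_zero (ℓ : ℕ) [Fact ℓ.Prime] (hℓ : 7 ≤ ℓ) :
    (2 : ZMod ℓ) ≠ 0 ∧ (3 : ZMod ℓ) ≠ 0 ∧ (5 : ZMod ℓ) ≠ 0 := by
  have key : ∀ n : ℕ, 0 < n → n < 7 → ((n : ℕ) : ZMod ℓ) ≠ 0 := by
    intro n h0 h7 h
    rw [ZMod.natCast_eq_zero_iff] at h
    have := Nat.le_of_dvd h0 h
    omega
  exact ⟨by exact_mod_cast key 2 (by norm_num) (by norm_num),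
    by exact_mod_cast key 3 (by norm_num) (by norm_num),
    by exact_mod_cast key 5 (by norm_num) (by norm_num)⟩

/-- the relation between the Frobenius matrix and the number of points, on one fibre. -/
theorem rigid_rel {K : Type*} [Field K] [DecidableEq K] [IsAlgClosed K] (ℓ : ℕ) [Fact ℓ.Prime]
    [Algebra (ZMod ℓ) K] (hℓ : 7 ≤ ℓ) (h30 : (30 : K) ≠ 0)
    (e ζ : K) (he : 5 * e = 1) (hζ : 1 + ζ + ζ ^ 2 + ζ ^ 3 + ζ ^ 4 = 0)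
    (a b s : ZMod ℓ) (u v : K)
    (h4 : i4 (u ^ 5) (v ^ 5) = algebraMap (ZMod ℓ) K a)
    (h6 : i6 (u ^ 5) (v ^ 5) = algebraMap (ZMod ℓ) K b)
    (hΔs : C4 s a b ^ 3 - C6 s a b ^ 2 ≠ 0)
    (m1 n1 m2 n2 : ℕ) (hm1 : m1 < 5) (hn1 : n1 < 5) (h1 : m1 ≠ 0 ∨ n1 ≠ 0)
    (hm2 : m2 < 5) (hn2 : n2 < 5) (h2 : m2 ≠ 0 ∨ n2 ≠ 0)
    (H1 : ∀ s : K,
      xQ (u ^ ℓ * (1 + s * al ((u ^ ℓ) ^ 5) ((v ^ ℓ) ^ 5)))
          (v ^ ℓ * (1 - s * be ((u ^ ℓ) ^ 5) ((v ^ ℓ) ^ 5)))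
        = cx e ζ m1 n1 (u * (1 + s * al (u ^ 5) (v ^ 5))) (v * (1 - s * be (u ^ 5) (v ^ 5))) ∧
      yQ (u ^ ℓ * (1 + s * al ((u ^ ℓ) ^ 5) ((v ^ ℓ) ^ 5)))
          (v ^ ℓ * (1 - s * be ((u ^ ℓ) ^ 5) ((v ^ ℓ) ^ 5)))
        = cy e ζ m1 n1 (u * (1 + s * al (u ^ 5) (v ^ 5))) (v * (1 - s * be (u ^ 5) (v ^ 5))))
    (H2 : ∀ s : K,
      xQ ((u ^ ℓ) ^ ℓ * (1 + s * al (((u ^ ℓ) ^ ℓ) ^ 5) (((v ^ ℓ) ^ ℓ) ^ 5)))
          ((v ^ ℓ) ^ ℓ * (1 - s * be (((u ^ ℓ) ^ ℓ) ^ 5) (((v ^ ℓ) ^ ℓ) ^ 5)))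
        = cx e ζ m2 n2 (u * (1 + s * al (u ^ 5) (v ^ 5))) (v * (1 - s * be (u ^ 5) (v ^ 5))) ∧
      yQ ((u ^ ℓ) ^ ℓ * (1 + s * al (((u ^ ℓ) ^ ℓ) ^ 5) (((v ^ ℓ) ^ ℓ) ^ 5)))
          ((v ^ ℓ) ^ ℓ * (1 - s * be (((u ^ ℓ) ^ ℓ) ^ 5) (((v ^ ℓ) ^ ℓ) ^ 5)))
        = cy e ζ m2 n2 (u * (1 + s * al (u ^ 5) (v ^ 5))) (v * (1 - s * be (u ^ 5) (v ^ 5)))) :
    (5 : ℤ) ∣ (m2 : ℤ)
        - ((ℓ : ℤ) + 1 - Nat.card (Pt (-27 * C4 s a b) (-54 * C6 s a b))) * m1 ∧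
    (5 : ℤ) ∣ (n2 : ℤ)
        - ((ℓ : ℤ) + 1 - Nat.card (Pt (-27 * C4 s a b) (-54 * C6 s a b))) * n1 + ℓ := by
  have hchar : CharP K ℓ := charP_of_injective_algebraMap (algebraMap (ZMod ℓ) K).injective ℓ
  set φ := algebraMap (ZMod ℓ) K with hφ
  set ψ : K →+* K := frobenius K ℓ with hψdef
  have hψ : ∀ x, ψ x = x ^ ℓ := fun x => frobenius_def ℓ x
  have hψφ : ∀ x : ZMod ℓ, ψ (φ x) = φ x := by
    intro x; rw [hψ, ← map_pow, ZMod.pow_card]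
  have hA : φ (-27 * C4 s a b) = -27 * C4 (φ s) (φ a) (φ b) := by
    rw [map_mul, map_neg, map_ofNat, map_C4]
  have hB : φ (-54 * C6 s a b) = -54 * C6 (φ s) (φ a) (φ b) := by
    rw [map_mul, map_neg, map_ofNat, map_C6]
  have hΔK : C4 (φ s) (φ a) (φ b) ^ 3 - C6 (φ s) (φ a) (φ b) ^ 2 ≠ 0 := by
    rw [← map_C4, ← map_C6, ← map_pow, ← map_pow, ← map_sub]
    exact (map_ne_zero φ).mpr hΔs
  obtain ⟨i1, i2⟩ := rigid_inv u v (φ s) (φ a) (φ b) h4 h6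
  obtain ⟨S, Q, ⟨hq, hQ⟩, -, -, hind, hcoord, -⟩ := tors_struct h30 e ζ he hζ
    (φ (-27 * C4 s a b)) (φ (-54 * C6 s a b)) _ _ _ _ hA hB hΔK i1 i2
  obtain ⟨Fr, hFr⟩ := exists_frob ℓ (φ (-27 * C4 s a b)) (φ (-54 * C6 s a b))
    (by rw [← map_pow, ZMod.pow_card]) (by rw [← map_pow, ZMod.pow_card])
  obtain ⟨z2, z3, -⟩ := rigid_ne_zero ℓ hℓ
  have hdisc : 16 * (4 * (-27 * C4 s a b) ^ 3 + 27 * (-54 * C6 s a b) ^ 2) ≠ 0 := by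
    have : 16 * (4 * (-27 * C4 s a b) ^ 3 + 27 * (-54 * C6 s a b) ^ 2)
        = -(2 ^ 6 * 3 ^ 9) * (C4 s a b ^ 3 - C6 s a b ^ 2) := by ring
    rw [this]
    exact mul_ne_zero (neg_ne_zero.mpr (mul_ne_zero (pow_ne_zero _ z2) (pow_ne_zero _ z3))) hΔs
  have hrel := glue_core ℓ (by omega) (-27 * C4 s a b) (-54 * C6 s a b) hdisc
    (sw (φ (-27 * C4 s a b)) (φ (-54 * C6 s a b))) rfl Fr hFr Q
  obtain ⟨hq1, hFrQ⟩ := hFr _ _ hq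
  obtain ⟨hq2, hFrFrQ⟩ := hFr _ _ hq1
  obtain ⟨c1, hc1⟩ := hcoord m1 n1 hm1 hn1 h1
  obtain ⟨c2, hc2⟩ := hcoord m2 n2 hm2 hn2 h2
  obtain ⟨f1, f2⟩ := rigid_frob_line ψ u v (φ s) (hψφ s)
  obtain ⟨g1, g2⟩ := rigid_frob_line ψ (ψ u) (ψ v) (φ s) (hψφ s)
  have e1 : Fr Q = m1 • S + n1 • Q := by
    rw [hc1, hQ, hFrQ]
    simp only [WeierstrassCurve.Affine.Point.some.injEq]
    constructor
    · rw [← hψ, map_xQ, f1, f2, hψ u, hψ v]; exact (H1 (φ s)).1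
    · rw [← hψ, map_yQ, f1, f2, hψ u, hψ v]; exact (H1 (φ s)).2
  have e2 : Fr (Fr Q) = m2 • S + n2 • Q := by
    rw [hc2, hQ, hFrQ, hFrFrQ]
    simp only [WeierstrassCurve.Affine.Point.some.injEq]
    constructor
    · rw [← hψ, ← hψ, map_xQ, map_xQ, f1, f2, g1, g2, hψ (ψ u), hψ (ψ v), hψ u, hψ v]
      exact (H2 (φ s)).1
    · rw [← hψ, ← hψ, map_yQ, map_yQ, f1, f2, g1, g2, hψ (ψ u), hψ (ψ v), hψ u, hψ v]
      exact (H2 (φ s)).2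
  rw [e2, e1] at hrel
  refine hind _ _ ?_
  rw [← hrel]
  module

/-- **Theorem B.** -/
theorem cong_mod_five (ℓ : ℕ) [Fact ℓ.Prime] (hℓ : 7 ≤ ℓ) (a b t : ZMod ℓ) (ha : a ≠ 0)
    (hb : b ≠ 0) (hΔ : a ^ 3 - b ^ 2 ≠ 0) (hΔ' : C4 t a b ^ 3 - C6 t a b ^ 2 ≠ 0) :
    (5 : ℤ) ∣ (Nat.card (Pt (-27 * C4 t a b) (-54 * C6 t a b)) : ℤ)
      - (Nat.card (Pt (-27 * a) (-54 * b)) : ℤ) := by
  classical
  obtain ⟨z2, z3, z5⟩ := rigid_ne_zero ℓ hℓ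
  set φ := algebraMap (ZMod ℓ) (AlgebraicClosure (ZMod ℓ)) with hφ
  have hchar : CharP (AlgebraicClosure (ZMod ℓ)) ℓ :=
    charP_of_injective_algebraMap φ.injective ℓ
  have h30 : (30 : AlgebraicClosure (ZMod ℓ)) ≠ 0 := by
    have h : (30 : ZMod ℓ) ≠ 0 := by
      have : (30 : ZMod ℓ) = 2 * 3 * 5 := by norm_num
      rw [this]; exact mul_ne_zero (mul_ne_zero z2 z3) z5
    have h' := (map_ne_zero φ).mpr h
    rwa [map_ofNat] at h'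
  have h5K : (5 : AlgebraicClosure (ZMod ℓ)) ≠ 0 := fun h => h30 (by linear_combination 6 * h)
  obtain ⟨ζ, hζ⟩ : ∃ ζ : AlgebraicClosure (ZMod ℓ), 1 + ζ + ζ ^ 2 + ζ ^ 3 + ζ ^ 4 = 0 := by
    obtain ⟨z, hz⟩ := IsAlgClosed.exists_root
      (1 + X + X ^ 2 + X ^ 3 + X ^ 4 : (AlgebraicClosure (ZMod ℓ))[X]) (by
        have : (1 + X + X ^ 2 + X ^ 3 + X ^ 4 : (AlgebraicClosure (ZMod ℓ))[X]).degree = 4 := by
          compute_degree!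
        rw [this]; norm_num)
    exact ⟨z, by simpa using hz⟩
  have he : 5 * (5 : AlgebraicClosure (ZMod ℓ))⁻¹ = 1 := mul_inv_cancel₀ h5K
  have hΔK : (φ a) ^ 3 - (φ b) ^ 2 ≠ 0 := by
    rw [← map_pow, ← map_pow, ← map_sub]; exact (map_ne_zero φ).mpr hΔ
  obtain ⟨u, v, h4, h6⟩ := exists_param h30 (φ a) (φ b) ((map_ne_zero φ).mpr ha)
    ((map_ne_zero φ).mpr hb) hΔK
  have hfix : ∀ x : ZMod ℓ, (φ x) ^ ℓ = φ x := by
    intro x; rw [← map_pow, ZMod.pow_card]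
  have hinv : ∀ u v : AlgebraicClosure (ZMod ℓ), i4 (u ^ 5) (v ^ 5) = φ a →
      i6 (u ^ 5) (v ^ 5) = φ b →
      i4 ((u ^ ℓ) ^ 5) ((v ^ ℓ) ^ 5) = φ a ∧ i6 ((u ^ ℓ) ^ 5) ((v ^ ℓ) ^ 5) = φ b := by
    intro u v h4 h6
    have k4 := map_i4 (frobenius (AlgebraicClosure (ZMod ℓ)) ℓ) (u ^ 5) (v ^ 5)
    have k6 := map_i6 (frobenius (AlgebraicClosure (ZMod ℓ)) ℓ) (u ^ 5) (v ^ 5)
    rw [h4, map_pow, map_pow] at k4
    rw [h6, map_pow, map_pow] at k6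
    simp only [frobenius_def] at k4 k6
    rw [hfix] at k4 k6
    exact ⟨k4.symm, k6.symm⟩
  obtain ⟨h4', h6'⟩ := hinv u v h4 h6
  obtain ⟨h4'', h6''⟩ := hinv _ _ h4' h6'
  obtain ⟨m1, n1, hm1, hn1, h1, H1⟩ := rigid_line h30 _ ζ he hζ (φ a) (φ b) u v (u ^ ℓ) (v ^ ℓ)
    hΔK h4 h6 h4' h6'
  obtain ⟨m2, n2, hm2, hn2, h2, H2⟩ := rigid_line h30 _ ζ he hζ (φ a) (φ b) u v ((u ^ ℓ) ^ ℓ)
    ((v ^ ℓ) ^ ℓ) hΔK h4 h6 h4'' h6''
  have r0 := rigid_rel ℓ hℓ h30 _ ζ he hζ a b 0 u v h4 h6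
    (by rw [rigid_C4_zero, rigid_C6_zero]; exact hΔ) m1 n1 m2 n2 hm1 hn1 h1 hm2 hn2 h2 H1 H2
  have rt := rigid_rel ℓ hℓ h30 _ ζ he hζ a b t u v h4 h6 hΔ' m1 n1 m2 n2 hm1 hn1 h1 hm2 hn2 h2
    H1 H2
  rw [rigid_C4_zero, rigid_C6_zero] at r0
  generalize (Nat.card (Pt (-27 * C4 t a b) (-54 * C6 t a b)) : ℤ) = Nt at rt ⊢
  generalize (Nat.card (Pt (-27 * a) (-54 * b)) : ℤ) = N0 at r0 ⊢
  have p5 : Prime (5 : ℤ) := by norm_num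
  have d1 : (5 : ℤ) ∣ (Nt - N0) * m1 := by
    have := dvd_sub rt.1 r0.1
    have e : (Nt - N0) * (m1 : ℤ) = ((m2 : ℤ) - ((ℓ : ℤ) + 1 - Nt) * m1)
        - ((m2 : ℤ) - ((ℓ : ℤ) + 1 - N0) * m1) := by ring
    rw [e]; exact this
  have d2 : (5 : ℤ) ∣ (Nt - N0) * n1 := by
    have := dvd_sub rt.2 r0.2
    have e : (Nt - N0) * (n1 : ℤ) = ((n2 : ℤ) - ((ℓ : ℤ) + 1 - Nt) * n1 + ℓ)
        - ((n2 : ℤ) - ((ℓ : ℤ) + 1 - N0) * n1 + ℓ) := by ring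
    rw [e]; exact this
  rcases p5.dvd_or_dvd d1 with h | h
  · exact h
  rcases p5.dvd_or_dvd d2 with h' | h'
  · exact h'
  exfalso
  omega

end Fermat.Agent.S52
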