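import Fermat.Agent.S52.Defs

/-!
# S52 block (B1): the ring identities behind the explicit 5-torsion points
All verified by exact computer algebra (helper52); the `ζ`-identities are certified by explicit
cofactors of `Φ₅(ζ) = 1 + ζ + ζ² + ζ³ + ζ⁴` (helper94).
-/

set_option autoImplicit false

namespace Fermat.Agent.S52

variable {R : Type*} [CommRing R]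

/-- `f = u v (u¹⁰ + 11 u⁵ v⁵ - v¹⁰)`. -/
def fF (u v : R) : R := u * v * iF (u ^ 5) (v ^ 5)

theorem fF_pow_five (u v : R) : fF u v ^ 5 = iD (u ^ 5) (v ^ 5) := by
  simp only [fF, iD, iF]; ring

theorem Q_on (u v : R) :
    yQ u v ^ 2 = xQ u v ^ 3 - 27 * i4 (u ^ 5) (v ^ 5) * xQ u v - 54 * i6 (u ^ 5) (v ^ 5) := by
  simp only [yQ, xQ, i4, i6]; ring

theorem R_on (u v : R) :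
    yR u v ^ 2 = xR u v ^ 3 - 27 * i4 (u ^ 5) (v ^ 5) * xR u v - 54 * i6 (u ^ 5) (v ^ 5) := by
  simp only [yR, xR, i4, i6]; ring

theorem Q_slope (u v : R) :
    2 * yQ u v * lQ u v = 3 * xQ u v ^ 2 - 27 * i4 (u ^ 5) (v ^ 5) := by
  simp only [yQ, xQ, lQ, i4]; ring

theorem Q_dbl_x (u v : R) : xR u v = lQ u v ^ 2 - 2 * xQ u v := by
  simp only [xR, xQ, lQ]; ring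

theorem Q_dbl_y (u v : R) : yR u v = -(yQ u v + lQ u v * (xR u v - xQ u v)) := by
  simp only [yR, yQ, xR, xQ, lQ]; ring

theorem R_slope (u v : R) :
    2 * yR u v * lR u v = 3 * xR u v ^ 2 - 27 * i4 (u ^ 5) (v ^ 5) := by
  simp only [yR, xR, lR, i4]; ring

theorem R_dbl_x (u v : R) : xQ u v = lR u v ^ 2 - 2 * xR u v := by
  simp only [xR, xQ, lR]; ring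

theorem R_dbl_y (u v : R) : -yQ u v = -(yR u v + lR u v * (xQ u v - xR u v)) := by
  simp only [yR, yQ, xR, xQ, lR]; ring

theorem yQ_cofactor (u v : R) :
    yQ u v * (u * v ^ 8 - 4 * u ^ 2 * v ^ 7 + 7 * u ^ 3 * v ^ 6 - 7 * u ^ 4 * v ^ 5
      + 7 * u ^ 6 * v ^ 3 - 3 * u ^ 7 * v ^ 2 - u ^ 8 * v + u ^ 9) = 108 * fF u v ^ 2 := by
  simp only [yQ, fF, iF]; ring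

theorem yR_cofactor (u v : R) :
    yR u v * (v ^ 9 + u * v ^ 8 - 3 * u ^ 2 * v ^ 7 - 7 * u ^ 3 * v ^ 6 + 7 * u ^ 5 * v ^ 4
      + 7 * u ^ 6 * v ^ 3 + 4 * u ^ 7 * v ^ 2 + u ^ 8 * v) = 108 * fF u v ^ 2 := by
  simp only [yR, fF, iF]; ring

/-! ### `e`-free versions of `xS`, `yS`, `lS` -/

/-- `5 * xS`. -/
def xS0 (ζ p r : R) : R :=
  (-57 + 36 * (ζ ^ 2 + ζ ^ 3)) * r ^ 2 - (198 + 396 * (ζ ^ 2 + ζ ^ 3)) * p * r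
    - (93 + 36 * (ζ ^ 2 + ζ ^ 3)) * p ^ 2

/-- `5 * yS`. -/
def yS0 (ζ p r : R) : R :=
  (-216 - 432 * ζ - 324 * ζ ^ 2 - 108 * ζ ^ 3) * r ^ 3
    + (2484 + 4968 * ζ + 3456 * ζ ^ 2 + 1512 * ζ ^ 3) * p * r ^ 2
    + (-972 - 1944 * ζ + 1512 * ζ ^ 2 - 3456 * ζ ^ 3) * p ^ 2 * r
    + (-108 - 216 * ζ + 108 * ζ ^ 2 - 324 * ζ ^ 3) * p ^ 3

/-- `5 * lS`. -/
def lS0 (ζ u v : R) : R :=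
  (-9 - 18 * ζ - 12 * ζ ^ 2 - 6 * ζ ^ 3) * v ^ 5 + 30 * (ζ - 1) * u * v ^ 4
    + 30 * (ζ ^ 2 - 1) * u ^ 2 * v ^ 3 + 30 * (ζ ^ 3 - 1) * u ^ 3 * v ^ 2
    + (-3 - 6 * ζ + 6 * ζ ^ 2 - 12 * ζ ^ 3) * u ^ 5

theorem xS_eq (e ζ p r : R) : xS e ζ p r = e * xS0 ζ p r := rfl

theorem yS_eq (e ζ p r : R) : yS e ζ p r = e * yS0 ζ p r := rfl

theorem lS_eq (e ζ u v : R) : lS e ζ u v = e * lS0 ζ u v := rfl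

theorem S_key1 (ζ : R) (hζ : 1 + ζ + ζ ^ 2 + ζ ^ 3 + ζ ^ 4 = 0) (p r : R) :
    xS0 ζ p r ^ 3 - 5 * yS0 ζ p r ^ 2 - 675 * i4 p r * xS0 ζ p r - 6750 * i6 p r = 0 := by
  simp only [xS0, yS0, i4, i6]
  linear_combination
    (-373248 * r ^ 6 - 559872 * ζ * r ^ 6 - 373248 * ζ ^ 2 * r ^ 6 + 93312 * ζ ^ 4 * r ^ 6
      + 46656 * ζ ^ 5 * r ^ 6 + 8817984 * p * r ^ 5 + 12643776 * ζ * p * r ^ 5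
      + 8817984 * ζ ^ 2 * p * r ^ 5 - 3079296 * ζ ^ 4 * p * r ^ 5 - 1539648 * ζ ^ 5 * p * r ^ 5
      - 58553280 * p ^ 2 * r ^ 4 - 73249920 * ζ * p ^ 2 * r ^ 4 - 58553280 * ζ ^ 2 * p ^ 2 * r ^ 4
      + 33592320 * ζ ^ 4 * p ^ 2 * r ^ 4 + 16796160 * ζ ^ 5 * p ^ 2 * r ^ 4
      + 81414720 * p ^ 3 * r ^ 3 + 14230080 * ζ * p ^ 3 * r ^ 3 + 81414720 * ζ ^ 2 * p ^ 3 * r ^ 3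
      - 118039680 * ζ ^ 4 * p ^ 3 * r ^ 3 - 59019840 * ζ ^ 5 * p ^ 3 * r ^ 3
      - 81414720 * p ^ 4 * r ^ 2 + 73249920 * ζ * p ^ 4 * r ^ 2 - 81414720 * ζ ^ 2 * p ^ 4 * r ^ 2
      - 33592320 * ζ ^ 4 * p ^ 4 * r ^ 2 - 16796160 * ζ ^ 5 * p ^ 4 * r ^ 2 - 16842816 * p ^ 5 * r
      + 12643776 * ζ * p ^ 5 * r - 16842816 * ζ ^ 2 * p ^ 5 * r - 3079296 * ζ ^ 4 * p ^ 5 * r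
      - 1539648 * ζ ^ 5 * p ^ 5 * r - 793152 * p ^ 6 + 559872 * ζ * p ^ 6 - 793152 * ζ ^ 2 * p ^ 6
      - 93312 * ζ ^ 4 * p ^ 6 - 46656 * ζ ^ 5 * p ^ 6) * hζ

theorem S_key2 (ζ : R) (hζ : 1 + ζ + ζ ^ 2 + ζ ^ 3 + ζ ^ 4 = 0) (u v : R) :
    5 * (yQ (ζ * u) v + yQ u v) - lS0 ζ u v * (xQ (ζ * u) v - xQ u v) = 0 := by
  simp only [lS0, yQ, xQ]
  linear_combination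
    (216 * u * v ^ 14 + 432 * u ^ 2 * v ^ 13 + 432 * ζ * u ^ 2 * v ^ 13 + 648 * u ^ 3 * v ^ 12
      + 648 * ζ * u ^ 3 * v ^ 12 + 648 * ζ ^ 2 * u ^ 3 * v ^ 12 + 1080 * ζ * u ^ 4 * v ^ 11
      + 1080 * ζ ^ 2 * u ^ 4 * v ^ 11 + 1080 * ζ ^ 3 * u ^ 4 * v ^ 11 + 1890 * u ^ 5 * v ^ 10
      + 1890 * ζ * u ^ 5 * v ^ 10 + 540 * ζ ^ 2 * u ^ 5 * v ^ 10 + 540 * ζ ^ 3 * u ^ 5 * v ^ 10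
      + 540 * ζ ^ 4 * u ^ 5 * v ^ 10 + 3564 * u ^ 6 * v ^ 9 - 2268 * ζ * u ^ 6 * v ^ 9
      + 3672 * ζ ^ 2 * u ^ 6 * v ^ 9 + 432 * ζ ^ 3 * u ^ 6 * v ^ 9 + 432 * ζ ^ 4 * u ^ 6 * v ^ 9
      + 432 * ζ ^ 5 * u ^ 6 * v ^ 9 + 1188 * u ^ 7 * v ^ 8 + 1188 * ζ * u ^ 7 * v ^ 8
      + 1404 * ζ ^ 2 * u ^ 7 * v ^ 8 + 1404 * ζ ^ 3 * u ^ 7 * v ^ 8 - 216 * ζ ^ 4 * u ^ 7 * v ^ 8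
      - 216 * ζ ^ 5 * u ^ 7 * v ^ 8 - 216 * ζ ^ 6 * u ^ 7 * v ^ 8 - 1188 * u ^ 8 * v ^ 7
      - 1188 * ζ * u ^ 8 * v ^ 7 + 4752 * ζ ^ 2 * u ^ 8 * v ^ 7 - 864 * ζ ^ 3 * u ^ 8 * v ^ 7
      - 864 * ζ ^ 4 * u ^ 8 * v ^ 7 + 216 * ζ ^ 5 * u ^ 8 * v ^ 7 + 216 * ζ ^ 6 * u ^ 8 * v ^ 7
      + 216 * ζ ^ 7 * u ^ 8 * v ^ 7 + 540 * ζ ^ 4 * u ^ 9 * v ^ 6 + 540 * ζ ^ 5 * u ^ 9 * v ^ 6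
      - 297 * u ^ 10 * v ^ 5 - 297 * ζ * u ^ 10 * v ^ 5 + 2178 * ζ ^ 2 * u ^ 10 * v ^ 5
      - 3762 * ζ ^ 3 * u ^ 10 * v ^ 5 + 2178 * ζ ^ 4 * u ^ 10 * v ^ 5
      - 27 * ζ ^ 5 * u ^ 10 * v ^ 5 - 27 * ζ ^ 6 * u ^ 10 * v ^ 5 + 18 * ζ ^ 7 * u ^ 10 * v ^ 5
      + 18 * ζ ^ 8 * u ^ 10 * v ^ 5 + 18 * ζ ^ 9 * u ^ 10 * v ^ 5 + 774 * u ^ 11 * v ^ 4
      - 1116 * ζ * u ^ 11 * v ^ 4 + 774 * ζ ^ 2 * u ^ 11 * v ^ 4 - 216 * ζ ^ 3 * u ^ 11 * v ^ 4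
      - 216 * ζ ^ 4 * u ^ 11 * v ^ 4 + 774 * ζ ^ 5 * u ^ 11 * v ^ 4 - 900 * ζ ^ 6 * u ^ 11 * v ^ 4
      + 990 * ζ ^ 7 * u ^ 11 * v ^ 4 + 558 * u ^ 12 * v ^ 3 - 342 * ζ * u ^ 12 * v ^ 3
      - 342 * ζ ^ 2 * u ^ 12 * v ^ 3 + 558 * ζ ^ 3 * u ^ 12 * v ^ 3 - 432 * ζ ^ 4 * u ^ 12 * v ^ 3
      + 558 * ζ ^ 5 * u ^ 12 * v ^ 3 - 342 * ζ ^ 6 * u ^ 12 * v ^ 3 - 450 * ζ ^ 7 * u ^ 12 * v ^ 3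
      + 450 * ζ ^ 8 * u ^ 12 * v ^ 3 + 342 * u ^ 13 * v ^ 2 - 558 * ζ * u ^ 13 * v ^ 2
      + 432 * ζ ^ 2 * u ^ 13 * v ^ 2 - 558 * ζ ^ 3 * u ^ 13 * v ^ 2 + 342 * ζ ^ 4 * u ^ 13 * v ^ 2
      + 342 * ζ ^ 5 * u ^ 13 * v ^ 2 - 558 * ζ ^ 6 * u ^ 13 * v ^ 2 + 432 * ζ ^ 7 * u ^ 13 * v ^ 2
      - 450 * ζ ^ 8 * u ^ 13 * v ^ 2 + 450 * ζ ^ 9 * u ^ 13 * v ^ 2 - 9 * u ^ 15 - 9 * ζ * u ^ 15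
      + 36 * ζ ^ 2 * u ^ 15 - 54 * ζ ^ 3 * u ^ 15 + 36 * ζ ^ 4 * u ^ 15 - 9 * ζ ^ 5 * u ^ 15
      - 9 * ζ ^ 6 * u ^ 15 + 36 * ζ ^ 7 * u ^ 15 - 54 * ζ ^ 8 * u ^ 15 + 36 * ζ ^ 9 * u ^ 15) * hζ

theorem S_key3 (ζ : R) (hζ : 1 + ζ + ζ ^ 2 + ζ ^ 3 + ζ ^ 4 = 0) (u v : R) :
    5 * xS0 ζ (u ^ 5) (v ^ 5) - lS0 ζ u v ^ 2 + 25 * (xQ (ζ * u) v + xQ u v) = 0 := by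
  simp only [xS0, lS0, xQ]
  linear_combination
    (-216 * v ^ 10 - 108 * ζ * v ^ 10 - 36 * ζ ^ 2 * v ^ 10 + 360 * u * v ^ 9
      + 360 * u ^ 2 * v ^ 8 + 360 * ζ * u ^ 2 * v ^ 8 + 360 * u ^ 3 * v ^ 7
      + 360 * ζ * u ^ 3 * v ^ 7 + 360 * ζ ^ 2 * u ^ 3 * v ^ 7 + 1800 * u ^ 4 * v ^ 6
      - 594 * u ^ 5 * v ^ 5 + 378 * ζ * u ^ 5 * v ^ 5 - 144 * ζ ^ 2 * u ^ 5 * v ^ 5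
      + 720 * u ^ 6 * v ^ 4 - 900 * ζ * u ^ 6 * v ^ 4 + 900 * ζ ^ 2 * u ^ 6 * v ^ 4
      - 1080 * u ^ 7 * v ^ 3 + 720 * ζ * u ^ 7 * v ^ 3 + 900 * ζ ^ 2 * u ^ 7 * v ^ 3
      - 900 * ζ ^ 3 * u ^ 7 * v ^ 3 + 720 * u ^ 8 * v ^ 2 - 1080 * ζ * u ^ 8 * v ^ 2
      + 720 * ζ ^ 2 * u ^ 8 * v ^ 2 - 900 * ζ ^ 3 * u ^ 8 * v ^ 2 + 900 * ζ ^ 4 * u ^ 8 * v ^ 2
      - 399 * u ^ 10 + 363 * ζ * u ^ 10 - 144 * ζ ^ 2 * u ^ 10 - 75 * ζ ^ 5 * u ^ 10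
      + 75 * ζ ^ 6 * u ^ 10) * hζ

theorem S_key4 (ζ : R) (hζ : 1 + ζ + ζ ^ 2 + ζ ^ 3 + ζ ^ 4 = 0) (u v : R) :
    5 * yS0 ζ (u ^ 5) (v ^ 5) + 25 * yQ (ζ * u) v + lS0 ζ u v * xS0 ζ (u ^ 5) (v ^ 5)
      - 5 * lS0 ζ u v * xQ (ζ * u) v = 0 := by
  simp only [xS0, yS0, lS0, xQ, yQ]
  linear_combination
    (-432 * v ^ 15 - 432 * ζ * v ^ 15 - 216 * ζ ^ 2 * v ^ 15 + 2160 * u * v ^ 14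
      + 2160 * u ^ 2 * v ^ 13 + 3240 * ζ * u ^ 2 * v ^ 13 + 2160 * u ^ 3 * v ^ 12
      + 3240 * ζ * u ^ 3 * v ^ 12 + 4320 * ζ ^ 2 * u ^ 3 * v ^ 12 + 5400 * ζ * u ^ 4 * v ^ 11
      + 5400 * ζ ^ 2 * u ^ 4 * v ^ 11 + 5400 * ζ ^ 3 * u ^ 4 * v ^ 11 + 14418 * u ^ 5 * v ^ 10
      + 14418 * ζ * u ^ 5 * v ^ 10 + 4644 * ζ ^ 2 * u ^ 5 * v ^ 10 + 2700 * ζ ^ 3 * u ^ 5 * v ^ 10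
      + 2700 * ζ ^ 4 * u ^ 5 * v ^ 10 + 5940 * u ^ 6 * v ^ 9 - 11340 * ζ * u ^ 6 * v ^ 9
      + 18360 * ζ ^ 2 * u ^ 6 * v ^ 9 + 2160 * ζ ^ 3 * u ^ 6 * v ^ 9
      + 2160 * ζ ^ 4 * u ^ 6 * v ^ 9 + 2160 * ζ ^ 5 * u ^ 6 * v ^ 9 + 5940 * u ^ 7 * v ^ 8
      - 5940 * ζ * u ^ 7 * v ^ 8 + 7020 * ζ ^ 2 * u ^ 7 * v ^ 8 + 7020 * ζ ^ 3 * u ^ 7 * v ^ 8
      - 1080 * ζ ^ 4 * u ^ 7 * v ^ 8 - 1080 * ζ ^ 5 * u ^ 7 * v ^ 8 - 1080 * ζ ^ 6 * u ^ 7 * v ^ 8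
      + 5940 * u ^ 8 * v ^ 7 - 5940 * ζ * u ^ 8 * v ^ 7 + 11880 * ζ ^ 2 * u ^ 8 * v ^ 7
      - 4320 * ζ ^ 3 * u ^ 8 * v ^ 7 - 4320 * ζ ^ 4 * u ^ 8 * v ^ 7 + 1080 * ζ ^ 5 * u ^ 8 * v ^ 7
      + 1080 * ζ ^ 6 * u ^ 8 * v ^ 7 + 1080 * ζ ^ 7 * u ^ 8 * v ^ 7 + 2700 * ζ ^ 4 * u ^ 9 * v ^ 6
      + 2700 * ζ ^ 5 * u ^ 9 * v ^ 6 - 3429 * u ^ 10 * v ^ 5 - 3429 * ζ * u ^ 10 * v ^ 5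
      + 15858 * ζ ^ 2 * u ^ 10 * v ^ 5 - 18810 * ζ ^ 3 * u ^ 10 * v ^ 5
      + 10890 * ζ ^ 4 * u ^ 10 * v ^ 5 - 135 * ζ ^ 5 * u ^ 10 * v ^ 5
      - 135 * ζ ^ 6 * u ^ 10 * v ^ 5 + 90 * ζ ^ 7 * u ^ 10 * v ^ 5 + 90 * ζ ^ 8 * u ^ 10 * v ^ 5
      + 90 * ζ ^ 9 * u ^ 10 * v ^ 5 + 2790 * u ^ 11 * v ^ 4 - 5580 * ζ * u ^ 11 * v ^ 4
      + 3870 * ζ ^ 2 * u ^ 11 * v ^ 4 - 1080 * ζ ^ 3 * u ^ 11 * v ^ 4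
      - 1080 * ζ ^ 4 * u ^ 11 * v ^ 4 + 3870 * ζ ^ 5 * u ^ 11 * v ^ 4
      - 4500 * ζ ^ 6 * u ^ 11 * v ^ 4 + 4950 * ζ ^ 7 * u ^ 11 * v ^ 4 + 2790 * u ^ 12 * v ^ 3
      - 2790 * ζ * u ^ 12 * v ^ 3 - 1710 * ζ ^ 2 * u ^ 12 * v ^ 3 + 2790 * ζ ^ 3 * u ^ 12 * v ^ 3
      - 2160 * ζ ^ 4 * u ^ 12 * v ^ 3 + 2790 * ζ ^ 5 * u ^ 12 * v ^ 3
      - 1710 * ζ ^ 6 * u ^ 12 * v ^ 3 - 2250 * ζ ^ 7 * u ^ 12 * v ^ 3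
      + 2250 * ζ ^ 8 * u ^ 12 * v ^ 3 + 2790 * u ^ 13 * v ^ 2 - 2790 * ζ * u ^ 13 * v ^ 2
      + 1080 * ζ ^ 2 * u ^ 13 * v ^ 2 - 2790 * ζ ^ 3 * u ^ 13 * v ^ 2
      + 1710 * ζ ^ 4 * u ^ 13 * v ^ 2 + 1710 * ζ ^ 5 * u ^ 13 * v ^ 2
      - 2790 * ζ ^ 6 * u ^ 13 * v ^ 2 + 2160 * ζ ^ 7 * u ^ 13 * v ^ 2
      - 2250 * ζ ^ 8 * u ^ 13 * v ^ 2 + 2250 * ζ ^ 9 * u ^ 13 * v ^ 2 - 261 * u ^ 15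
      - 261 * ζ * u ^ 15 + 612 * ζ ^ 2 * u ^ 15 - 270 * ζ ^ 3 * u ^ 15 + 180 * ζ ^ 4 * u ^ 15
      - 45 * ζ ^ 5 * u ^ 15 - 45 * ζ ^ 6 * u ^ 15 + 180 * ζ ^ 7 * u ^ 15 - 270 * ζ ^ 8 * u ^ 15
      + 180 * ζ ^ 9 * u ^ 15) * hζ

/-- the cofactor of `x(Q(ζu,v)) - x(Q(u,v))` in `180 f²`. -/
def gS (ζ u v : R) : R :=
  -4 * u * v ^ 13 - 3 * ζ * u * v ^ 13 - 2 * ζ ^ 2 * u * v ^ 13 - ζ ^ 3 * u * v ^ 13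
    + 6 * u ^ 2 * v ^ 12 + 12 * ζ * u ^ 2 * v ^ 12 + 8 * ζ ^ 2 * u ^ 2 * v ^ 12
    + 4 * ζ ^ 3 * u ^ 2 * v ^ 12 + 2 * u ^ 3 * v ^ 11 - 16 * ζ * u ^ 3 * v ^ 11
    - 14 * ζ ^ 2 * u ^ 3 * v ^ 11 - 7 * ζ ^ 3 * u ^ 3 * v ^ 11 - 7 * u ^ 4 * v ^ 10
    + 6 * ζ * u ^ 4 * v ^ 10 + 19 * ζ ^ 2 * u ^ 4 * v ^ 10 + 12 * ζ ^ 3 * u ^ 4 * v ^ 10
    + 20 * u ^ 5 * v ^ 9 + 15 * ζ * u ^ 5 * v ^ 9 - 15 * ζ ^ 2 * u ^ 5 * v ^ 9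
    - 20 * ζ ^ 3 * u ^ 5 * v ^ 9 + 4 * u ^ 6 * v ^ 8 - 22 * ζ * u ^ 6 * v ^ 8
    + 2 * ζ ^ 2 * u ^ 6 * v ^ 8 + 26 * ζ ^ 3 * u ^ 6 * v ^ 8 - 11 * u ^ 7 * v ^ 7
    - 22 * ζ * u ^ 7 * v ^ 7 + 2 * ζ ^ 2 * u ^ 7 * v ^ 7 - 24 * ζ ^ 3 * u ^ 7 * v ^ 7
    - 57 * u ^ 8 * v ^ 6 + 31 * ζ * u ^ 8 * v ^ 6 - 26 * ζ ^ 2 * u ^ 8 * v ^ 6
    - 13 * ζ ^ 3 * u ^ 8 * v ^ 6 + 22 * u ^ 9 * v ^ 5 + 24 * ζ * u ^ 9 * v ^ 5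
    + 26 * ζ ^ 2 * u ^ 9 * v ^ 5 + 48 * ζ ^ 3 * u ^ 9 * v ^ 5 + 15 * u ^ 10 * v ^ 4
    - 20 * ζ * u ^ 10 * v ^ 4 + 20 * ζ ^ 2 * u ^ 10 * v ^ 4 - 15 * ζ ^ 3 * u ^ 10 * v ^ 4
    - 26 * u ^ 11 * v ^ 3 - 7 * ζ * u ^ 11 * v ^ 3 - 13 * ζ ^ 2 * u ^ 11 * v ^ 3
    - 19 * ζ ^ 3 * u ^ 11 * v ^ 3 + 4 * u ^ 12 * v ^ 2 + 8 * ζ * u ^ 12 * v ^ 2
    - 3 * ζ ^ 2 * u ^ 12 * v ^ 2 + 11 * ζ ^ 3 * u ^ 12 * v ^ 2 + 3 * u ^ 13 * v + ζ * u ^ 13 * v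
    + 4 * ζ ^ 2 * u ^ 13 * v + 2 * ζ ^ 3 * u ^ 13 * v - 3 * u ^ 14 - ζ * u ^ 14 + ζ ^ 2 * u ^ 14
    - 2 * ζ ^ 3 * u ^ 14

theorem S_key5 (ζ : R) (hζ : 1 + ζ + ζ ^ 2 + ζ ^ 3 + ζ ^ 4 = 0) (u v : R) :
    (xQ (ζ * u) v - xQ u v) * gS ζ u v = 180 * fF u v ^ 2 := by
  simp only [gS, xQ, fF, iF]
  linear_combination
    (-36 * u ^ 2 * v ^ 22 + 72 * u ^ 3 * v ^ 21 - 72 * ζ * u ^ 3 * v ^ 21 - 72 * u ^ 4 * v ^ 20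
      + 180 * ζ * u ^ 4 * v ^ 20 - 108 * ζ ^ 2 * u ^ 4 * v ^ 20 + 180 * u ^ 5 * v ^ 19
      - 252 * ζ * u ^ 5 * v ^ 19 + 252 * ζ ^ 2 * u ^ 5 * v ^ 19 - 180 * ζ ^ 3 * u ^ 5 * v ^ 19
      - 1152 * u ^ 6 * v ^ 18 + 738 * ζ * u ^ 6 * v ^ 18 - 126 * ζ ^ 2 * u ^ 6 * v ^ 18
      + 630 * ζ ^ 3 * u ^ 6 * v ^ 18 - 90 * ζ ^ 4 * u ^ 6 * v ^ 18 + 2520 * u ^ 7 * v ^ 17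
      - 1296 * ζ * u ^ 7 * v ^ 17 + 324 * ζ ^ 2 * u ^ 7 * v ^ 17 - 972 * ζ ^ 3 * u ^ 7 * v ^ 17
      + 288 * ζ ^ 4 * u ^ 7 * v ^ 17 - 72 * ζ ^ 5 * u ^ 7 * v ^ 17 - 1548 * u ^ 8 * v ^ 16
      + 1296 * ζ * u ^ 8 * v ^ 16 - 1656 * ζ ^ 2 * u ^ 8 * v ^ 16 + 1854 * ζ ^ 3 * u ^ 8 * v ^ 16
      - 306 * ζ ^ 4 * u ^ 8 * v ^ 16 + 324 * ζ ^ 5 * u ^ 8 * v ^ 16 + 36 * ζ ^ 6 * u ^ 8 * v ^ 16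
      - 342 * u ^ 9 * v ^ 15 - 414 * ζ * u ^ 9 * v ^ 15 + 4014 * ζ ^ 2 * u ^ 9 * v ^ 15
      - 2754 * ζ ^ 3 * u ^ 9 * v ^ 15 + 396 * ζ ^ 4 * u ^ 9 * v ^ 15
      - 684 * ζ ^ 5 * u ^ 9 * v ^ 15 - 180 * ζ ^ 6 * u ^ 9 * v ^ 15 - 36 * ζ ^ 7 * u ^ 9 * v ^ 15
      + 2340 * u ^ 10 * v ^ 14 - 1098 * ζ * u ^ 10 * v ^ 14 - 4932 * ζ ^ 2 * u ^ 10 * v ^ 14
      + 3330 * ζ ^ 3 * u ^ 10 * v ^ 14 - 1440 * ζ ^ 4 * u ^ 10 * v ^ 14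
      + 1260 * ζ ^ 5 * u ^ 10 * v ^ 14 + 396 * ζ ^ 6 * u ^ 10 * v ^ 14
      + 144 * ζ ^ 7 * u ^ 10 * v ^ 14 + 3900 * u ^ 11 * v ^ 13 - 2055 * ζ * u ^ 11 * v ^ 13
      + 969 * ζ ^ 2 * u ^ 11 * v ^ 13 - 3927 * ζ ^ 3 * u ^ 11 * v ^ 13
      + 3813 * ζ ^ 4 * u ^ 11 * v ^ 13 - 1752 * ζ ^ 5 * u ^ 11 * v ^ 13
      - 687 * ζ ^ 6 * u ^ 11 * v ^ 13 - 255 * ζ ^ 7 * u ^ 11 * v ^ 13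
      - 3 * ζ ^ 8 * u ^ 11 * v ^ 13 - 3 * ζ ^ 9 * u ^ 11 * v ^ 13 - 12024 * u ^ 12 * v ^ 12
      + 8460 * ζ * u ^ 12 * v ^ 12 + 3720 * ζ ^ 2 * u ^ 12 * v ^ 12
      - 1644 * ζ ^ 3 * u ^ 12 * v ^ 12 - 5424 * ζ ^ 4 * u ^ 12 * v ^ 12
      + 1206 * ζ ^ 5 * u ^ 12 * v ^ 12 + 954 * ζ ^ 6 * u ^ 12 * v ^ 12
      + 444 * ζ ^ 7 * u ^ 12 * v ^ 12 + 12 * ζ ^ 8 * u ^ 12 * v ^ 12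
      + 12 * ζ ^ 9 * u ^ 12 * v ^ 12 + 1488 * u ^ 13 * v ^ 11 - 5778 * ζ * u ^ 13 * v ^ 11
      - 240 * ζ ^ 2 * u ^ 13 * v ^ 11 + 4065 * ζ ^ 3 * u ^ 13 * v ^ 11
      + 1725 * ζ ^ 4 * u ^ 13 * v ^ 11 + 210 * ζ ^ 5 * u ^ 13 * v ^ 11
      - 702 * ζ ^ 6 * u ^ 13 * v ^ 11 - 726 * ζ ^ 7 * u ^ 13 * v ^ 11
      - 21 * ζ ^ 8 * u ^ 13 * v ^ 11 - 21 * ζ ^ 9 * u ^ 13 * v ^ 11 + 1317 * u ^ 14 * v ^ 10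
      - 1875 * ζ * u ^ 14 * v ^ 10 - 1767 * ζ ^ 2 * u ^ 14 * v ^ 10
      - 1095 * ζ ^ 3 * u ^ 14 * v ^ 10 + 5220 * ζ ^ 4 * u ^ 14 * v ^ 10
      - 2715 * ζ ^ 5 * u ^ 14 * v ^ 10 - 39 * ζ ^ 6 * u ^ 14 * v ^ 10
      + 897 * ζ ^ 7 * u ^ 14 * v ^ 10 + 21 * ζ ^ 8 * u ^ 14 * v ^ 10
      + 36 * ζ ^ 9 * u ^ 14 * v ^ 10 - 510 * u ^ 15 * v ^ 9 + 2697 * ζ * u ^ 15 * v ^ 9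
      - 4302 * ζ ^ 2 * u ^ 15 * v ^ 9 + 3165 * ζ ^ 3 * u ^ 15 * v ^ 9
      - 4650 * ζ ^ 4 * u ^ 15 * v ^ 9 + 3000 * ζ ^ 5 * u ^ 15 * v ^ 9
      + 1419 * ζ ^ 6 * u ^ 15 * v ^ 9 - 774 * ζ ^ 7 * u ^ 15 * v ^ 9 + 15 * ζ ^ 8 * u ^ 15 * v ^ 9
      - 60 * ζ ^ 9 * u ^ 15 * v ^ 9 + 3264 * u ^ 16 * v ^ 8 - 2856 * ζ * u ^ 16 * v ^ 8
      + 1008 * ζ ^ 2 * u ^ 16 * v ^ 8 + 1692 * ζ ^ 3 * u ^ 16 * v ^ 8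
      - 2208 * ζ ^ 4 * u ^ 16 * v ^ 8 + 1752 * ζ ^ 5 * u ^ 16 * v ^ 8
      - 2118 * ζ ^ 6 * u ^ 16 * v ^ 8 - 540 * ζ ^ 7 * u ^ 16 * v ^ 8 - 72 * ζ ^ 8 * u ^ 16 * v ^ 8
      + 78 * ζ ^ 9 * u ^ 16 * v ^ 8 - 2883 * u ^ 17 * v ^ 7 + 1077 * ζ * u ^ 17 * v ^ 7
      + 1962 * ζ ^ 2 * u ^ 17 * v ^ 7 - 2442 * ζ ^ 3 * u ^ 17 * v ^ 7
      + 2718 * ζ ^ 4 * u ^ 17 * v ^ 7 - 2667 * ζ ^ 5 * u ^ 17 * v ^ 7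
      - 219 * ζ ^ 6 * u ^ 17 * v ^ 7 + 1656 * ζ ^ 7 * u ^ 17 * v ^ 7 + 78 * ζ ^ 8 * u ^ 17 * v ^ 7
      - 72 * ζ ^ 9 * u ^ 17 * v ^ 7 - 1323 * u ^ 18 * v ^ 6 + 1212 * ζ * u ^ 18 * v ^ 6
      - 1323 * ζ ^ 2 * u ^ 18 * v ^ 6 + 717 * ζ ^ 3 * u ^ 18 * v ^ 6
      + 177 * ζ ^ 4 * u ^ 18 * v ^ 6 - 693 * ζ ^ 5 * u ^ 18 * v ^ 6
      + 1680 * ζ ^ 6 * u ^ 18 * v ^ 6 - 369 * ζ ^ 7 * u ^ 18 * v ^ 6 - 39 * ζ ^ 8 * u ^ 18 * v ^ 6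
      - 39 * ζ ^ 9 * u ^ 18 * v ^ 6 + 1068 * u ^ 19 * v ^ 5 - 582 * ζ * u ^ 19 * v ^ 5
      - 582 * ζ ^ 2 * u ^ 19 * v ^ 5 + 1068 * ζ ^ 3 * u ^ 19 * v ^ 5
      - 972 * ζ ^ 4 * u ^ 19 * v ^ 5 + 798 * ζ ^ 5 * u ^ 19 * v ^ 5 - 186 * ζ ^ 6 * u ^ 19 * v ^ 5
      - 690 * ζ ^ 7 * u ^ 19 * v ^ 5 - 66 * ζ ^ 8 * u ^ 19 * v ^ 5 + 144 * ζ ^ 9 * u ^ 19 * v ^ 5
      + 135 * u ^ 20 * v ^ 4 - 255 * ζ * u ^ 20 * v ^ 4 + 240 * ζ ^ 2 * u ^ 20 * v ^ 4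
      - 255 * ζ ^ 3 * u ^ 20 * v ^ 4 + 135 * ζ ^ 4 * u ^ 20 * v ^ 4 + 135 * ζ ^ 5 * u ^ 20 * v ^ 4
      - 471 * ζ ^ 6 * u ^ 20 * v ^ 4 + 276 * ζ ^ 7 * u ^ 20 * v ^ 4 + 105 * ζ ^ 8 * u ^ 20 * v ^ 4
      - 45 * ζ ^ 9 * u ^ 20 * v ^ 4 - 138 * u ^ 21 * v ^ 3 + 87 * ζ * u ^ 21 * v ^ 3
      - 18 * ζ ^ 2 * u ^ 21 * v ^ 3 - 18 * ζ ^ 3 * u ^ 21 * v ^ 3 + 87 * ζ ^ 4 * u ^ 21 * v ^ 3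
      - 138 * ζ ^ 5 * u ^ 21 * v ^ 3 + 87 * ζ ^ 6 * u ^ 21 * v ^ 3 + 90 * ζ ^ 7 * u ^ 21 * v ^ 3
      + 18 * ζ ^ 8 * u ^ 21 * v ^ 3 - 57 * ζ ^ 9 * u ^ 21 * v ^ 3 - 84 * u ^ 22 * v ^ 2
      + 96 * ζ * u ^ 22 * v ^ 2 - 39 * ζ ^ 2 * u ^ 22 * v ^ 2 + 66 * ζ ^ 3 * u ^ 22 * v ^ 2
      - 39 * ζ ^ 4 * u ^ 22 * v ^ 2 - 84 * ζ ^ 5 * u ^ 22 * v ^ 2 + 96 * ζ ^ 6 * u ^ 22 * v ^ 2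
      - 39 * ζ ^ 7 * u ^ 22 * v ^ 2 - 42 * ζ ^ 8 * u ^ 22 * v ^ 2 + 33 * ζ ^ 9 * u ^ 22 * v ^ 2
      - 9 * u ^ 23 * v + 6 * ζ * u ^ 23 * v - 9 * ζ ^ 2 * u ^ 23 * v + 6 * ζ ^ 3 * u ^ 23 * v
      + 6 * ζ ^ 4 * u ^ 23 * v - 9 * ζ ^ 5 * u ^ 23 * v + 6 * ζ ^ 6 * u ^ 23 * v
      - 9 * ζ ^ 7 * u ^ 23 * v + 6 * ζ ^ 8 * u ^ 23 * v + 6 * ζ ^ 9 * u ^ 23 * v + 9 * u ^ 24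
      - 6 * ζ * u ^ 24 - 6 * ζ ^ 2 * u ^ 24 + 9 * ζ ^ 3 * u ^ 24 - 6 * ζ ^ 4 * u ^ 24
      + 9 * ζ ^ 5 * u ^ 24 - 6 * ζ ^ 6 * u ^ 24 - 6 * ζ ^ 7 * u ^ 24 + 9 * ζ ^ 8 * u ^ 24
      - 6 * ζ ^ 9 * u ^ 24) * hζ

/-! ### the point `S_ζ`; `e = 1/5`, `ζ` a primitive 5-th root of unity -/

section zeta

variable (e ζ : R) (he : 5 * e = 1) (hζ : 1 + ζ + ζ ^ 2 + ζ ^ 3 + ζ ^ 4 = 0)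

include he hζ

theorem S_on (p r : R) :
    yS e ζ p r ^ 2 = xS e ζ p r ^ 3 - 27 * i4 p r * xS e ζ p r - 54 * i6 p r := by
  have h1 := S_key1 ζ hζ p r
  rw [xS_eq, yS_eq]
  generalize xS0 ζ p r = X at *
  generalize yS0 ζ p r = Y at *
  generalize i4 p r = a at *
  generalize i6 p r = b at *
  linear_combination (-e ^ 3) * h1
    + (-e ^ 2 * Y ^ 2 - 27 * a * e * X * (1 + 5 * e) - 54 * b * (1 + 5 * e + 25 * e ^ 2)) * he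

/-- chord through `Q(ζu,v)` and `-Q(u,v)`. -/
theorem S_slope (u v : R) :
    yQ (ζ * u) v + yQ u v = lS e ζ u v * (xQ (ζ * u) v - xQ u v) := by
  have h2 := S_key2 ζ hζ u v
  rw [lS_eq]
  linear_combination e * h2 - (yQ (ζ * u) v + yQ u v) * he

theorem S_add_x (u v : R) :
    xS e ζ (u ^ 5) (v ^ 5) = lS e ζ u v ^ 2 - xQ (ζ * u) v - xQ u v := by
  have h3 := S_key3 ζ hζ u v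
  rw [xS_eq, lS_eq]
  linear_combination e ^ 2 * h3
    - (e * xS0 ζ (u ^ 5) (v ^ 5) + (xQ (ζ * u) v + xQ u v) * (5 * e + 1)) * he

theorem S_add_y (u v : R) :
    yS e ζ (u ^ 5) (v ^ 5)
      = -(yQ (ζ * u) v + lS e ζ u v * (xS e ζ (u ^ 5) (v ^ 5) - xQ (ζ * u) v)) := by
  have h4 := S_key4 ζ hζ u v
  rw [xS_eq, yS_eq, lS_eq]
  linear_combination e ^ 2 * h4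
    - (e * yS0 ζ (u ^ 5) (v ^ 5) + yQ (ζ * u) v * (5 * e + 1)
        - e * lS0 ζ u v * xQ (ζ * u) v) * he

omit he in
/-- `x(Q(ζu,v)) ≠ x(Q(u,v))`: the difference divides `180 f²`. -/
theorem S_cofactor (u v : R) : ∃ G : R, (xQ (ζ * u) v - xQ u v) * G = 180 * fF u v ^ 2 :=
  ⟨gS ζ u v, S_key5 ζ hζ u v⟩

end zeta

end Fermat.Agent.S52
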