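import Fermat.Agent.S52.TorsIds
import Fermat.Agent.S52.Flow
import Fermat.Agent.S52.Card5

/-!
# S52 block (B2): the structure of `E[5]` for `E : y² = x³ - 27 i4(u⁵,v⁵) x - 54 i6(u⁵,v⁵)`
-/

set_option autoImplicit false
set_option linter.unusedSectionVars false

namespace Fermat.Agent.S52

open Fermat.Agent.Lib.Hasse WeierstrassCurve.Affine



section GroupLaw

variable {K : Type*} [Field K] [DecidableEq K] {A B : K}

/-- `P` is the affine point `(x, y)`. -/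
def TorsIs (P : Pt A B) (x y : K) : Prop := ∃ h, P = .some x y h

theorem torsStruct_equation_iff (x y : K) :
    (sw A B).Equation x y ↔ y ^ 2 = x ^ 3 + A * x + B := by
  rw [equation_iff]
  simp [sw]

theorem torsStruct_negY (x y : K) : (sw A B).negY x y = -y := by
  simp [negY, sw]

theorem TorsIs.ne_zero {P : Pt A B} {x y : K} (h : TorsIs P x y) : P ≠ 0 := by
  obtain ⟨h, rfl⟩ := h
  exact Point.some_ne_zero h

theorem TorsIs.ext {P P' : Pt A B} {x y : K} (h : TorsIs P x y) (h' : TorsIs P' x y) : P = P' := by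
  obtain ⟨h, rfl⟩ := h
  obtain ⟨h', rfl⟩ := h'
  rfl

theorem TorsIs.congr {P : Pt A B} {x y x' y' : K} (h : TorsIs P x y) (hx : x = x') (hy : y = y') :
    TorsIs P x' y' := by
  subst hx hy
  exact h

theorem TorsIs.neg {P : Pt A B} {x y : K} (h : TorsIs P x y) : TorsIs (-P) x (-y) := by
  obtain ⟨h, rfl⟩ := h
  rw [Point.neg_some]
  have : (sw A B).negY x y = -y := torsStruct_negY x y
  exact TorsIs.congr ⟨_, rfl⟩ rfl this

theorem TorsIs.add {P₁ P₂ : Pt A B} {x₁ y₁ x₂ y₂ l : K} (h₁ : TorsIs P₁ x₁ y₁)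
    (h₂ : TorsIs P₂ x₂ y₂) (hx : x₁ ≠ x₂) (hl : y₁ - y₂ = l * (x₁ - x₂)) :
    TorsIs (P₁ + P₂) (l ^ 2 - x₁ - x₂) (-(y₁ + l * (l ^ 2 - x₁ - x₂ - x₁))) := by
  obtain ⟨h₁, rfl⟩ := h₁
  obtain ⟨h₂, rfl⟩ := h₂
  have hxy : ¬(x₁ = x₂ ∧ y₁ = (sw A B).negY x₂ y₂) := fun h => hx h.1
  rw [Point.add_some hxy]
  have hsl : (sw A B).slope x₁ x₂ y₁ y₂ = l := by
    rw [slope_of_X_ne hx, hl]
    have : x₁ - x₂ ≠ 0 := sub_ne_zero.2 hx
    field_simp
  have hX : (sw A B).addX x₁ x₂ ((sw A B).slope x₁ x₂ y₁ y₂) = l ^ 2 - x₁ - x₂ := by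
    rw [hsl]
    simp only [addX, sw]
    ring
  refine TorsIs.congr ⟨_, rfl⟩ hX ?_
  rw [addY, negAddY, hX, torsStruct_negY, hsl]
  ring

theorem TorsIs.dbl (h2 : (2 : K) ≠ 0) {P : Pt A B} {x y l : K} (h : TorsIs P x y) (hy : y ≠ 0)
    (hl : 2 * y * l = 3 * x ^ 2 + A) :
    TorsIs (P + P) (l ^ 2 - 2 * x) (-(y + l * (l ^ 2 - 2 * x - x))) := by
  obtain ⟨h, rfl⟩ := h
  have hY : y ≠ (sw A B).negY x y := by
    rw [torsStruct_negY]
    intro h'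
    have : 2 * y = 0 := by linear_combination h'
    exact (mul_ne_zero h2 hy) this
  have hxy : ¬(x = x ∧ y = (sw A B).negY x y) := fun h => hY h.2
  rw [Point.add_some hxy]
  have hsl : (sw A B).slope x x y y = l := by
    rw [slope_of_Y_ne rfl hY, torsStruct_negY]
    simp only [sw]
    have h2y : y - -y ≠ 0 := by
      intro h'
      have : 2 * y = 0 := by linear_combination h'
      exact (mul_ne_zero h2 hy) this
    rw [div_eq_iff h2y]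
    linear_combination -hl
  have hX : (sw A B).addX x x ((sw A B).slope x x y y) = l ^ 2 - 2 * x := by
    rw [hsl]
    simp only [addX, sw]
    ring
  refine TorsIs.congr ⟨_, rfl⟩ hX ?_
  rw [addY, negAddY, hX, torsStruct_negY, hsl]
  ring

theorem torsStruct_exists (hΔ : (sw A B).Δ ≠ 0) {x y : K} (h : y ^ 2 = x ^ 3 + A * x + B) :
    ∃ P : Pt A B, TorsIs P x y :=
  ⟨.some x y ((equation_iff_nonsingular_of_Δ_ne_zero hΔ).mp ((torsStruct_equation_iff x y).2 h)), _, rfl⟩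

end GroupLaw



section Zeta

variable {K : Type*} [Field K] {ζ : K}

theorem torsStruct_zeta_pow_five (hζ : 1 + ζ + ζ ^ 2 + ζ ^ 3 + ζ ^ 4 = 0) : ζ ^ 5 = 1 := by
  linear_combination (ζ - 1) * hζ

theorem torsStruct_zeta_pow (hζ : 1 + ζ + ζ ^ 2 + ζ ^ 3 + ζ ^ 4 = 0) {j : ℕ} (h0 : j ≠ 0)
    (h5 : j < 5) : 1 + ζ ^ j + (ζ ^ j) ^ 2 + (ζ ^ j) ^ 3 + (ζ ^ j) ^ 4 = 0 := by
  interval_cases j
  · exact absurd rfl h0
  · linear_combination hζ
  · linear_combination (ζ ^ 4 - ζ ^ 3 + ζ ^ 2 - ζ + 1) * hζ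
  · linear_combination (ζ ^ 8 - ζ ^ 7 + ζ ^ 5 - ζ ^ 4 + ζ ^ 3 - ζ + 1) * hζ
  · linear_combination (ζ ^ 4 - ζ ^ 3 + ζ ^ 2 - ζ + 1) * (ζ ^ 8 - ζ ^ 6 + ζ ^ 4 - ζ ^ 2 + 1) * hζ

end Zeta

section Main

variable {K : Type*} [Field K] [DecidableEq K]

/-- the local facts about the points `Q(u',v)` for `u'⁵ = u⁵`. -/
theorem torsStruct_local (h30 : (30 : K) ≠ 0)
    (e : K) (he : 5 * e = 1)
    (A B a b u v : K) (hA : A = -27 * a) (hB : B = -54 * b) (hΔ : a ^ 3 - b ^ 2 ≠ 0)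
    (h4 : i4 (u ^ 5) (v ^ 5) = a) (h6 : i6 (u ^ 5) (v ^ 5) = b) :
    ∃ Qp : K → Pt A B, ∃ Sp : K → Pt A B,
      (∀ u', u' ^ 5 = u ^ 5 → TorsIs (Qp u') (xQ u' v) (yQ u' v)) ∧
      (∀ u', u' ^ 5 = u ^ 5 → TorsIs (Qp u' + Qp u') (xR u' v) (yR u' v)) ∧
      (∀ u', u' ^ 5 = u ^ 5 → 5 • Qp u' = 0) ∧
      (∀ ζ', 1 + ζ' + ζ' ^ 2 + ζ' ^ 3 + ζ' ^ 4 = 0 →
        TorsIs (Sp ζ') (xS e ζ' (u ^ 5) (v ^ 5)) (yS e ζ' (u ^ 5) (v ^ 5))) ∧
      (∀ ζ' u', 1 + ζ' + ζ' ^ 2 + ζ' ^ 3 + ζ' ^ 4 = 0 → u' ^ 5 = u ^ 5 →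
        Qp (ζ' * u') = Qp u' + Sp ζ') := by
  classical
  have h2 : (2 : K) ≠ 0 := fun h => h30 (by linear_combination 15 * h)
  have h3 : (3 : K) ≠ 0 := fun h => h30 (by linear_combination 10 * h)
  have h5 : (5 : K) ≠ 0 := fun h => h30 (by linear_combination 6 * h)
  have hΔ' : (sw A B).Δ ≠ 0 := by
    have h1 : (sw A B).Δ = 2 ^ 6 * 3 ^ 9 * (a ^ 3 - b ^ 2) := by
      simp only [sw, WeierstrassCurve.Δ, WeierstrassCurve.b₂, WeierstrassCurve.b₄,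
        WeierstrassCurve.b₆, WeierstrassCurve.b₈, hA, hB]
      ring
    rw [h1]
    exact mul_ne_zero (mul_ne_zero (pow_ne_zero _ h2) (pow_ne_zero _ h3)) hΔ
  have hf : ∀ u', u' ^ 5 = u ^ 5 → fF u' v ≠ 0 := by
    intro u' hu' h0
    apply hΔ
    have h1 := fF_pow_five u' v
    rw [h0, hu'] at h1
    have h2 := i_rel (u ^ 5) (v ^ 5)
    rw [h4, h6, ← h1] at h2
    rw [h2]; ring
  have hQon : ∀ u', u' ^ 5 = u ^ 5 → yQ u' v ^ 2 = xQ u' v ^ 3 + A * xQ u' v + B := by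
    intro u' hu'
    have := Q_on u' v
    rw [hu', h4, h6] at this
    rw [this, hA, hB]; ring
  have hSon : ∀ ζ', 1 + ζ' + ζ' ^ 2 + ζ' ^ 3 + ζ' ^ 4 = 0 →
      yS e ζ' (u ^ 5) (v ^ 5) ^ 2 = xS e ζ' (u ^ 5) (v ^ 5) ^ 3 + A * xS e ζ' (u ^ 5) (v ^ 5) + B := by
    intro ζ' hζ'
    have := S_on e ζ' he hζ' (u ^ 5) (v ^ 5)
    rw [h4, h6] at this
    rw [this, hA, hB]; ring
  let Qp : K → Pt A B := fun u' =>
    if hu' : u' ^ 5 = u ^ 5 then (torsStruct_exists hΔ' (hQon u' hu')).choose else 0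
  let Sp : K → Pt A B := fun ζ' =>
    if hζ' : 1 + ζ' + ζ' ^ 2 + ζ' ^ 3 + ζ' ^ 4 = 0 then
      (torsStruct_exists hΔ' (hSon ζ' hζ')).choose else 0
  have hQp : ∀ u', u' ^ 5 = u ^ 5 → TorsIs (Qp u') (xQ u' v) (yQ u' v) := by
    intro u' hu'
    simp only [Qp, dif_pos hu']
    exact (torsStruct_exists hΔ' (hQon u' hu')).choose_spec
  have hSp : ∀ ζ', 1 + ζ' + ζ' ^ 2 + ζ' ^ 3 + ζ' ^ 4 = 0 →
      TorsIs (Sp ζ') (xS e ζ' (u ^ 5) (v ^ 5)) (yS e ζ' (u ^ 5) (v ^ 5)) := by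
    intro ζ' hζ'
    simp only [Sp, dif_pos hζ']
    exact (torsStruct_exists hΔ' (hSon ζ' hζ')).choose_spec
  have h108 : (108 : K) ≠ 0 := by
    have : (108 : K) = 2 ^ 2 * 3 ^ 3 := by norm_num
    rw [this]
    exact mul_ne_zero (pow_ne_zero _ h2) (pow_ne_zero _ h3)
  have h180 : (180 : K) ≠ 0 := by
    have : (180 : K) = 2 ^ 2 * 3 ^ 2 * 5 := by norm_num
    rw [this]
    exact mul_ne_zero (mul_ne_zero (pow_ne_zero _ h2) (pow_ne_zero _ h3)) h5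
  have hyQ : ∀ u', u' ^ 5 = u ^ 5 → yQ u' v ≠ 0 := by
    intro u' hu' h0
    have := yQ_cofactor u' v
    rw [h0, zero_mul] at this
    exact mul_ne_zero h108 (pow_ne_zero 2 (hf u' hu')) this.symm
  have hyR : ∀ u', u' ^ 5 = u ^ 5 → yR u' v ≠ 0 := by
    intro u' hu' h0
    have := yR_cofactor u' v
    rw [h0, zero_mul] at this
    exact mul_ne_zero h108 (pow_ne_zero 2 (hf u' hu')) this.symm
  have hdbl : ∀ u', u' ^ 5 = u ^ 5 → TorsIs (Qp u' + Qp u') (xR u' v) (yR u' v) := by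
    intro u' hu'
    have hsl : 2 * yQ u' v * lQ u' v = 3 * xQ u' v ^ 2 + A := by
      have := Q_slope u' v
      rw [hu', h4] at this
      rw [this, hA]; ring
    refine ((hQp u' hu').dbl h2 (hyQ u' hu') hsl).congr (Q_dbl_x u' v).symm ?_
    rw [← Q_dbl_x u' v]
    exact (Q_dbl_y u' v).symm
  have hquad : ∀ u', u' ^ 5 = u ^ 5 →
      TorsIs ((Qp u' + Qp u') + (Qp u' + Qp u')) (xQ u' v) (-yQ u' v) := by
    intro u' hu'
    have hsl : 2 * yR u' v * lR u' v = 3 * xR u' v ^ 2 + A := by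
      have := R_slope u' v
      rw [hu', h4] at this
      rw [this, hA]; ring
    refine ((hdbl u' hu').dbl h2 (hyR u' hu') hsl).congr (R_dbl_x u' v).symm ?_
    rw [← R_dbl_x u' v]
    exact (R_dbl_y u' v).symm
  refine ⟨Qp, Sp, hQp, hdbl, ?_, hSp, ?_⟩
  · intro u' hu'
    have h1 : (Qp u' + Qp u') + (Qp u' + Qp u') = -Qp u' := (hquad u' hu').ext (hQp u' hu').neg
    have h2 : 5 • Qp u' = ((Qp u' + Qp u') + (Qp u' + Qp u')) + Qp u' := by abel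
    rw [h2, h1, neg_add_cancel]
  · intro ζ' u' hζ' hu'
    have hζ5 := torsStruct_zeta_pow_five hζ'
    have hu'' : (ζ' * u') ^ 5 = u ^ 5 := by rw [mul_pow, hζ5, one_mul, hu']
    have hx : xQ (ζ' * u') v ≠ xQ u' v := by
      intro h0
      obtain ⟨G, hG⟩ := S_cofactor ζ' hζ' u' v
      rw [h0, sub_self, zero_mul] at hG
      exact mul_ne_zero h180 (pow_ne_zero 2 (hf u' hu')) hG.symm
    have hsl : yQ (ζ' * u') v - -yQ u' v = lS e ζ' u' v * (xQ (ζ' * u') v - xQ u' v) := by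
      rw [sub_neg_eq_add]
      exact S_slope e ζ' he hζ' u' v
    have hadd := (hQp _ hu'').add (hQp u' hu').neg hx hsl
    have hX := S_add_x e ζ' he hζ' u' v
    have hY := S_add_y e ζ' he hζ' u' v
    rw [hu'] at hX hY
    have h1 : Qp (ζ' * u') + -Qp u' = Sp ζ' := by
      refine (hadd.congr hX.symm ?_).ext (hSp ζ' hζ')
      rw [← hX]
      exact hY.symm
    rw [← h1]; abel

end Main


theorem torsStruct_zsmul_mod {G : Type*} [AddCommGroup G] (S : G) (hS : 5 • S = 0) (m : ℤ) :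
    m • S = (m % 5).toNat • S := by
  have h1 : m = (m % 5) + (m / 5) * 5 := by
    have := Int.emod_add_mul_ediv m 5
    linarith
  have h2 : ((m % 5).toNat : ℤ) = m % 5 := Int.toNat_of_nonneg (Int.emod_nonneg _ (by norm_num))
  have h3 : (5 : ℤ) • S = 0 := by
    have : (5 : ℤ) • S = 5 • S := by
      rw [← natCast_zsmul]; rfl
    rw [this, hS]
  conv_lhs => rw [h1]
  rw [add_smul, mul_smul, h3, smul_zero, add_zero, ← natCast_zsmul, h2]

theorem torsStruct_abstract {G : Type*} [AddCommGroup G] (S Q : G) (hS : 5 • S = 0)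
    (hQ : 5 • Q = 0)
    (hne : ∀ m n : ℕ, m < 5 → n < 5 → (m ≠ 0 ∨ n ≠ 0) → m • S + n • Q ≠ 0)
    (hfin : {P : G | 5 • P = 0}.Finite) (hcard : {P : G | 5 • P = 0}.ncard ≤ 25) :
    (∀ m n : ℤ, m • S + n • Q = 0 → (5 : ℤ) ∣ m ∧ (5 : ℤ) ∣ n) ∧
    (∀ P : G, 5 • P = 0 → ∃ m n : ℕ, m < 5 ∧ n < 5 ∧ P = m • S + n • Q) := by
  have hind : ∀ m n : ℤ, m • S + n • Q = 0 → (5 : ℤ) ∣ m ∧ (5 : ℤ) ∣ n := by
    intro m n h
    rw [torsStruct_zsmul_mod S hS m, torsStruct_zsmul_mod Q hQ n] at h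
    have hm0 : 0 ≤ m % 5 := Int.emod_nonneg _ (by norm_num)
    have hn0 : 0 ≤ n % 5 := Int.emod_nonneg _ (by norm_num)
    have hm5 : m % 5 < 5 := Int.emod_lt_of_pos _ (by norm_num)
    have hn5 : n % 5 < 5 := Int.emod_lt_of_pos _ (by norm_num)
    by_contra hcon
    refine hne (m % 5).toNat (n % 5).toNat (by omega) (by omega) ?_ h
    by_contra h'
    apply hcon
    constructor <;> omega
  refine ⟨hind, ?_⟩
  let f : Fin 5 × Fin 5 → G := fun p => (p.1 : ℕ) • S + (p.2 : ℕ) • Q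
  have hf : Function.Injective f := by
    rintro ⟨m, n⟩ ⟨m', n'⟩ h
    simp only [f] at h
    have h1 : ((m : ℕ) - (m' : ℕ) : ℤ) • S + ((n : ℕ) - (n' : ℕ) : ℤ) • Q = 0 := by
      rw [sub_smul, sub_smul, natCast_zsmul, natCast_zsmul, natCast_zsmul, natCast_zsmul]
      have : (m : ℕ) • S - (m' : ℕ) • S + ((n : ℕ) • Q - (n' : ℕ) • Q)
          = ((m : ℕ) • S + (n : ℕ) • Q) - ((m' : ℕ) • S + (n' : ℕ) • Q) := by abel
      rw [this, h, sub_self]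
    obtain ⟨h2, h3⟩ := hind _ _ h1
    have := m.2
    have := m'.2
    have := n.2
    have := n'.2
    ext <;> simp only <;> omega
  have hsub : Set.range f ⊆ {P : G | 5 • P = 0} := by
    rintro _ ⟨⟨m, n⟩, rfl⟩
    simp only [f, Set.mem_ofPred_eq]
    rw [smul_add, smul_comm, hS, smul_comm 5, hQ, smul_zero, smul_zero, add_zero]
  have hc : (Set.range f).ncard = 25 := by
    rw [← Set.image_univ, Set.ncard_image_of_injective _ hf, Set.ncard_univ]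
    simp
  have heq : Set.range f = {P : G | 5 • P = 0} :=
    Set.eq_of_subset_of_ncard_le hsub (by rw [hc]; exact hcard) hfin
  intro P hP
  have : P ∈ Set.range f := by rw [heq]; exact hP
  obtain ⟨⟨m, n⟩, rfl⟩ := this
  exact ⟨m, n, m.2, n.2, rfl⟩



/-- **Structure of the 5-torsion.**  `E : y² = x³ + A x + B`, `A = -27 a`, `B = -54 b`,
`a = i4(u⁵,v⁵)`, `b = i6(u⁵,v⁵)`, `a³ ≠ b²`.  Then `E[5]` is free of rank 2 over `ℤ/5` on
`S = S_ζ(u,v)` and `Q = Q(u,v)`, and `m • S + n • Q` has coordinates `cx, cy`. -/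
theorem tors_struct {K : Type*} [Field K] [DecidableEq K] (h30 : (30 : K) ≠ 0)
    (e ζ : K) (he : 5 * e = 1) (hζ : 1 + ζ + ζ ^ 2 + ζ ^ 3 + ζ ^ 4 = 0)
    (A B a b u v : K) (hA : A = -27 * a) (hB : B = -54 * b) (hΔ : a ^ 3 - b ^ 2 ≠ 0)
    (h4 : i4 (u ^ 5) (v ^ 5) = a) (h6 : i6 (u ^ 5) (v ^ 5) = b) :
    ∃ S Q : Pt A B,
      (∃ h, Q = .some (xQ u v) (yQ u v) h) ∧ 5 • S = 0 ∧ 5 • Q = 0 ∧
      (∀ m n : ℤ, m • S + n • Q = 0 → (5 : ℤ) ∣ m ∧ (5 : ℤ) ∣ n) ∧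
      (∀ m n : ℕ, m < 5 → n < 5 → (m ≠ 0 ∨ n ≠ 0) →
        ∃ h, m • S + n • Q = .some (cx e ζ m n u v) (cy e ζ m n u v) h) ∧
      (∀ P : Pt A B, 5 • P = 0 → ∃ m n : ℕ, m < 5 ∧ n < 5 ∧ P = m • S + n • Q) := by
  have h2 : (2 : K) ≠ 0 := fun h => h30 (by linear_combination 15 * h)
  have h5 : (5 : K) ≠ 0 := fun h => h30 (by linear_combination 6 * h)
  obtain ⟨Qp, Sp, hQp, hdbl, hQ5, hSp, hshift⟩ :=
    torsStruct_local h30 e he A B a b u v hA hB hΔ h4 h6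
  have hζ5 := torsStruct_zeta_pow_five hζ
  have hu : ∀ c : ℕ, (ζ ^ c * u) ^ 5 = u ^ 5 := by
    intro c
    rw [mul_pow, ← pow_mul, mul_comm c 5, pow_mul, hζ5, one_pow, one_mul]
  have hQc : ∀ c : ℕ, Qp (ζ ^ c * u) = Qp u + c • Sp ζ := by
    intro c
    induction c with
    | zero => simp
    | succ c ih =>
      have : ζ ^ (c + 1) * u = ζ * (ζ ^ c * u) := by ring
      rw [this, hshift ζ _ hζ (hu c), ih, succ_nsmul, add_assoc]
  have hS5 : 5 • Sp ζ = 0 := by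
    have h := hQc 5
    rw [hζ5, one_mul] at h
    exact add_eq_left.mp h.symm
  have hQ5' : 5 • Qp u = 0 := hQ5 u rfl
  have hSj : ∀ j : ℕ, j ≠ 0 → j < 5 → j • Sp ζ = Sp (ζ ^ j) := by
    intro j h0 hj
    have h1 := hshift (ζ ^ j) u (torsStruct_zeta_pow hζ h0 hj) rfl
    rw [hQc j] at h1
    exact add_left_cancel h1
  have hcoord : ∀ m n : ℕ, m < 5 → n < 5 → (m ≠ 0 ∨ n ≠ 0) →
      TorsIs (m • Sp ζ + n • Qp u) (cx e ζ m n u v) (cy e ζ m n u v) := by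
    intro m n hm hn hmn
    interval_cases n
    · have hm0 : m ≠ 0 := by simpa using hmn
      rw [zero_smul, add_zero, hSj m hm0 hm]
      exact hSp _ (torsStruct_zeta_pow hζ hm0 hm)
    · have : m • Sp ζ + 1 • Qp u = Qp (ζ ^ m * u) := by rw [hQc, one_smul, add_comm]
      rw [this]
      exact hQp _ (hu m)
    · have key : m • Sp ζ + 2 • Qp u + m • (5 • Sp ζ)
          = (Qp u + (3 * m) • Sp ζ) + (Qp u + (3 * m) • Sp ζ) := by module
      rw [hS5, smul_zero, add_zero, ← hQc] at key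
      rw [key]
      exact hdbl _ (hu _)
    · have key : m • Sp ζ + 3 • Qp u
          = -((Qp u + (2 * m) • Sp ζ) + (Qp u + (2 * m) • Sp ζ)) + m • (5 • Sp ζ) + 5 • Qp u := by
        module
      rw [hS5, hQ5', smul_zero, add_zero, add_zero, ← hQc] at key
      rw [key]
      exact (hdbl _ (hu _)).neg
    · have key : m • Sp ζ + 4 • Qp u
          = -(Qp u + (4 * m) • Sp ζ) + m • (5 • Sp ζ) + 5 • Qp u := by
        module
      rw [hS5, hQ5', smul_zero, add_zero, add_zero, ← hQc] at key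
      rw [key]
      exact (hQp _ (hu _)).neg
  obtain ⟨hfin, hcard⟩ := card_five_torsion_le h2 h5 A B
  obtain ⟨hind, hsurj⟩ := torsStruct_abstract (Sp ζ) (Qp u) hS5 hQ5'
    (fun m n hm hn hmn => (hcoord m n hm hn hmn).ne_zero) hfin hcard
  exact ⟨Sp ζ, Qp u, hQp u rfl, hS5, hQ5', hind, hcoord, hsurj⟩

end Fermat.Agent.S52
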